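/-
S13, WP-F (assembly), part 1: the linear algebra of a plane with a marked line.
-/
import Mathlib

set_option autoImplicit false

namespace Fermat.Agent.S13

section PlaneLine

variable {F V : Type*} [Field F] [AddCommGroup V] [Module F V]

/-- In a vector space generated by two vectors, a proper nonzero subspace `N` is a line and
`V ⧸ N` is a line, in elementary terms. -/
theorem plane_line_facts (x₀ y₀ : V) (hgen : ∀ z : V, ∃ a b : F, z = a • x₀ + b • y₀)
    (N : Submodule F V) (h0 : N ≠ ⊥) (h1 : N ≠ ⊤) :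
    (∃ u ∈ N, u ≠ 0 ∧ ∀ n ∈ N, ∃ c : F, n = c • u) ∧
      (∃ w, w ∉ N ∧ ∀ z : V, ∃ c : F, z - c • w ∈ N) := by
  classical
  have hspan : Submodule.span F ({x₀, y₀} : Set V) = ⊤ := by
    rw [eq_top_iff]
    intro z _
    obtain ⟨a, b, rfl⟩ := hgen z
    exact Submodule.add_mem _
      (Submodule.smul_mem _ _ (Submodule.subset_span (by simp)))
      (Submodule.smul_mem _ _ (Submodule.subset_span (by simp)))
  have : Module.Finite F V := by
    refine ⟨⟨{x₀, y₀}, ?_⟩⟩
    simpa using hspan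
  have hV2 : Module.finrank F V ≤ 2 := by
    have h := finrank_span_finset_le_card (R := F) ({x₀, y₀} : Finset V)
    have h' : Set.finrank F (({x₀, y₀} : Finset V) : Set V) = Module.finrank F V := by
      unfold Set.finrank
      have : ((({x₀, y₀} : Finset V) : Set V)) = ({x₀, y₀} : Set V) := by simp
      rw [this, hspan, finrank_top]
    rw [h'] at h
    exact h.trans (Finset.card_insert_le _ _ |>.trans (by simp))
  have hN1 : 0 < Module.finrank F N := by
    rw [Module.finrank_pos_iff]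
    exact (Submodule.nontrivial_iff_ne_bot).2 h0
  have hNV : Module.finrank F N < Module.finrank F V := Submodule.finrank_lt h1
  have hN : Module.finrank F N = 1 := by omega
  have hV : Module.finrank F V = 2 := by omega
  have hQ : Module.finrank F (V ⧸ N) = 1 := by
    have := Submodule.finrank_quotient_add_finrank N
    omega
  constructor
  · obtain ⟨u, hu0, hu⟩ := finrank_eq_one_iff'.1 hN
    refine ⟨u.1, u.2, fun h => hu0 (Subtype.ext h), fun n hn => ?_⟩
    obtain ⟨c, hc⟩ := hu ⟨n, hn⟩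
    exact ⟨c, by rw [← Submodule.coe_smul, hc]⟩
  · obtain ⟨w, hw0, hw⟩ := finrank_eq_one_iff'.1 hQ
    obtain ⟨w', rfl⟩ := Submodule.Quotient.mk_surjective N w
    refine ⟨w', fun h => hw0 ((Submodule.Quotient.mk_eq_zero N).2 h), fun z => ?_⟩
    obtain ⟨c, hc⟩ := hw (Submodule.Quotient.mk z)
    refine ⟨c, ?_⟩
    rw [← Submodule.Quotient.mk_smul] at hc
    exact (Submodule.Quotient.eq N).1 hc.symm

/-- A nilpotent (square zero) endomorphism preserving the marked line kills the line and maps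
everything into the line. -/
theorem square_zero_facts (N : Submodule F V)
    (hline : ∃ u ∈ N, u ≠ 0 ∧ ∀ n ∈ N, ∃ c : F, n = c • u)
    (hquot : ∃ w, w ∉ N ∧ ∀ z : V, ∃ c : F, z - c • w ∈ N)
    (T : V →ₗ[F] V) (hTN : ∀ n ∈ N, T n ∈ N) (hT2 : ∀ x, T (T x) = 0) :
    (∀ n ∈ N, T n = 0) ∧ ∀ x, T x ∈ N := by
  obtain ⟨u, huN, hu0, hu⟩ := hline
  obtain ⟨w, hwN, hw⟩ := hquot
  have hTu : T u = 0 := by
    obtain ⟨c, hc⟩ := hu (T u) (hTN u huN)
    have h2 := hT2 u
    rw [hc, map_smul, hc, smul_smul] at h2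
    rcases smul_eq_zero.1 h2 with h | h
    · have hc0 : c = 0 := by simpa using h
      rw [hc, hc0, zero_smul]
    · exact absurd h hu0
  have hkill : ∀ n ∈ N, T n = 0 := by
    intro n hn
    obtain ⟨d, rfl⟩ := hu n hn
    rw [map_smul, hTu, smul_zero]
  have hTw : T w ∈ N := by
    obtain ⟨c, hc⟩ := hw (T w)
    have h2 := hT2 w
    have h3 : T (T w) = T (T w - c • w) + c • (T w - c • w) + (c * c) • w := by
      rw [map_sub, map_smul, smul_sub, smul_smul]; abel
    rw [h2, hkill _ hc, zero_add] at h3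
    by_cases hc0 : c = 0
    · simpa [hc0] using hc
    · exfalso
      apply hwN
      have h4 : (c * c) • w = -(c • (T w - c • w)) := by
        rw [eq_neg_iff_add_eq_zero, add_comm]; exact h3.symm
      have h5 : (c * c) • w ∈ N := by
        rw [h4]; exact N.neg_mem (N.smul_mem c hc)
      have h6 := N.smul_mem (c * c)⁻¹ h5
      rwa [smul_smul, inv_mul_cancel₀ (mul_ne_zero hc0 hc0), one_smul] at h6
  refine ⟨hkill, fun x => ?_⟩
  obtain ⟨d, hd⟩ := hw x
  have : T x = T (x - d • w) + d • T w := by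
    rw [map_sub, map_smul]; abel
  rw [this]
  exact N.add_mem (hTN _ hd) (N.smul_mem d hTw)

/-- A proper subspace is either inside the marked line or meets it trivially. -/
theorem proper_le_or_inf_eq_bot (N : Submodule F V)
    (hline : ∃ u ∈ N, u ≠ 0 ∧ ∀ n ∈ N, ∃ c : F, n = c • u)
    (hquot : ∃ w, w ∉ N ∧ ∀ z : V, ∃ c : F, z - c • w ∈ N)
    (M : Submodule F V) (hM : M ≠ ⊤) : M ≤ N ∨ M ⊓ N = ⊥ := by
  obtain ⟨u, huN, hu0, hu⟩ := hline
  obtain ⟨w, hwN, hw⟩ := hquot
  by_cases hle : M ≤ N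
  · exact Or.inl hle
  right
  by_contra hbot
  apply hM
  -- a nonzero vector of `M ⊓ N`
  obtain ⟨n, hn, hn0⟩ := (Submodule.ne_bot_iff _).1 hbot
  obtain ⟨c, hc⟩ := hu n hn.2
  have hc0 : c ≠ 0 := by
    rintro rfl
    exact hn0 (by rw [hc, zero_smul])
  have huM : u ∈ M := by
    have h := M.smul_mem c⁻¹ hn.1
    rwa [hc, smul_smul, inv_mul_cancel₀ hc0, one_smul] at h
  have hNM : N ≤ M := by
    intro n' hn'
    obtain ⟨d, rfl⟩ := hu n' hn'
    exact M.smul_mem d huM
  -- a vector of `M` outside `N`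
  obtain ⟨m, hmM, hmN⟩ := Set.not_subset.1 hle
  obtain ⟨d, hd⟩ := hw m
  have hd0 : d ≠ 0 := by
    rintro rfl
    exact hmN (by simpa using hd)
  have hwM : w ∈ M := by
    have h1 : d • w ∈ M := by
      have : d • w = m - (m - d • w) := by abel
      rw [this]
      exact M.sub_mem hmM (hNM hd)
    have h := M.smul_mem d⁻¹ h1
    rwa [smul_smul, inv_mul_cancel₀ hd0, one_smul] at h
  rw [eq_top_iff]
  intro z _
  obtain ⟨e, he⟩ := hw z
  have : z = (z - e • w) + e • w := by abel
  rw [this]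
  exact M.add_mem (hNM he) (M.smul_mem e hwM)

end PlaneLine

end Fermat.Agent.S13
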