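/-
S13, WP-F (assembly): the statement S13 from the blueprint inputs
[NT], [GEN2], [L2], [NoRat], [Lp], [MINK], [EX] (taken as hypotheses, in the exact shapes of the
blueprint) and the landed `Fermat.Agent.S05.result`.
-/
import Fermat.Statements.S13
import Fermat.Agent.S05
import Fermat.Agent.S13.AsmLin

set_option autoImplicit false
open WeierstrassCurve WeierstrassCurve.Affine WeierstrassCurve.Affine.Point
open FreyPackage

namespace Fermat.Agent.S13

local notation "Kb" => AlgebraicClosure ℚ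
local notation "GQ" => (AlgebraicClosure ℚ ≃ₐ[ℚ] AlgebraicClosure ℚ)

section Action

variable {E : WeierstrassCurve ℚ} {n : ℕ}

/-- The set of coordinates of a point. -/
def coordSet : (E⁄Kb).Point → Set Kb
  | .zero => ∅
  | @Point.some _ _ _ x y _ => {x, y}

theorem coordSet_finite (Q : (E⁄Kb).Point) : (coordSet Q).Finite := by
  cases Q with
  | zero => exact Set.finite_empty
  | some x y h => exact (Set.finite_singleton y).insert x

theorem smul_eq_self_of_coordSet (σ : GQ) (Q : (E⁄Kb).Point)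
    (h : ∀ s ∈ coordSet Q, σ s = s) : σ • Q = Q := by
  cases Q with
  | zero => rfl
  | some x y hxy =>
    have hx : σ x = x := h x (by simp [coordSet])
    have hy : σ y = y := h y (by simp [coordSet])
    change Point.map (W' := E) σ.toAlgHom (Point.some x y hxy) = _
    rw [Point.map_some]
    simp only [Point.some.injEq]
    exact ⟨hx, hy⟩

/-- The Galois action commutes with the `ZMod n`-scalars. -/
theorem galois_smul_zmod (σ : GQ) (c : ZMod n) (x : (Submodule.torsionBy ℤ (E⁄Kb).Point n)) : σ • (c • x) = c • (σ • x) :=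
  ZMod.map_smul (DistribSMul.toAddMonoidHom (Submodule.torsionBy ℤ (E⁄Kb).Point n) σ) c x

theorem galois_smul_nsmul (σ : GQ) (i : ℕ) (x : (Submodule.torsionBy ℤ (E⁄Kb).Point n)) : σ • (i • x) = i • (σ • x) :=
  map_nsmul (DistribSMul.toAddMonoidHom (Submodule.torsionBy ℤ (E⁄Kb).Point n) σ) i x

/-- `σ - 1` as a `ZMod n`-linear endomorphism of the torsion module. -/
noncomputable def galT (σ : GQ) : (Submodule.torsionBy ℤ (E⁄Kb).Point n) →ₗ[ZMod n] (Submodule.torsionBy ℤ (E⁄Kb).Point n) where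
  toFun x := σ • x - x
  map_add' x y := by rw [smul_add]; abel
  map_smul' c x := by rw [RingHom.id_apply, galois_smul_zmod, smul_sub]

theorem galT_apply (σ : GQ) (x : (Submodule.torsionBy ℤ (E⁄Kb).Point n)) : galT σ x = σ • x - x := rfl

/-- The subgroup acting trivially on a submodule. -/
def fixSub (N : Submodule (ZMod n) (Submodule.torsionBy ℤ (E⁄Kb).Point n)) : Subgroup GQ where
  carrier := {σ | ∀ x ∈ N, σ • x = x}
  one_mem' := fun x _ => one_smul _ x
  mul_mem' := fun {σ τ} hσ hτ x hx => by rw [mul_smul, hτ x hx, hσ x hx]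
  inv_mem' := fun {σ} hσ x hx => by
    rw [inv_smul_eq_iff]
    exact (hσ x hx).symm

theorem mem_fixSub (N : Submodule (ZMod n) (Submodule.torsionBy ℤ (E⁄Kb).Point n)) (σ : GQ) :
    σ ∈ fixSub N ↔ ∀ x ∈ N, σ • x = x := Iff.rfl

theorem fixSub_normal (N : Submodule (ZMod n) (Submodule.torsionBy ℤ (E⁄Kb).Point n)) (hst : IsGaloisStable ℚ N) :
    (fixSub N).Normal := by
  refine ⟨fun σ hσ τ x hx => ?_⟩
  rw [mul_smul, mul_smul, hσ _ (hst τ⁻¹ x hx), smul_inv_smul]

/-- The subgroup acting trivially modulo a Galois-stable submodule. -/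
def cofixSub (N : Submodule (ZMod n) (Submodule.torsionBy ℤ (E⁄Kb).Point n)) (hst : IsGaloisStable ℚ N) : Subgroup GQ where
  carrier := {σ | ∀ x : (Submodule.torsionBy ℤ (E⁄Kb).Point n), σ • x - x ∈ N}
  one_mem' := fun x => by rw [one_smul, sub_self]; exact N.zero_mem
  mul_mem' := fun {σ τ} hσ hτ x => by
    have : (σ * τ) • x - x = σ • (τ • x - x) + (σ • x - x) := by
      rw [mul_smul, smul_sub]; abel
    rw [this]
    exact N.add_mem (hst σ _ (hτ x)) (hσ x)
  inv_mem' := fun {σ} hσ x => by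
    have : σ⁻¹ • x - x = -(σ⁻¹ • (σ • x - x)) := by
      rw [smul_sub, inv_smul_smul]; abel
    rw [this]
    exact N.neg_mem (hst σ⁻¹ _ (hσ x))

theorem mem_cofixSub (N : Submodule (ZMod n) (Submodule.torsionBy ℤ (E⁄Kb).Point n)) (hst : IsGaloisStable ℚ N) (σ : GQ) :
    σ ∈ cofixSub N hst ↔ ∀ x : (Submodule.torsionBy ℤ (E⁄Kb).Point n), σ • x - x ∈ N := Iff.rfl

theorem cofixSub_normal (N : Submodule (ZMod n) (Submodule.torsionBy ℤ (E⁄Kb).Point n)) (hst : IsGaloisStable ℚ N) :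
    (cofixSub N hst).Normal := by
  refine ⟨fun σ hσ τ x => ?_⟩
  have : (τ * σ * τ⁻¹) • x - x = τ • (σ • (τ⁻¹ • x) - τ⁻¹ • x) := by
    rw [mul_smul, mul_smul, smul_sub, smul_inv_smul]
  rw [this]
  exact hst τ _ (hσ _)

end Action

/-- [ASSEMBLY] S13 from the blueprint inputs. -/
theorem s13_of_inputs (P : FreyPackage)
    (hNT : Nontrivial (Submodule.torsionBy ℤ (P.freyCurve⁄Kb).Point P.p))
    (hGEN : ∃ x₀ y₀ : Submodule.torsionBy ℤ (P.freyCurve⁄Kb).Point P.p,
      ∀ z : Submodule.torsionBy ℤ (P.freyCurve⁄Kb).Point P.p, ∃ i j : ℕ, z = i • x₀ + j • y₀)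
    (hL2 : ∀ A : ValuationSubring Kb, A.LiesOverPrime 2 → ∀ σ : GQ, σ ∈ A.inertiaSubgroupIn ℚ →
      ∀ x : Submodule.torsionBy ℤ (P.freyCurve⁄Kb).Point P.p, σ • (σ • x - x) = σ • x - x)
    (hNoRat : ∀ x : Submodule.torsionBy ℤ (P.freyCurve⁄Kb).Point P.p,
      (∀ σ : GQ, σ • x = x) → x = 0)
    (hLp : ∀ N₀ : Submodule (ZMod P.p) (Submodule.torsionBy ℤ (P.freyCurve⁄Kb).Point P.p),
      IsGaloisStable ℚ N₀ → N₀ ≠ ⊥ → N₀ ≠ ⊤ →
      ∀ A : ValuationSubring Kb, A.LiesOverPrime P.p →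
      ∃ M : Submodule (ZMod P.p) (Submodule.torsionBy ℤ (P.freyCurve⁄Kb).Point P.p), M ≠ ⊤ ∧
        ∀ σ ∈ A.inertiaSubgroupIn ℚ,
          ∀ x : Submodule.torsionBy ℤ (P.freyCurve⁄Kb).Point P.p, σ • x - x ∈ M)
    (hMINK : ∀ (H : Subgroup GQ) [H.Normal],
      (∃ S : Set Kb, S.Finite ∧ ∀ σ : GQ, (∀ s ∈ S, σ s = s) → σ ∈ H) →
      (∀ q : ℕ, q.Prime → ∃ A : ValuationSubring Kb, A.LiesOverPrime q ∧
        A.inertiaSubgroupIn ℚ ≤ H) → H = ⊤)
    (hEX : ∀ q : ℕ, q.Prime → ∃ A : ValuationSubring Kb, A.LiesOverPrime q)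
    (hred : ¬ GaloisRepIsIrreducible (K := AlgebraicClosure ℚ) ℚ P.freyCurve P.p) :
    HasGaloisStableCofixedLine (K := AlgebraicClosure ℚ) ℚ P.freyCurve P.p := by
  have : Fact P.p.Prime := ⟨P.pp⟩
  -- a proper nonzero stable subspace
  have hex : ∃ N₀ : Submodule (ZMod P.p) (Submodule.torsionBy ℤ (P.freyCurve⁄Kb).Point P.p),
      IsGaloisStable ℚ N₀ ∧ N₀ ≠ ⊥ ∧ N₀ ≠ ⊤ := by
    by_contra hcon
    apply hred
    refine ⟨hNT, fun N hN => ?_⟩
    by_contra h
    exact hcon ⟨N, hN, fun h0 => h (Or.inl h0), fun h1 => h (Or.inr h1)⟩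
  obtain ⟨N₀, hst, h0, h1⟩ := hex
  obtain ⟨x₀, y₀, hgen⟩ := hGEN
  obtain ⟨hline, hquot⟩ := plane_line_facts (F := ZMod P.p) x₀ y₀ (fun z => by
    obtain ⟨i, j, hz⟩ := hgen z
    exact ⟨(i : ZMod P.p), (j : ZMod P.p), by
      rw [Nat.cast_smul_eq_nsmul, Nat.cast_smul_eq_nsmul]; exact hz⟩) N₀ h0 h1
  -- the stabilisers contain the pointwise stabiliser of a finite set
  have hopen : ∀ H : Subgroup GQ,
      (∀ σ : GQ, (∀ z : Submodule.torsionBy ℤ (P.freyCurve⁄Kb).Point P.p, σ • z = z) → σ ∈ H) →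
      ∃ S : Set Kb, S.Finite ∧ ∀ σ : GQ, (∀ s ∈ S, σ s = s) → σ ∈ H := by
    intro H hH
    refine ⟨coordSet x₀.1 ∪ coordSet y₀.1, (coordSet_finite _).union (coordSet_finite _),
      fun σ hσ => hH σ fun z => ?_⟩
    have hx : σ • x₀ = x₀ :=
      Subtype.ext (smul_eq_self_of_coordSet σ x₀.1 fun s hs => hσ s (Or.inl hs))
    have hy : σ • y₀ = y₀ :=
      Subtype.ext (smul_eq_self_of_coordSet σ y₀.1 fun s hs => hσ s (Or.inr hs))
    obtain ⟨i, j, rfl⟩ := hgen z
    rw [smul_add, galois_smul_nsmul, galois_smul_nsmul, hx, hy]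
  -- inertia at `2`: unipotent, hence trivial on the line and on the quotient
  have h2 : ∀ A : ValuationSubring Kb, A.LiesOverPrime 2 → ∀ σ ∈ A.inertiaSubgroupIn ℚ,
      (∀ x ∈ N₀, σ • x = x) ∧
        ∀ x : Submodule.torsionBy ℤ (P.freyCurve⁄Kb).Point P.p, σ • x - x ∈ N₀ := by
    intro A hA σ hσ
    obtain ⟨hk, hi⟩ := square_zero_facts N₀ hline hquot (galT σ)
      (fun n hn => N₀.sub_mem (hst σ n hn) hn) (fun x => by
        rw [galT_apply, galT_apply, hL2 A hA σ hσ x, sub_self])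
    exact ⟨fun x hx => sub_eq_zero.1 (hk x hx), hi⟩
  -- inertia at `p`
  obtain ⟨Ap, hAp⟩ := hEX P.p P.pp
  obtain ⟨M, hMtop, hM⟩ := hLp N₀ hst h0 h1 Ap hAp
  rcases proper_le_or_inf_eq_bot N₀ hline hquot M hMtop with hle | hbot
  · -- everything acts trivially modulo `N₀`
    have := cofixSub_normal N₀ hst
    have htop : cofixSub N₀ hst = ⊤ := by
      refine hMINK (cofixSub N₀ hst)
        (hopen _ fun σ hσ x => by rw [hσ x, sub_self]; exact N₀.zero_mem) (fun q hq => ?_)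
      by_cases hq2 : q = 2
      · subst hq2
        obtain ⟨A, hA⟩ := hEX 2 hq
        exact ⟨A, hA, fun σ hσ => (h2 A hA σ hσ).2⟩
      · by_cases hqp : q = P.p
        · subst hqp
          exact ⟨Ap, hAp, fun σ hσ x => hle (hM σ hσ x)⟩
        · obtain ⟨A, hA⟩ := hEX q hq
          refine ⟨A, hA, fun σ hσ x => ?_⟩
          have hx : σ • x = x := Fermat.Agent.S05.result P hq hq2 hqp A hA σ hσ x
          rw [hx, sub_self]
          exact N₀.zero_mem
    refine ⟨N₀, hst, h0, h1, fun σ x => ?_⟩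
    have hσ : σ ∈ cofixSub N₀ hst := by rw [htop]; exact Subgroup.mem_top σ
    exact hσ x
  · -- everything acts trivially on `N₀`: a rational point, contradiction
    exfalso
    have := fixSub_normal N₀ hst
    have htop : fixSub N₀ = ⊤ := by
      refine hMINK (fixSub N₀) (hopen _ fun σ hσ x _ => hσ x) (fun q hq => ?_)
      by_cases hq2 : q = 2
      · subst hq2
        obtain ⟨A, hA⟩ := hEX 2 hq
        exact ⟨A, hA, fun σ hσ => (h2 A hA σ hσ).1⟩
      · by_cases hqp : q = P.p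
        · subst hqp
          refine ⟨Ap, hAp, fun σ hσ x hx => ?_⟩
          have hmem : σ • x - x ∈ M ⊓ N₀ :=
            ⟨hM σ hσ x, N₀.sub_mem (hst σ x hx) hx⟩
          rw [hbot] at hmem
          exact sub_eq_zero.1 ((Submodule.mem_bot _).1 hmem)
        · obtain ⟨A, hA⟩ := hEX q hq
          exact ⟨A, hA, fun σ hσ x _ => Fermat.Agent.S05.result P hq hq2 hqp A hA σ hσ x⟩
    obtain ⟨u, huN, hu0, -⟩ := hline
    refine hu0 (hNoRat u fun σ => ?_)
    have hσ : σ ∈ fixSub N₀ := by rw [htop]; exact Subgroup.mem_top σ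
    exact hσ u huN

end Fermat.Agent.S13
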