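import Fermat.Agent.S13.FF6

set_option autoImplicit false
set_option linter.unusedSectionVars false

/-!
# S13, WP-A, part 7: existence of torsion and the product inequality

* `exists_torsion_ne_zero` ([A1]): `E[m] ≠ 0` for odd `m > 1`.
* `torsion_prod_le` ([A2]): if all nonzero `m`-torsion points lie in the kernel of reduction,
  the poles of their `x`-coordinates are bounded by `v(m)⁻²`.
-/

namespace Fermat.Agent.S13

open Polynomial WeierstrassCurve WeierstrassCurve.Affine Fermat.Agent.S05

section Order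

variable {Γ : Type*} [LinearOrderedCommGroupWithZero Γ]

theorem multiset_prod_le_one (s : Multiset Γ) (h : ∀ x ∈ s, x ≤ 1) : s.prod ≤ 1 := by
  induction s using Multiset.induction_on with
  | empty => simp
  | cons a s ih =>
    rw [Multiset.prod_cons]
    exact mul_le_one' (h a (Multiset.mem_cons_self a s))
      (ih fun x hx => h x (Multiset.mem_cons_of_mem hx))

theorem multiset_one_le_prod (s : Multiset Γ) (h : ∀ x ∈ s, 1 ≤ x) : 1 ≤ s.prod := by
  induction s using Multiset.induction_on with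
  | empty => simp
  | cons a s ih =>
    rw [Multiset.prod_cons]
    exact one_le_mul_of_one_le_of_one_le (h a (Multiset.mem_cons_self a s))
      (ih fun x hx => h x (Multiset.mem_cons_of_mem hx))

theorem multiset_prod_le_of_le {s t : Multiset Γ} (hst : s ≤ t) (h : ∀ x ∈ t, 1 ≤ x) :
    s.prod ≤ t.prod := by
  obtain ⟨u, rfl⟩ := Multiset.le_iff_exists_add.1 hst
  rw [Multiset.prod_add]
  exact le_mul_of_one_le_right' (multiset_one_le_prod u fun x hx => h x (Multiset.mem_add.2 (Or.inr hx)))

end Order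

variable {K : Type*} [Field K] [DecidableEq K] {W : WeierstrassCurve.Affine K}

/-- Every point of the curve is nonsingular. -/
theorem nonsingular_of_eqn (hW : Special W) (h2 : (2 : K) ≠ 0) (hb0 : W.a₄ ≠ 0)
    (hd0 : W.a₂ ^ 2 - 4 * W.a₄ ≠ 0) {a b : K}
    (hab : b ^ 2 = a ^ 3 + W.a₂ * a ^ 2 + W.a₄ * a) : W.Nonsingular a b := by
  rw [Affine.nonsingular_iff']
  refine ⟨(eqn_iff hW a b).2 hab, ?_⟩
  rw [hW.1, hW.2.1]
  by_contra hcon
  rw [not_or, not_not, not_not] at hcon
  obtain ⟨h1, h3⟩ := hcon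
  have hb : b = 0 := by
    have : (2 : K) * b = 0 := by linear_combination h3
    rcases mul_eq_zero.1 this with h | h
    · exact absurd h h2
    · exact h
  subst hb
  have hF : 3 * a ^ 2 + 2 * W.a₂ * a + W.a₄ = 0 := by linear_combination -h1
  have hc : a * (a ^ 2 + W.a₂ * a + W.a₄) = 0 := by linear_combination -hab
  rcases mul_eq_zero.1 hc with h | h
  · subst h
    apply hb0; linear_combination hF
  · have h5 : a * (2 * a + W.a₂) = 0 := by linear_combination hF - h
    rcases mul_eq_zero.1 h5 with h6 | h6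
    · subst h6
      apply hb0; linear_combination hF
    · apply hd0
      linear_combination (-4 : K) * h + (W.a₂ + 2 * a) * h6

/-- Two-torsion points are fixed by odd multiples. -/
theorem odd_nsmul_two_torsion (hW : Special W) {e : K} (h : W.Nonsingular e 0) {m : ℕ}
    (hm : Odd m) : m • Point.some e 0 h = Point.some e 0 h := by
  have h2R : 2 • Point.some e 0 h = 0 := by
    rw [two_nsmul]
    exact Point.add_of_Y_eq rfl (by rw [negY_eq hW]; simp)
  obtain ⟨k, rfl⟩ := hm
  rw [add_nsmul, one_nsmul, mul_nsmul, h2R, nsmul_zero, zero_add]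

section AlgClosed

variable [IsAlgClosed K] [CharZero K]

/-- [A1] nonzero `m`-torsion exists on `Y² = X³ + a₂X² + a₄X` (m odd, > 1). -/
theorem exists_torsion_ne_zero (hW : Special W)
    (hb0 : W.a₄ ≠ 0) (hd0 : W.a₂ ^ 2 - 4 * W.a₄ ≠ 0) {m : ℕ} (hm : Odd m) (hm1 : 1 < m) :
    ∃ R : W.Point, R ≠ 0 ∧ m • R = 0 := by
  have h2 : (2 : K) ≠ 0 := two_ne_zero
  have hm0 : (m : K) ≠ 0 := Nat.cast_ne_zero.2 (by omega)
  by_contra hcon
  simp only [not_exists, not_and] at hcon
  have hroot : ∀ a, (denM W hW h2 m).eval a ≠ 0 := by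
    intro a h0
    obtain ⟨b, hb⟩ := IsAlgClosed.exists_pow_nat_eq (a ^ 3 + W.a₂ * a ^ 2 + W.a₄ * a)
      (by norm_num : 0 < 2)
    have hns := nonsingular_of_eqn hW h2 hb0 hd0 hb
    exact hcon _ (Point.some_ne_zero hns) (torsion_of_den_eval_eq_zero hW h2 hb0 hns h0)
  have hB1 : denM W hW h2 m = 1 := by
    have hdeg : (denM W hW h2 m).degree = 0 := by
      by_contra hd
      obtain ⟨a, ha⟩ := IsAlgClosed.exists_root _ hd
      exact hroot a ha
    have hnd : (denM W hW h2 m).natDegree = 0 := by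
      rw [Polynomial.natDegree_eq_zero_iff_degree_le_zero, hdeg]
    exact Polynomial.eq_one_of_monic_natDegree_zero (denM_monic W hW h2 m) hnd
  have hdA : (numM W hW h2 m).natDegree = 1 := by
    rw [natDegree_numM hW h2 hm0, hB1, natDegree_one]
  have hlc := leadingCoeff_numM hW h2 hm0
  obtain ⟨e, he⟩ : ∃ e : K, e ^ 2 + W.a₂ * e + W.a₄ = 0 := by
    have hdeg : (X ^ 2 + C W.a₂ * X + C W.a₄ : K[X]).degree ≠ 0 := by
      have : (X ^ 2 + C W.a₂ * X + C W.a₄ : K[X]).degree = 2 := by
        compute_degree!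
      rw [this]; norm_num
    obtain ⟨e, he⟩ := IsAlgClosed.exists_root _ hdeg
    refine ⟨e, ?_⟩
    simpa [IsRoot] using he
  have he' : (-W.a₂ - e) ^ 2 + W.a₂ * (-W.a₂ - e) + W.a₄ = 0 := by linear_combination he
  have hee' : e - (-W.a₂ - e) ≠ 0 := by
    intro h
    apply hd0
    linear_combination (-4 : K) * he + (W.a₂ + 2 * e) * h
  have he0 : e ≠ 0 := by
    rintro rfl
    apply hb0; linear_combination he
  have he'0 : -W.a₂ - e ≠ 0 := by
    intro h
    apply hb0; rw [h] at he'; linear_combination he'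
  have hns : W.Nonsingular e 0 := nonsingular_of_eqn hW h2 hb0 hd0 (by linear_combination -e * he)
  have hns' : W.Nonsingular (-W.a₂ - e) 0 :=
    nonsingular_of_eqn hW h2 hb0 hd0 (by linear_combination -(-W.a₂ - e) * he')
  have hA := Polynomial.eq_X_add_C_of_natDegree_le_one (le_of_eq hdA)
  have hlc' : (numM W hW h2 m).leadingCoeff = (numM W hW h2 m).coeff 1 := by
    rw [leadingCoeff, hdA]
  have ev : ∀ z, (numM W hW h2 m).eval z
      = (numM W hW h2 m).coeff 1 * z + (numM W hW h2 m).coeff 0 := by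
    intro z
    conv_lhs => rw [hA]
    simp
  have h1 := num_eval_of_fixed hW h2 hb0 hns he0 (odd_nsmul_two_torsion hW hns hm)
  have h1' := num_eval_of_fixed hW h2 hb0 hns' he'0 (odd_nsmul_two_torsion hW hns' hm)
  rw [hB1, eval_one, mul_one, ev] at h1 h1'
  have h3 : ((numM W hW h2 m).coeff 1 - 1) * (e - (-W.a₂ - e)) = 0 := by
    linear_combination h1 - h1'
  have h4 : (numM W hW h2 m).coeff 1 = 1 := by
    rcases mul_eq_zero.1 h3 with h | h
    · exact sub_eq_zero.1 h
    · exact absurd h hee'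
  rw [hlc', h4, mul_one] at hlc
  have h5 : m ^ 2 = 1 := by exact_mod_cast hlc
  nlinarith

/-- [A2] if ALL nonzero `m`-torsion points lie in the kernel of reduction `E₁`, then the poles of
their `x`-coordinates are bounded by `v(m)⁻²`. -/
theorem torsion_prod_le {Γ₀ : Type*} [LinearOrderedCommGroupWithZero Γ₀] (v : Valuation K Γ₀)
    (hW : Special W)
    (ha : v W.a₂ ≤ 1) (hb : v W.a₄ ≤ 1) (hb0 : W.a₄ ≠ 0) (hd0 : W.a₂ ^ 2 - 4 * W.a₄ ≠ 0)
    (e : K) (he : e ^ 2 + W.a₂ * e + W.a₄ = 0) (hev : v e = 1)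
    {m : ℕ} (hm : Odd m)
    (hall : ∀ R : W.Point, m • R = 0 → R ≠ 0 → InE1 v R)
    (S : Finset W.Point) (hS : ∀ R ∈ S, m • R = 0 ∧ R ≠ 0) :
    v (m : K) ^ 2 * ∏ R ∈ S, v (xc R) ≤ 1 := by
  have h2 : (2 : K) ≠ 0 := two_ne_zero
  have hm0 : (m : K) ≠ 0 := Nat.cast_ne_zero.2 (by rcases hm with ⟨k, rfl⟩; omega)
  have he0 : e ≠ 0 := ne_zero_of_unit v hev
  have hns : W.Nonsingular e 0 := nonsingular_of_eqn hW h2 hb0 hd0 (by linear_combination -e * he)
  -- A(e) = e * B(e)
  have hAB := num_eval_of_fixed hW h2 hb0 hns he0 (odd_nsmul_two_torsion hW hns hm)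
  -- points above a given abscissa
  have hpt : ∀ a : K, ∃ b : K, W.Nonsingular a b := by
    intro a
    obtain ⟨b, hb⟩ := IsAlgClosed.exists_pow_nat_eq (a ^ 3 + W.a₂ * a ^ 2 + W.a₄ * a)
      (by norm_num : 0 < 2)
    exact ⟨b, nonsingular_of_eqn hW h2 hb0 hd0 hb⟩
  -- Step 2: v(m)^2 * v(A(e)) ≤ 1
  have hA : v (m : K) ^ 2 * v ((numM W hW h2 m).eval e) ≤ 1 := by
    rw [(IsAlgClosed.splits (numM W hW h2 m)).eval_eq_prod_roots, map_mul, ← mul_assoc,
      ← map_pow, ← map_mul, leadingCoeff_numM hW h2 hm0, map_one, one_mul, map_multiset_prod,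
      Multiset.map_map]
    apply multiset_prod_le_one
    intro x hx
    obtain ⟨r, hr, rfl⟩ := Multiset.mem_map.1 hx
    have hr0 : (numM W hW h2 m).eval r = 0 := (Polynomial.mem_roots'.1 hr).2
    obtain ⟨b, hnsr⟩ := hpt r
    obtain ⟨hT, hmT⟩ := nsmul_eq_T_of_num_eval_eq_zero hW h2 hm0 hnsr hr0
    have hvr : v r ≤ 1 := by
      by_contra hcon
      rw [not_le] at hcon
      have hE : InE1 v (Point.some r b hnsr) := hcon
      have := inE1_nsmul v hW ha hb hE m
      rw [hmT] at this
      have h0 : (1 : Γ₀) < v 0 := this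
      rw [map_zero] at h0
      exact not_lt_zero h0
    exact int_sub v (le_of_eq hev) hvr
  -- Step 3: v(B(e)) = ∏ v(a) over the roots of B, all > 1
  have hroot : ∀ a ∈ (denM W hW h2 m).roots, 1 < v a := by
    intro a ha
    have ha0 : (denM W hW h2 m).eval a = 0 := (Polynomial.mem_roots'.1 ha).2
    obtain ⟨b, hnsa⟩ := hpt a
    exact hall _ (torsion_of_den_eval_eq_zero hW h2 hb0 hnsa ha0) (Point.some_ne_zero hnsa)
  have hB : v ((denM W hW h2 m).eval e) = ((denM W hW h2 m).roots.map v).prod := by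
    rw [(IsAlgClosed.splits (denM W hW h2 m)).eval_eq_prod_roots_of_monic (denM_monic W hW h2 m),
      map_multiset_prod, Multiset.map_map]
    congr 1
    apply Multiset.map_congr rfl
    intro a ha
    have h1 := hroot a ha
    change v (e - a) = v a
    rw [Valuation.map_sub_swap]
    exact Valuation.map_sub_eq_of_lt_left v (by rw [hev]; exact h1)
  -- Step 4: the abscissae of S form a sub-multiset of the roots of B
  have hsub : S.val.map (fun R => xc R) ≤ (denM W hW h2 m).roots := by
    rw [Multiset.le_iff_count]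
    intro a
    rw [Polynomial.count_roots]
    by_cases hmem : a ∈ S.val.map (fun R => xc R)
    swap
    · rw [Multiset.count_eq_zero_of_notMem hmem]; exact Nat.zero_le _
    obtain ⟨R₀, hR₀S, hR₀a⟩ := Multiset.mem_map.1 hmem
    obtain ⟨hmR₀, hR₀0⟩ := hS R₀ hR₀S
    cases R₀ with
    | zero => exact absurd rfl hR₀0
    | some x₀ b₀ h₀ =>
      have hx₀ : x₀ = a := hR₀a
      subst hx₀
      have hb₀ : b₀ ≠ 0 := by
        rintro rfl
        have := odd_nsmul_two_torsion hW h₀ hm
        rw [hmR₀] at this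
        exact Point.some_ne_zero h₀ this.symm
      rw [rootMultiplicity_den_of_torsion hW h2 hm0 h₀ hb₀ hmR₀]
      obtain ⟨h₀', -⟩ := neg_some_eq hW h₀
      rw [Multiset.count_map]
      have hsubset : Multiset.filter (fun R : W.Point => x₀ = xc R) S.val
          ≤ ({Point.some x₀ b₀ h₀, Point.some x₀ (-b₀) h₀'} : Finset W.Point).val := by
        rw [Multiset.le_iff_subset (Multiset.Nodup.filter _ S.nodup)]
        intro R hR
        obtain ⟨hRS, hRx⟩ := Multiset.mem_filter.1 hR
        obtain ⟨-, hR0⟩ := hS R hRS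
        cases R with
        | zero => exact absurd rfl hR0
        | some x y h =>
          have hx : x₀ = x := hRx
          subst hx
          have e1 := eqn_of_nonsingular hW h
          have e2 := eqn_of_nonsingular hW h₀
          have h3 : (y - b₀) * (y + b₀) = 0 := by linear_combination e1 - e2
          rw [Finset.mem_val, Finset.mem_insert, Finset.mem_singleton]
          rcases mul_eq_zero.1 h3 with h4 | h4
          · left
            have : y = b₀ := sub_eq_zero.1 h4
            subst this; rfl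
          · right
            have : y = -b₀ := eq_neg_of_add_eq_zero_left h4
            subst this; rfl
      calc Multiset.card (Multiset.filter (fun R : W.Point => x₀ = xc R) S.val)
          ≤ Multiset.card ({Point.some x₀ b₀ h₀, Point.some x₀ (-b₀) h₀'} : Finset W.Point).val :=
            Multiset.card_le_card hsubset
        _ ≤ 2 := Finset.card_le_two
  -- Step 5
  have hprod : ∏ R ∈ S, v (xc R) ≤ v ((denM W hW h2 m).eval e) := by
    rw [hB, Finset.prod_eq_multiset_prod]
    have h1 : Multiset.map (fun R => v (xc R)) S.val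
        = Multiset.map v (S.val.map (fun R => xc R)) := by
      rw [Multiset.map_map]; rfl
    rw [h1]
    apply multiset_prod_le_of_le (Multiset.map_le_map hsub)
    intro x hx
    obtain ⟨a, ha, rfl⟩ := Multiset.mem_map.1 hx
    exact le_of_lt (hroot a ha)
  -- Step 6
  calc v (m : K) ^ 2 * ∏ R ∈ S, v (xc R)
      ≤ v (m : K) ^ 2 * v ((denM W hW h2 m).eval e) := mul_le_mul_right hprod _
    _ = v (m : K) ^ 2 * v ((numM W hW h2 m).eval e) := by
        rw [hAB, map_mul, hev, one_mul]
    _ ≤ 1 := hA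

end AlgClosed

end Fermat.Agent.S13
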