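import Mathlib
import Fermat.Prelude.Def_FLTPrelim_Ramification
import Fermat.Agent.S05.Inertia

set_option autoImplicit false

/-!
# S13, work package E: basic facts on valuation subrings of `AlgebraicClosure ℚ`

* `exists_valuationSubring_liesOverPrime`: existence of a valuation subring over a prime;
* `exists_rat_of_fixed`: Galois-fixed elements are rational;
* `valuation_rat`: the valuation of a rational number;
* `mem_inertiaSubgroupIn_of`: a criterion for membership in the inertia subgroup.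
-/

open scoped Pointwise

namespace Fermat.Agent.S13

local notation "Kb" => AlgebraicClosure ℚ

/-- (E2) There is a valuation subring of `AlgebraicClosure ℚ` over every prime. -/
theorem exists_valuationSubring_liesOverPrime (q : ℕ) (hq : q.Prime) :
    ∃ A : ValuationSubring Kb, A.LiesOverPrime q := by
  let R : Subring Kb := (algebraMap ℤ Kb).range
  let qR : R := ⟨(q : Kb), ⟨(q : ℤ), by simp⟩⟩
  have hI : Ideal.span {qR} ≠ ⊤ := by
    intro h
    rw [Ideal.span_singleton_eq_top] at h
    obtain ⟨m, hm⟩ := h.exists_right_inv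
    obtain ⟨m, ⟨k, hk⟩⟩ := m
    have h1 : (q : Kb) * (k : Kb) = 1 := by
      have := congrArg (Subtype.val : R → Kb) hm
      simpa [qR, ← hk] using this
    have h2 : (q : ℤ) * k = 1 := by
      have : (((q : ℤ) * k : ℤ) : Kb) = ((1 : ℤ) : Kb) := by push_cast; exact h1
      exact_mod_cast this
    have h3 : (q : ℤ) ∣ 1 := ⟨k, h2.symm⟩
    have h4 : q ∣ 1 := by exact_mod_cast h3
    exact hq.one_lt.ne' (Nat.dvd_one.mp h4)
  obtain ⟨A, -, hA⟩ := Ideal.image_subset_nonunits_valuationSubring _ hI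
  exact ⟨A, hA ⟨qR, Ideal.subset_span rfl, rfl⟩⟩

theorem isAlgClosure_Kb : IsAlgClosure ℚ Kb := by
  have h : (DivisionRing.toRatAlgebra : Algebra ℚ Kb) = AlgebraicClosure.instAlgebra ℚ :=
    Subsingleton.elim _ _
  rw [h]
  infer_instance

theorem isGalois_Kb : IsGalois ℚ Kb := by
  have := isAlgClosure_Kb
  infer_instance

/-- (E3) An element fixed by the whole Galois group is rational. -/
theorem exists_rat_of_fixed (x : Kb) (h : ∀ σ : Kb ≃ₐ[ℚ] Kb, σ x = x) :
    ∃ r : ℚ, algebraMap ℚ Kb r = x := by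
  have := isGalois_Kb
  exact (InfiniteGalois.mem_range_algebraMap_iff_fixed (k := ℚ) (K := Kb) x).mpr h

theorem valuation_natCast_prime_ne_zero (A : ValuationSubring Kb) {q : ℕ} (hq : q.Prime) :
    A.valuation (q : Kb) ≠ 0 := by
  rw [Ne, map_eq_zero]
  exact_mod_cast hq.ne_zero

theorem valuation_intCast (A : ValuationSubring Kb) {q : ℕ} (hq : q.Prime)
    (hA : A.LiesOverPrime q) (m : ℤ) (hm : m ≠ 0) :
    A.valuation (m : Kb) = A.valuation (q : Kb) ^ (padicValRat q (m : ℚ)) := by
  have : Fact q.Prime := ⟨hq⟩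
  obtain ⟨m', hmm', hm'⟩ := (Int.finiteMultiplicity_iff.2
    ⟨by simpa using hq.ne_one, hm⟩ : FiniteMultiplicity (q : ℤ) m).exists_eq_pow_mul_and_not_dvd
  generalize multiplicity (q : ℤ) m = e at hmm'
  subst hmm'
  have hm'0 : m' ≠ 0 := by
    rintro rfl
    simp at hm
  have h1 : A.valuation (m' : Kb) = 1 := S05.valuation_intCast_eq_one A hq hA m' hm'
  have h2 : padicValRat q (m' : ℚ) = 0 := by
    rw [padicValRat.of_int, padicValInt.eq_zero_of_not_dvd hm']
    rfl
  have hq0 : (q : ℚ) ≠ 0 := by exact_mod_cast hq.ne_zero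
  have hm'q : (m' : ℚ) ≠ 0 := by exact_mod_cast hm'0
  push_cast
  rw [map_mul, map_pow, h1, mul_one, padicValRat.mul (pow_ne_zero _ hq0) hm'q, h2, add_zero,
    padicValRat.pow, padicValRat.self hq.one_lt, mul_one, zpow_natCast]

/-- (E4) The valuation of a rational number at a valuation subring over `q`. -/
theorem valuation_rat (A : ValuationSubring Kb) {q : ℕ} (hq : q.Prime)
    (hA : A.LiesOverPrime q) (r : ℚ) (hr : r ≠ 0) :
    A.valuation (algebraMap ℚ Kb r) = A.valuation (q : Kb) ^ (padicValRat q r) := by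
  have : Fact q.Prime := ⟨hq⟩
  have hnum : r.num ≠ 0 := Rat.num_ne_zero.mpr hr
  have hden : (r.den : ℤ) ≠ 0 := by exact_mod_cast r.den_ne_zero
  have hr' : r = (r.num : ℚ) / ((r.den : ℤ) : ℚ) := by
    rw [Int.cast_natCast]
    exact (Rat.num_div_den r).symm
  have h1 := valuation_intCast A hq hA r.num hnum
  have h2 := valuation_intCast A hq hA (r.den : ℤ) hden
  have h3 : algebraMap ℚ Kb r = (r.num : Kb) / ((r.den : ℤ) : Kb) := by
    conv_lhs => rw [hr']
    rw [map_div₀]
    simp
  have hnq : (r.num : ℚ) ≠ 0 := by exact_mod_cast hnum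
  have hdq : ((r.den : ℤ) : ℚ) ≠ 0 := by exact_mod_cast hden
  rw [h3, map_div₀, h1, h2]
  conv_rhs => rw [hr', padicValRat.div hnq hdq]
  rw [zpow_sub₀ (valuation_natCast_prime_ne_zero A hq)]

/-- (E5) A criterion for membership in the inertia subgroup (converse of
`S05.inertia_props`). -/
theorem mem_inertiaSubgroupIn_of (A : ValuationSubring Kb) (σ : Kb ≃ₐ[ℚ] Kb)
    (h1 : ∀ x ∈ A, σ x ∈ A) (h1' : ∀ x, σ x ∈ A → x ∈ A)
    (h2 : ∀ x ∈ A, A.valuation (σ x - x) < 1) : σ ∈ A.inertiaSubgroupIn ℚ := by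
  have hdec : σ ∈ A.decompositionSubgroup ℚ := by
    show σ • A = A
    ext x
    rw [ValuationSubring.mem_pointwise_smul_iff_inv_smul_mem]
    constructor
    · intro hx
      have := h1 _ hx
      simpa using this
    · intro hx
      apply h1'
      simpa using hx
  refine ⟨⟨σ, hdec⟩, ?_, rfl⟩
  show MulSemiringAction.toRingAut (A.decompositionSubgroup ℚ) (IsLocalRing.ResidueField A)
    ⟨σ, hdec⟩ = 1
  ext y
  obtain ⟨a, rfl⟩ := IsLocalRing.residue_surjective y
  show (⟨σ, hdec⟩ : A.decompositionSubgroup ℚ) • IsLocalRing.residue A a = IsLocalRing.residue A a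
  rw [← IsLocalRing.ResidueField.residue_smul, ← sub_eq_zero, ← map_sub,
    IsLocalRing.residue_eq_zero_iff, ValuationSubring.valuation_lt_one_iff]
  exact h2 a a.2

end Fermat.Agent.S13
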