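import Mathlib
import Fermat.Prelude.Def_FLTPrelim_Ramification

set_option autoImplicit false

open scoped Pointwise

namespace Fermat.Agent.S13

local notation "Kb" => AlgebraicClosure ℚ

/-- The value group of a valuation subring of `ℚ̄` is "commensurable" with the values of rational
numbers: some positive power of any nonzero `x` has the valuation of a nonzero rational. -/
theorem valuation_pow_eq_rat (A : ValuationSubring Kb) (x : Kb) (hx : x ≠ 0) :
    ∃ (n : ℕ) (ρ : ℚ), n ≠ 0 ∧ ρ ≠ 0 ∧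
      A.valuation (x ^ n) = A.valuation (algebraMap ℚ Kb ρ) := by
  classical
  have hint : IsIntegral ℚ x := ((AlgebraicClosure.isAlgebraic ℚ).isAlgebraic x).isIntegral
  set f := minpoly ℚ x with hf
  have hf0 : f ≠ 0 := minpoly.ne_zero hint
  have hfx : ∑ i ∈ f.support, algebraMap ℚ Kb (f.coeff i) * x ^ i = 0 := by
    have h := minpoly.aeval ℚ x
    rw [Polynomial.aeval_def, Polynomial.eval₂_eq_sum, Polynomial.sum_def] at h
    exact h
  have hne : f.support.Nonempty := Polynomial.nonempty_support_iff.2 hf0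
  set g : ℕ → _ := fun i => A.valuation (algebraMap ℚ Kb (f.coeff i) * x ^ i) with hg
  obtain ⟨i₀, hi₀, hmax⟩ := Finset.exists_max_image f.support g hne
  have hc : ∀ i ∈ f.support, algebraMap ℚ Kb (f.coeff i) ≠ 0 := by
    intro i hi
    rw [Ne, map_eq_zero]
    exact Polynomial.mem_support_iff.1 hi
  have hterm : ∀ i ∈ f.support, algebraMap ℚ Kb (f.coeff i) * x ^ i ≠ 0 := fun i hi =>
    mul_ne_zero (hc i hi) (pow_ne_zero i hx)
  have hg0 : g i₀ ≠ 0 := (Valuation.ne_zero_iff _).2 (hterm i₀ hi₀)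
  -- a second index with the same (maximal) valuation
  obtain ⟨j, hj, hji, hgj⟩ : ∃ j ∈ f.support, j ≠ i₀ ∧ g j = g i₀ := by
    by_contra hcon
    replace hcon : ∀ j ∈ f.support, j ≠ i₀ → g j ≠ g i₀ := fun j hj hji hgj =>
      hcon ⟨j, hj, hji, hgj⟩
    have hlt : ∀ j ∈ f.support.erase i₀, A.valuation (algebraMap ℚ Kb (f.coeff j) * x ^ j)
        < g i₀ := by
      intro j hj
      have hj' := Finset.mem_erase.1 hj
      exact lt_of_le_of_ne (hmax j hj'.2) (hcon j hj'.2 hj'.1)
    have h1 := Valuation.map_sum_lt A.valuation hg0 hlt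
    have h2 : ∑ j ∈ f.support.erase i₀, algebraMap ℚ Kb (f.coeff j) * x ^ j
        = -(algebraMap ℚ Kb (f.coeff i₀) * x ^ i₀) := by
      rw [eq_neg_iff_add_eq_zero, add_comm,
        Finset.add_sum_erase f.support (fun i => algebraMap ℚ Kb (f.coeff i) * x ^ i) hi₀]
      exact hfx
    rw [h2, Valuation.map_neg] at h1
    exact lt_irrefl _ h1
  -- general extraction
  have key : ∀ lo hi : ℕ, lo ∈ f.support → hi ∈ f.support → lo < hi → g lo = g hi →
      ∃ (n : ℕ) (ρ : ℚ), n ≠ 0 ∧ ρ ≠ 0 ∧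
        A.valuation (x ^ n) = A.valuation (algebraMap ℚ Kb ρ) := by
    intro lo hi hlo hhi hlt hgg
    have hclo : f.coeff lo ≠ 0 := Polynomial.mem_support_iff.1 hlo
    have hchi : f.coeff hi ≠ 0 := Polynomial.mem_support_iff.1 hhi
    refine ⟨hi - lo, f.coeff lo / f.coeff hi, by omega, div_ne_zero hclo hchi, ?_⟩
    have hvx : A.valuation x ≠ 0 := (Valuation.ne_zero_iff _).2 hx
    have hvhi : A.valuation (algebraMap ℚ Kb (f.coeff hi)) ≠ 0 :=
      (Valuation.ne_zero_iff _).2 (hc hi hhi)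
    have e : A.valuation (algebraMap ℚ Kb (f.coeff lo)) * A.valuation x ^ lo
        = A.valuation (algebraMap ℚ Kb (f.coeff hi)) * A.valuation x ^ hi := by
      simpa [hg, map_mul, map_pow] using hgg
    have e2 : A.valuation x ^ hi = A.valuation x ^ lo * A.valuation x ^ (hi - lo) := by
      rw [← pow_add]; congr 1; omega
    have e3 : A.valuation (algebraMap ℚ Kb (f.coeff lo))
        = A.valuation (algebraMap ℚ Kb (f.coeff hi)) * A.valuation x ^ (hi - lo) := by
      apply mul_left_cancel₀ (pow_ne_zero lo hvx)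
      rw [mul_comm, e, e2, mul_left_comm]
    rw [map_pow, map_div₀, map_div₀, e3, mul_div_cancel_left₀ _ hvhi]
  rcases lt_or_gt_of_ne hji with h | h
  · exact key j i₀ hj hi₀ h hgj
  · exact key i₀ j hi₀ hj h hgj.symm

/-- An automorphism stabilising a valuation subring of `ℚ̄` preserves its valuation. -/
theorem decomp_valuation_eq (A : ValuationSubring Kb) (σ : Kb ≃ₐ[ℚ] Kb) (hσ : σ • A = A)
    (x : Kb) : A.valuation (σ x) = A.valuation x := by
  by_cases hx : x = 0
  · rw [hx, map_zero]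
  have hmem : ∀ y, y ∈ A → σ y ∈ A := by
    intro y hy
    have h := ValuationSubring.smul_mem_pointwise_smul σ y A hy
    rw [hσ] at h
    exact h
  have hunit : ∀ y, A.valuation y = 1 → A.valuation (σ y) = 1 := by
    intro y hy
    have hy0 : y ≠ 0 := by
      rintro rfl
      simp at hy
    have h1 : A.valuation (σ y) ≤ 1 := by
      rw [ValuationSubring.valuation_le_one_iff]
      apply hmem
      rw [← ValuationSubring.valuation_le_one_iff, hy]
    have h2 : A.valuation (σ y⁻¹) ≤ 1 := by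
      rw [ValuationSubring.valuation_le_one_iff]
      apply hmem
      rw [← ValuationSubring.valuation_le_one_iff, map_inv₀, hy, inv_one]
    rw [map_inv₀, map_inv₀] at h2
    have hσy0 : A.valuation (σ y) ≠ 0 :=
      (Valuation.ne_zero_iff _).2 ((map_ne_zero σ).2 hy0)
    have h3 : 1 ≤ A.valuation (σ y) := (inv_le_one₀ (zero_lt_iff.2 hσy0)).1 h2
    exact le_antisymm h1 h3
  obtain ⟨n, ρ, hn, hρ, hval⟩ := valuation_pow_eq_rat A x hx
  have hρ' : algebraMap ℚ Kb ρ ≠ 0 := by rwa [Ne, map_eq_zero]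
  have hvρ : A.valuation (algebraMap ℚ Kb ρ) ≠ 0 := (Valuation.ne_zero_iff _).2 hρ'
  have hu : A.valuation (x ^ n / algebraMap ℚ Kb ρ) = 1 := by
    rw [map_div₀, hval, div_self hvρ]
  have hσu := hunit _ hu
  rw [map_div₀, map_pow, AlgEquiv.commutes, map_div₀, div_eq_one_iff_eq hvρ, ← hval, map_pow,
    map_pow] at hσu
  exact (pow_left_inj₀ zero_le zero_le hn).1 hσu

/-- Elements of the decomposition group preserve the valuation. -/
theorem decompositionSubgroup_valuation_eq (A : ValuationSubring Kb) (σ : Kb ≃ₐ[ℚ] Kb)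
    (hσ : σ ∈ A.decompositionSubgroup ℚ) (x : Kb) : A.valuation (σ x) = A.valuation x :=
  decomp_valuation_eq A σ hσ x

/-- Elements of the inertia group preserve the valuation. -/
theorem inertiaSubgroupIn_valuation_eq (A : ValuationSubring Kb) (σ : Kb ≃ₐ[ℚ] Kb)
    (hσ : σ ∈ A.inertiaSubgroupIn ℚ) (x : Kb) : A.valuation (σ x) = A.valuation x := by
  obtain ⟨g, -, rfl⟩ := hσ
  exact decomp_valuation_eq A g g.2 x

end Fermat.Agent.S13
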