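import Fermat.Agent.S13.TwoGen
import Fermat.Agent.S13.DecompVal
import Fermat.Agent.S05.Inertia

set_option autoImplicit false

/-!
# Project S13: the Frey curve at the prime two

* `frey_two_coeffs`, `frey_two_setup` : the Frey curve `Y² + XY = X³ + a₂X² + a₄X` has integral
  `a₂` and even nonzero `a₄` (multiplicative reduction at two).
* `inertia_two_unipotent` : inertia at two acts unipotently on `E[p]` (blueprint [L2]).
* `torsion_two_generators_of` : `E[p]` is generated by two elements (blueprint [GEN2], given a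
  valuation subring above two).
-/

namespace Fermat.Agent.S13

open WeierstrassCurve WeierstrassCurve.Affine WeierstrassCurve.Affine.Point
open Fermat.Agent.S05 (xc InE1 InE0)

local notation "Kb" => AlgebraicClosure ℚ
local notation "GQ" => (AlgebraicClosure ℚ ≃ₐ[ℚ] AlgebraicClosure ℚ)

/-- 2-adic shape of the coefficients of the Frey curve. -/
theorem frey_two_coeffs (P : FreyPackage) :
    ∃ n₂ n₄ : ℤ, P.freyCurve.a₂ = (n₂ : ℚ) ∧ P.freyCurve.a₄ = (n₄ : ℚ) ∧ (2 : ℤ) ∣ n₄ ∧ n₄ ≠ 0 ∧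
      16 * n₄ = -(P.a ^ P.p) * P.b ^ P.p ∧ ¬ (2 : ℤ) ∣ P.a := by
  obtain ⟨b', hb'⟩ : (2 : ℤ) ∣ P.b := by
    have := (ZMod.intCast_zmod_eq_zero_iff_dvd P.b 2).1 P.hb2
    exact_mod_cast this
  have ha4 : (4 : ℤ) ∣ P.a - 3 := by
    have h := P.ha4
    have h3 : ((3 : ℤ) : ZMod 4) = (P.a : ZMod 4) := by rw [h]; norm_num
    have := (ZMod.intCast_eq_intCast_iff_dvd_sub 3 P.a 4).1 h3
    exact_mod_cast this
  obtain ⟨a', ha'⟩ := ha4
  have hp5 := P.hp5
  obtain ⟨k, hk⟩ : ∃ k, P.p = k + 5 := ⟨P.p - 5, by omega⟩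
  have hamod : P.a ≡ -1 [ZMOD 4] := by
    rw [Int.modEq_iff_dvd]
    exact ⟨-(a' + 1), by linarith⟩
  have hapow : P.a ^ P.p ≡ -1 [ZMOD 4] := by
    have := hamod.pow P.p
    rwa [Odd.neg_one_pow P.hp_odd] at this
  obtain ⟨c, hc⟩ := Int.modEq_iff_dvd.1 hapow
  have h2p : (2 : ℤ) ^ P.p = 32 * 2 ^ k := by
    rw [hk, pow_add]
    norm_num
    ring
  have hbpow : P.b ^ P.p = 32 * (2 ^ k * b' ^ P.p) := by
    rw [hb', mul_pow, h2p]
    ring
  have hb'0 : b' ≠ 0 := by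
    rintro rfl
    exact P.hb0 (by rw [hb', mul_zero])
  refine ⟨8 * (2 ^ k * b' ^ P.p) + c, -(P.a ^ P.p) * b' ^ P.p * 2 ^ (k + 1), ?_, ?_, ?_, ?_, ?_, ?_⟩
  · change ((P.b : ℚ) ^ P.p - 1 - (P.a : ℚ) ^ P.p) / 4 = _
    rw [div_eq_iff (by norm_num)]
    have h : P.b ^ P.p - 1 - P.a ^ P.p = (8 * (2 ^ k * b' ^ P.p) + c) * 4 := by
      rw [hbpow]; linarith
    exact_mod_cast h
  · change -((P.a : ℚ) ^ P.p) * (P.b : ℚ) ^ P.p / 16 = _
    rw [div_eq_iff (by norm_num)]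
    have h : -(P.a ^ P.p) * P.b ^ P.p = -(P.a ^ P.p) * b' ^ P.p * 2 ^ (k + 1) * 16 := by
      rw [hbpow, pow_succ]; ring
    exact_mod_cast h
  · exact ⟨-(P.a ^ P.p) * b' ^ P.p * 2 ^ k, by rw [pow_succ]; ring⟩
  · exact mul_ne_zero (mul_ne_zero (neg_ne_zero.2 (pow_ne_zero _ P.ha0)) (pow_ne_zero _ hb'0))
      (pow_ne_zero _ two_ne_zero)
  · rw [hbpow, pow_succ]; ring
  · rintro ⟨d, hd⟩
    omega

/-- The hypotheses of the abstract 2-adic core hold for the Frey curve at any valuation subring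
above two. -/
theorem frey_two_setup (P : FreyPackage) (A : ValuationSubring Kb) (hA : A.LiesOverPrime 2) :
    Special2 (P.freyCurve⁄Kb) ∧ A.valuation (P.freyCurve⁄Kb).a₂ ≤ 1 ∧
      A.valuation (P.freyCurve⁄Kb).a₄ < 1 ∧ (P.freyCurve⁄Kb).a₄ ≠ 0 ∧
      A.valuation (2 : Kb) < 1 ∧ A.valuation ((P.p : ℕ) : Kb) = 1 := by
  obtain ⟨n₂, n₄, h2, h4, hdvd, hn0, -, -⟩ := frey_two_coeffs P
  have c1 : (P.freyCurve⁄Kb).a₁ = 1 := by
    have : P.freyCurve.a₁ = 1 := rfl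
    simp [this]
  have c3 : (P.freyCurve⁄Kb).a₃ = 0 := by
    have : P.freyCurve.a₃ = 0 := rfl
    simp [this]
  have c6 : (P.freyCurve⁄Kb).a₆ = 0 := by
    have : P.freyCurve.a₆ = 0 := rfl
    simp [this]
  have c2 : (P.freyCurve⁄Kb).a₂ = (n₂ : Kb) := by
    have : (P.freyCurve⁄Kb).a₂ = algebraMap ℚ Kb P.freyCurve.a₂ := by simp
    rw [this, h2]
    simp
  have c4 : (P.freyCurve⁄Kb).a₄ = (n₄ : Kb) := by
    have : (P.freyCurve⁄Kb).a₄ = algebraMap ℚ Kb P.freyCurve.a₄ := by simp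
    rw [this, h4]
    simp
  refine ⟨⟨c1, c3, c6⟩, ?_, ?_, ?_, ?_, ?_⟩
  · rw [c2]; exact S05.inertia_valuation_intCast_le_one A n₂
  · rw [c4]; exact S05.valuation_intCast_lt_one A hA n₄ (by exact_mod_cast hdvd)
  · rw [c4]; exact_mod_cast hn0
  · have := A.mem_nonunits_iff.mp hA
    simpa using this
  · have := S05.valuation_intCast_eq_one A Nat.prime_two hA (P.p : ℤ) (by
      intro h
      have h' : 2 ∣ P.p := by exact_mod_cast h
      have h5 := P.hp5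
      have := (Nat.prime_dvd_prime_iff_eq Nat.prime_two P.pp).1 h'
      omega)
    simpa using this

/-- Inertia at two acts unipotently on the `p`-torsion points of the Frey curve. -/
theorem frey_two_unipotent_pt (P : FreyPackage) (A : ValuationSubring Kb)
    (hA : A.LiesOverPrime 2) (σ : GQ) (hσ : σ ∈ A.inertiaSubgroupIn ℚ)
    (Q : (P.freyCurve⁄Kb).Point) (hQ : P.p • Q = 0) : σ • (σ • Q - Q) = σ • Q - Q := by
  obtain ⟨hW, ha, hb, hb0, h2, hpv⟩ := frey_two_setup P A hA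
  obtain ⟨hσ1, hσ1', hσ2⟩ := S05.inertia_props A σ hσ
  have hσv := inertiaSubgroupIn_valuation_eq A σ hσ
  have hp2 : P.p ≠ 2 := by have := P.hp5; omega
  have hτ : ∀ (x y : Kb) (h : (P.freyCurve⁄Kb).Nonsingular x y),
      ∃ h' : (P.freyCurve⁄Kb).Nonsingular ((σ.toAlgHom : Kb →+* Kb) x)
        ((σ.toAlgHom : Kb →+* Kb) y),
        Point.map (W' := P.freyCurve) σ.toAlgHom (Point.some x y h)
          = Point.some ((σ.toAlgHom : Kb →+* Kb) x) ((σ.toAlgHom : Kb →+* Kb) y) h' :=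
    fun x y h => ⟨_, Point.map_some (W' := P.freyCurve) σ.toAlgHom h⟩
  exact tau_sub_fixed_2 A.valuation (σ.toAlgHom : Kb →+* Kb)
    (Point.map (W' := P.freyCurve) σ.toAlgHom) hW ha hb (nonsingular_T2 hW hb0) h2
    (fun x hx => hσ1' x hx) (fun x hx => hσ1 x hx) (fun x hx => hσ2 x hx) (fun x => hσv x) hτ
    P.pp hp2 hpv hQ

/-- Blueprint [L2]: inertia at `2` acts unipotently on `E[p]`: `(σ - 1)² = 0`. -/
theorem inertia_two_unipotent (P : FreyPackage) (A : ValuationSubring Kb)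
    (hA : A.LiesOverPrime 2) (σ : GQ) (hσ : σ ∈ A.inertiaSubgroupIn ℚ)
    (x : Submodule.torsionBy ℤ (P.freyCurve⁄Kb).Point P.p) :
    σ • (σ • x - x) = σ • x - x := by
  apply Subtype.ext
  have hx := (Submodule.mem_torsionBy_iff _ _).1 x.2
  have hx' : P.p • x.1 = 0 := by
    rw [← hx, natCast_zsmul]
  exact frey_two_unipotent_pt P A hA σ hσ x.1 hx'

/-- Blueprint [GEN2], given a valuation subring above two: `E[p]` is generated by two elements. -/
theorem torsion_two_generators_of (P : FreyPackage) (A : ValuationSubring Kb)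
    (hA : A.LiesOverPrime 2) :
    ∃ x₀ y₀ : Submodule.torsionBy ℤ (P.freyCurve⁄Kb).Point P.p,
      ∀ z : Submodule.torsionBy ℤ (P.freyCurve⁄Kb).Point P.p, ∃ i j : ℕ, z = i • x₀ + j • y₀ := by
  obtain ⟨hW, ha, hb, hb0, h2, hpv⟩ := frey_two_setup P A hA
  have hp2 : P.p ≠ 2 := by have := P.hp5; omega
  obtain ⟨P₁, P₂, hP₁, hP₂, hgen⟩ := torsion_two_gen A.valuation hW ha hb hb0 h2 P.pp hp2 hpv
  have hmem : ∀ R : (P.freyCurve⁄Kb).Point, P.p • R = 0 →
      R ∈ Submodule.torsionBy ℤ (P.freyCurve⁄Kb).Point P.p := by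
    intro R hR
    rw [Submodule.mem_torsionBy_iff, natCast_zsmul]
    exact hR
  refine ⟨⟨P₁, hmem P₁ hP₁⟩, ⟨P₂, hmem P₂ hP₂⟩, fun z => ?_⟩
  have hz := (Submodule.mem_torsionBy_iff _ _).1 z.2
  have hz' : P.p • z.1 = 0 := by
    rw [← hz, natCast_zsmul]
  obtain ⟨i, j, hij⟩ := hgen z.1 hz'
  refine ⟨i, j, Subtype.ext ?_⟩
  rw [hij]
  simp

end Fermat.Agent.S13
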