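/-
S13 integration hub: the real theorems behind the scaffolding stubs used by `NT.lean` and
`InertiaP.lean`:
* `TorsV P` (abbreviation for `E[p](ℚ̄)` of the Frey curve);
* [A1] `exists_torsion_ne_zero`, [A2] `torsion_prod_le` (from `FF7.lean`);
* (E2), (E3), (E4) (from `MinkBasic.lean`);
* [GEN2] `torsion_two_generators` (from `TwoFrey.lean` and (E2)).
-/
import Fermat.Statements.S13
import Fermat.Agent.S05.Assembly
import Fermat.Agent.S13.FF7
import Fermat.Agent.S13.MinkBasic
import Fermat.Agent.S13.TwoFrey

set_option autoImplicit false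
open WeierstrassCurve WeierstrassCurve.Affine WeierstrassCurve.Affine.Point
open FreyPackage

namespace Fermat.Agent.S13

local notation "Kb" => AlgebraicClosure ℚ
local notation "GQ" => (AlgebraicClosure ℚ ≃ₐ[ℚ] AlgebraicClosure ℚ)

/-- `E[p](ℚ̄)` for the Frey curve, with the Prelude's `GQ`-action and `ZMod p`-module structure. -/
abbrev TorsV (P : FreyPackage) : Type :=
  Submodule.torsionBy ℤ (P.freyCurve⁄Kb).Point P.p

/-- [GEN2] `E[p]` is generated by two elements. -/
theorem torsion_two_generators (P : FreyPackage) :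
    ∃ x₀ y₀ : TorsV P, ∀ z : TorsV P, ∃ i j : ℕ, z = i • x₀ + j • y₀ := by
  obtain ⟨A, hA⟩ := exists_valuationSubring_liesOverPrime 2 Nat.prime_two
  exact torsion_two_generators_of P A hA

end Fermat.Agent.S13
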