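import Fermat.Agent.S13.Padic
import Fermat.Agent.S13.Hub

set_option autoImplicit false

namespace Fermat.Agent.S13

open WeierstrassCurve WeierstrassCurve.Affine WeierstrassCurve.Affine.Point Fermat.Agent.S05

local notation "Kb" => AlgebraicClosure ℚ
local notation "GQ" => (AlgebraicClosure ℚ ≃ₐ[ℚ] AlgebraicClosure ℚ)

/-- `y`-coordinate of a point, junk value `0` at infinity. -/
def ycoord {K : Type*} [Field K] {W : WeierstrassCurve.Affine K} : W.Point → K
  | .zero => 0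
  | .some _ y _ => y

theorem xc_galois_smul (W' : WeierstrassCurve ℚ) (σ : GQ) (R : (W'⁄Kb).Point) :
    xc (σ • R) = σ (xc R) := by
  rcases R with _ | ⟨x, y, h⟩
  · exact (_root_.map_zero σ).symm
  · rfl

theorem ycoord_galois_smul (W' : WeierstrassCurve ℚ) (σ : GQ) (R : (W'⁄Kb).Point) :
    ycoord (σ • R) = σ (ycoord R) := by
  rcases R with _ | ⟨x, y, h⟩
  · exact (_root_.map_zero σ).symm
  · rfl

theorem one_lt_val_xc_of_inE1 {K : Type*} [Field K] {Γ₀ : Type*}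
    [LinearOrderedCommGroupWithZero Γ₀] (v : Valuation K Γ₀) {W : WeierstrassCurve.Affine K}
    {R : W.Point} (hR0 : R ≠ 0) (hR : InE1 v R) : 1 < v (xc R) := by
  rcases R with _ | ⟨x, y, h⟩
  · exact absurd rfl hR0
  · exact hR

theorem val_ycoord_sq_of_inE1 {K : Type*} [Field K] {Γ₀ : Type*}
    [LinearOrderedCommGroupWithZero Γ₀] (v : Valuation K Γ₀) {W : WeierstrassCurve.Affine K}
    (hW : Special W) (ha : v W.a₂ ≤ 1) (hb : v W.a₄ ≤ 1)
    {R : W.Point} (hR0 : R ≠ 0) (hR : InE1 v R) : v (ycoord R) ^ 2 = v (xc R) ^ 3 := by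
  rcases R with _ | ⟨x, y, h⟩
  · exact absurd rfl hR0
  · exact val_y_sq_of_pole v hW ha hb h hR

/-- A quadratic `e² + a₂ e + a₄` with integral coefficients, one of which is a unit, has a root
which is a unit (when `2` is a unit and square roots exist). -/
theorem exists_unit_root {K : Type*} [Field K] [DecidableEq K] {Γ₀ : Type*}
    [LinearOrderedCommGroupWithZero Γ₀] (v : Valuation K Γ₀) (hsq : ∀ w : K, ∃ g : K, g ^ 2 = w)
    (h2 : v (2 : K) = 1) (a₂ a₄ : K) (ha : v a₂ ≤ 1) (hb : v a₄ ≤ 1)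
    (hu : v a₂ = 1 ∨ v a₄ = 1) : ∃ e : K, e ^ 2 + a₂ * e + a₄ = 0 ∧ v e = 1 := by
  obtain ⟨g, hg⟩ := hsq (a₂ ^ 2 - 4 * a₄)
  have h20 : (2 : K) ≠ 0 := ne_zero_of_unit v h2
  have h4 : v (4 : K) = 1 := unit_four v h2
  have hgi : v g ≤ 1 := by
    apply int_of_sq_int
    rw [hg]
    exact int_sub v (int_pow v ha 2) (int_mul v (le_of_eq h4) hb)
  have hinv2 : v ((2 : K)⁻¹) = 1 := unit_inv v h2
  have e1 : ((-a₂ + g) * 2⁻¹) ^ 2 + a₂ * ((-a₂ + g) * 2⁻¹) + a₄ = 0 := by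
    field_simp
    linear_combination hg
  have e2 : ((-a₂ - g) * 2⁻¹) ^ 2 + a₂ * ((-a₂ - g) * 2⁻¹) + a₄ = 0 := by
    field_simp
    linear_combination hg
  have i1 : v ((-a₂ + g) * 2⁻¹) ≤ 1 :=
    int_mul v (int_add v (int_neg v ha) hgi) (le_of_eq hinv2)
  have i2 : v ((-a₂ - g) * 2⁻¹) ≤ 1 :=
    int_mul v (int_sub v (int_neg v ha) hgi) (le_of_eq hinv2)
  rcases lt_or_eq_of_le i1 with s1 | u1
  swap
  · exact ⟨_, e1, u1⟩
  rcases lt_or_eq_of_le i2 with s2 | u2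
  swap
  · exact ⟨_, e2, u2⟩
  exfalso
  have hsum : a₂ = -((-a₂ + g) * 2⁻¹ + (-a₂ - g) * 2⁻¹) := by
    field_simp
    ring
  have hprod : a₄ = ((-a₂ + g) * 2⁻¹) * ((-a₂ - g) * 2⁻¹) := by
    field_simp
    linear_combination hg
  rcases hu with hu | hu
  · have : v a₂ < 1 := by
      rw [hsum, Valuation.map_neg]
      exact sm_add v s1 s2
    rw [hu] at this
    exact lt_irrefl _ this
  · have : v a₄ < 1 := by
      rw [hprod]
      exact sm_mul_int v s1 i2
    rw [hu] at this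
    exact lt_irrefl _ this

/-- Value-group arithmetic: if `π < 1`, `(π^m)² = (π^n)³` and `π^n > 1` then `π² π^n ≥ 1`. -/
theorem one_le_sq_mul_zpow {Γ₀ : Type*} [LinearOrderedCommGroupWithZero Γ₀] (π : Γ₀)
    (hπ0 : π ≠ 0) (hπ1 : π < 1) (n m : ℤ) (h : (π ^ m) ^ 2 = (π ^ n) ^ 3) (hgt : 1 < π ^ n) :
    1 ≤ π ^ 2 * π ^ n := by
  have hπpos : 0 < π := zero_lt_iff.2 hπ0
  have h' : π ^ (m * 2) = π ^ (n * 3) := by
    rw [zpow_mul, zpow_mul]
    exact_mod_cast h
  have hmn : m * 2 = n * 3 := zpow_right_injective₀ hπpos (ne_of_lt hπ1) h'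
  have hn : n < 0 := by
    have h0 : π ^ (0 : ℤ) < π ^ n := by rw [zpow_zero]; exact hgt
    exact (zpow_lt_zpow_iff_right_of_lt_one₀ hπpos hπ1).1 h0
  have hn2 : 2 + n ≤ 0 := by omega
  have e : π ^ 2 * π ^ n = π ^ (2 + n) := by
    rw [zpow_add₀ hπ0]
    norm_cast
  rw [e]
  have := zpow_le_zpow_right_of_le_one₀ hπpos (le_of_lt hπ1) hn2
  rwa [zpow_zero] at this

/-- `NEED(p)`: given a proper nonzero Galois-stable subspace, not all of `E[p]` lies in the kernel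
of reduction at `p`. -/
theorem need_p (P : FreyPackage) (N₀ : Submodule (ZMod P.p) (TorsV P))
    (hst : IsGaloisStable ℚ N₀) (h0 : N₀ ≠ ⊥) (h1 : N₀ ≠ ⊤)
    (A : ValuationSubring Kb) (hA : A.LiesOverPrime P.p)
    (hall : ∀ x : TorsV P, InE1 A.valuation (x : (P.freyCurve⁄Kb).Point)) : False := by
  classical
  obtain ⟨a₂, a₄, r, hE2, hE4, hr, hred⟩ := frey_model P P.pp A hA
  have h2 : A.valuation (2 : Kb) = 1 := by
    have := valuation_intCast_eq_one A P.pp hA 2 (by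
      intro h
      have h' : P.p ∣ 2 := by exact_mod_cast h
      have := Nat.le_of_dvd (by norm_num) h'
      have := P.hp5
      omega)
    simpa using this
  have h4 : A.valuation (4 : Kb) = 1 := unit_four A.valuation h2
  obtain ⟨ψ, comm, hψ⟩ := exists_model_equiv P.freyCurve a₂ a₄ r rfl rfl rfl hE2 hE4 hr
  have d1 : ((modelCurve a₂ a₄)⁄Kb).a₁ = 0 := by simp [modelCurve]
  have d2 : ((modelCurve a₂ a₄)⁄Kb).a₂ = (a₂ : Kb) := by simp [modelCurve]
  have d3 : ((modelCurve a₂ a₄)⁄Kb).a₃ = 0 := by simp [modelCurve]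
  have d4 : ((modelCurve a₂ a₄)⁄Kb).a₄ = (a₄ : Kb) := by simp [modelCurve]
  have d6 : ((modelCurve a₂ a₄)⁄Kb).a₆ = 0 := by simp [modelCurve]
  have hW : Special ((modelCurve a₂ a₄)⁄Kb) := ⟨d1, d3, d6⟩
  have ha : A.valuation ((modelCurve a₂ a₄)⁄Kb).a₂ ≤ 1 := by
    rw [d2]; exact inertia_valuation_intCast_le_one A a₂
  have hb : A.valuation ((modelCurve a₂ a₄)⁄Kb).a₄ ≤ 1 := by
    rw [d4]; exact inertia_valuation_intCast_le_one A a₄
  have hiff := inE1_modelHom_iff P.freyCurve A h2 a₂ a₄ r ψ hψ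
  have hsq : ∀ w : Kb, ∃ g : Kb, g ^ 2 = w := fun w =>
    IsAlgClosed.exists_pow_nat_eq w (by norm_num)
  -- arithmetic of the model at `p`
  have hfacts : (A.valuation (a₂ : Kb) = 1 ∨ A.valuation (a₄ : Kb) = 1) ∧ (a₄ : Kb) ≠ 0 ∧
      (a₂ : Kb) ^ 2 - 4 * (a₄ : Kb) ≠ 0 := by
    have ha' := inertia_valuation_intCast_le_one A a₂
    have hb' := inertia_valuation_intCast_le_one A a₄
    have hD : A.valuation ((a₂ : Kb) ^ 2 - 4 * a₄) ≤ 1 :=
      int_sub A.valuation (int_pow A.valuation ha' 2) (int_mul A.valuation (le_of_eq h4) hb')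
    rcases hred with hgood | ⟨ha1, b₀, u, hbu, hu, hb₀, hb₀0⟩
    · have hbu : A.valuation (a₄ : Kb) = 1 :=
        unit_of_sq_unit A.valuation
          (unit_of_mul_unit_left A.valuation (int_pow A.valuation hb' 2) hD hgood)
      have hDu : A.valuation ((a₂ : Kb) ^ 2 - 4 * a₄) = 1 :=
        unit_of_mul_unit_right A.valuation (int_pow A.valuation hb' 2) hD hgood
      exact ⟨Or.inr hbu, ne_zero_of_unit A.valuation hbu, ne_zero_of_unit A.valuation hDu⟩
    · have hu0 : (u : Kb) ≠ 0 := ne_zero_of_unit A.valuation hu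
      have hb₀0' : (b₀ : Kb) ≠ 0 := by exact_mod_cast hb₀0
      have hb4 : (a₄ : Kb) = (u : Kb) * (b₀ : Kb) ^ P.p := by
        rw [hbu, Int.cast_mul, Int.cast_pow]
      have hbs : A.valuation (a₄ : Kb) < 1 := by
        rw [hb4, map_mul, hu, one_mul, map_pow]
        exact pow_lt_one₀ zero_le hb₀ P.hp0
      refine ⟨Or.inl ha1, ?_, ?_⟩
      · rw [hb4]; exact mul_ne_zero hu0 (pow_ne_zero _ hb₀0')
      · apply ne_zero_of_unit A.valuation
        exact unit_sub_sm A.valuation (unit_pow A.valuation ha1 2)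
          (int_mul_sm A.valuation (le_of_eq h4) hbs)
  obtain ⟨hunit, hb0, hd0⟩ := hfacts
  obtain ⟨e, he, hev⟩ := exists_unit_root A.valuation hsq h2 (a₂ : Kb) (a₄ : Kb)
    (inertia_valuation_intCast_le_one A a₂) (inertia_valuation_intCast_le_one A a₄) hunit
  -- finiteness of `E[p]`
  have hfin : Finite (TorsV P) := by
    obtain ⟨x₀, y₀, hgen⟩ := torsion_two_generators P
    have hsurj : Function.Surjective
        (fun ij : ZMod P.p × ZMod P.p => ij.1 • x₀ + ij.2 • y₀) := by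
      intro z
      obtain ⟨i, j, hz⟩ := hgen z
      refine ⟨((i : ZMod P.p), (j : ZMod P.p)), ?_⟩
      simp only [Nat.cast_smul_eq_nsmul]
      exact hz.symm
    have : NeZero P.p := ⟨P.hp0⟩
    exact Finite.of_surjective _ hsurj
  have : Fintype (TorsV P) := Fintype.ofFinite _
  -- the points of the model
  set f : TorsV P → ((modelCurve a₂ a₄)⁄Kb).Point := fun x => ψ (x : (P.freyCurve⁄Kb).Point)
    with hf
  have hfinj : Function.Injective f := fun x y hxy => Subtype.ext (ψ.injective hxy)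
  have hf0 : ∀ x : TorsV P, x ≠ 0 → f x ≠ 0 := by
    intro x hx hfx
    apply hx
    apply hfinj
    rw [hfx]
    exact (_root_.map_zero ψ).symm
  have hfE1 : ∀ x : TorsV P, InE1 A.valuation (f x) := fun x => (hiff _).2 (hall x)
  have hfp : ∀ x : TorsV P, P.p • f x = 0 := by
    intro x
    have hx := (Submodule.mem_torsionBy_iff _ _).1 x.2
    have hx' : P.p • (x : (P.freyCurve⁄Kb).Point) = 0 := by
      rw [← hx, natCast_zsmul]
    change P.p • ψ (x : (P.freyCurve⁄Kb).Point) = 0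
    rw [← map_nsmul, hx', _root_.map_zero]
  have hfσ : ∀ (σ : GQ) (x : TorsV P), f (σ • x) = σ • f x := fun σ x => comm σ x.1
  -- the finite set `N₀ ∖ 0`
  set T : Finset (TorsV P) := Finset.univ.filter (fun x => x ∈ N₀ ∧ x ≠ 0) with hT
  have hTmem : ∀ x, x ∈ T ↔ x ∈ N₀ ∧ x ≠ 0 := fun x => by simp [hT]
  have hTσ : ∀ (σ : GQ) (x : TorsV P), x ∈ T ↔ σ • x ∈ T := by
    intro σ x
    rw [hTmem, hTmem]
    constructor
    · rintro ⟨hx, hx0⟩
      exact ⟨hst σ x hx, fun h => hx0 ((smul_eq_zero_iff_eq σ).1 h)⟩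
    · rintro ⟨hx, hx0⟩
      refine ⟨?_, fun h => hx0 (by rw [h, smul_zero])⟩
      have := hst σ⁻¹ _ hx
      rwa [inv_smul_smul] at this
  obtain ⟨x₁, hx₁N, hx₁0⟩ := (Submodule.ne_bot_iff N₀).1 h0
  have hx₁T : x₁ ∈ T := (hTmem x₁).2 ⟨hx₁N, hx₁0⟩
  obtain ⟨q₀, hq₀⟩ : ∃ q₀ : TorsV P, q₀ ∉ N₀ := by
    by_contra hcon
    apply h1
    rw [eq_top_iff]
    intro x _
    by_contra hx
    exact hcon ⟨x, hx⟩
  have hq₀0 : q₀ ≠ 0 := fun h => hq₀ (h ▸ N₀.zero_mem)
  have hq₀T : q₀ ∉ T := fun h => hq₀ ((hTmem q₀).1 h).1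
  -- the two rational numbers
  set rr : Kb := ∏ x ∈ T, xc (f x) with hrr
  set ss : Kb := ∏ x ∈ T, ycoord (f x) with hss
  have hrrσ : ∀ σ : GQ, σ rr = rr := by
    intro σ
    rw [hrr, map_prod]
    have e1 : ∀ x ∈ T, σ (xc (f x)) = xc (f (σ • x)) := fun x _ => by
      rw [hfσ, xc_galois_smul]
    rw [Finset.prod_congr rfl e1]
    exact Finset.prod_equiv (MulAction.toPerm σ) (fun x => hTσ σ x) (fun x _ => rfl)
  have hssσ : ∀ σ : GQ, σ ss = ss := by
    intro σ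
    rw [hss, map_prod]
    have e1 : ∀ x ∈ T, σ (ycoord (f x)) = ycoord (f (σ • x)) := fun x _ => by
      rw [hfσ, ycoord_galois_smul]
    rw [Finset.prod_congr rfl e1]
    exact Finset.prod_equiv (MulAction.toPerm σ) (fun x => hTσ σ x) (fun x _ => rfl)
  obtain ⟨ρ, hρ⟩ := exists_rat_of_fixed rr hrrσ
  obtain ⟨ρ', hρ'⟩ := exists_rat_of_fixed ss hssσ
  -- valuations
  have hvr : A.valuation rr = ∏ x ∈ T, A.valuation (xc (f x)) := by rw [hrr, map_prod]
  have hvs : A.valuation ss = ∏ x ∈ T, A.valuation (ycoord (f x)) := by rw [hss, map_prod]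
  have hpole : ∀ x ∈ T, 1 < A.valuation (xc (f x)) := fun x hx =>
    one_lt_val_xc_of_inE1 A.valuation (hf0 x ((hTmem x).1 hx).2) (hfE1 x)
  have hvr1 : 1 < A.valuation rr := by
    rw [hvr, ← Finset.mul_prod_erase T _ hx₁T]
    have h1' : (1 : A.ValueGroup) ≤ ∏ x ∈ T.erase x₁, A.valuation (xc (f x)) :=
      Finset.one_le_prod' (fun x hx => le_of_lt (hpole x (Finset.mem_of_mem_erase hx)))
    calc (1 : A.ValueGroup) < A.valuation (xc (f x₁)) := hpole x₁ hx₁T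
      _ = A.valuation (xc (f x₁)) * 1 := (mul_one _).symm
      _ ≤ A.valuation (xc (f x₁)) * ∏ x ∈ T.erase x₁, A.valuation (xc (f x)) :=
        mul_le_mul_right h1' _
  have hvsr : A.valuation ss ^ 2 = A.valuation rr ^ 3 := by
    rw [hvr, hvs, ← Finset.prod_pow, ← Finset.prod_pow]
    exact Finset.prod_congr rfl (fun x hx =>
      val_ycoord_sq_of_inE1 A.valuation hW ha hb (hf0 x ((hTmem x).1 hx).2) (hfE1 x))
  have hrr0 : rr ≠ 0 := by
    intro h
    rw [h, _root_.map_zero] at hvr1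
    exact absurd hvr1 (not_lt.2 zero_le)
  have hss0 : ss ≠ 0 := by
    intro h
    rw [h, _root_.map_zero] at hvsr
    have : A.valuation rr = 0 := by
      have h3 : A.valuation rr ^ 3 = 0 := by rw [← hvsr]; simp
      exact pow_eq_zero_iff (three_ne_zero) |>.1 h3
    exact hrr0 ((Valuation.zero_iff _).1 this)
  have hρ0 : ρ ≠ 0 := by
    rintro rfl
    exact hrr0 (by rw [← hρ, _root_.map_zero])
  have hρ'0 : ρ' ≠ 0 := by
    rintro rfl
    exact hss0 (by rw [← hρ', _root_.map_zero])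
  have hπ1 : A.valuation ((P.p : ℕ) : Kb) < 1 := A.mem_nonunits_iff.mp hA
  have hπ0 : A.valuation ((P.p : ℕ) : Kb) ≠ 0 := by
    rw [Valuation.ne_zero_iff]
    exact_mod_cast P.hp0
  have hvρ := valuation_rat A P.pp hA ρ hρ0
  have hvρ' := valuation_rat A P.pp hA ρ' hρ'0
  rw [hρ] at hvρ
  rw [hρ'] at hvρ'
  have hge : 1 ≤ A.valuation ((P.p : ℕ) : Kb) ^ 2 * A.valuation rr := by
    rw [hvρ]
    apply one_le_sq_mul_zpow _ hπ0 hπ1 (padicValRat P.p ρ) (padicValRat P.p ρ')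
    · rw [← hvρ, ← hvρ']; exact hvsr
    · rw [← hvρ]; exact hvr1
  -- the product inequality [A2]
  have hall' : ∀ R : ((modelCurve a₂ a₄)⁄Kb).Point, P.p • R = 0 → R ≠ 0 →
      InE1 A.valuation R := by
    intro R hR _
    have hQ : (P.p : ℤ) • ψ.symm R = 0 := by
      rw [natCast_zsmul, ← map_nsmul, hR, _root_.map_zero]
    have := hfE1 ⟨ψ.symm R, (Submodule.mem_torsionBy_iff _ _).2 hQ⟩
    change InE1 A.valuation (ψ (ψ.symm R)) at this
    rwa [ψ.apply_symm_apply] at this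
  have hS : ∀ R ∈ (insert q₀ T).image f, P.p • R = 0 ∧ R ≠ 0 := by
    intro R hR
    obtain ⟨x, hx, rfl⟩ := Finset.mem_image.1 hR
    refine ⟨hfp x, hf0 x ?_⟩
    rcases Finset.mem_insert.1 hx with rfl | hx
    · exact hq₀0
    · exact ((hTmem x).1 hx).2
  have key := torsion_prod_le A.valuation hW ha hb (by rw [d4]; exact hb0)
    (by rw [d2, d4]; exact hd0) e (by rw [d2, d4]; exact he) hev P.hp_odd hall'
    ((insert q₀ T).image f) hS
  rw [Finset.prod_image (fun x _ y _ hxy => hfinj hxy), Finset.prod_insert hq₀T, ← hvr] at key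
  have hq : 1 < A.valuation (xc (f q₀)) :=
    one_lt_val_xc_of_inE1 A.valuation (hf0 q₀ hq₀0) (hfE1 q₀)
  have hcontra : 1 < A.valuation ((P.p : ℕ) : Kb) ^ 2 * (A.valuation (xc (f q₀)) * A.valuation rr) := by
    rw [mul_left_comm]
    calc (1 : A.ValueGroup) < A.valuation (xc (f q₀)) := hq
      _ = A.valuation (xc (f q₀)) * 1 := (mul_one _).symm
      _ ≤ A.valuation (xc (f q₀)) * (A.valuation ((P.p : ℕ) : Kb) ^ 2 * A.valuation rr) :=
        mul_le_mul_right hge _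
  exact absurd key (not_le.2 hcontra)

/-- [Lp] at `p`: inertia acts trivially modulo a PROPER subspace (the kernel of reduction),
provided a proper nonzero Galois-stable subspace exists. -/
theorem inertia_p (P : FreyPackage) (N₀ : Submodule (ZMod P.p) (TorsV P))
    (hst : IsGaloisStable ℚ N₀) (h0 : N₀ ≠ ⊥) (h1 : N₀ ≠ ⊤)
    (A : ValuationSubring Kb) (hA : A.LiesOverPrime P.p) :
    ∃ M : Submodule (ZMod P.p) (TorsV P), M ≠ ⊤ ∧
      ∀ σ ∈ A.inertiaSubgroupIn ℚ, ∀ x : TorsV P, σ • x - x ∈ M := by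
  obtain ⟨M, hM, hσ⟩ := frey_padic P A hA
  refine ⟨M, fun hMtop => ?_, hσ⟩
  refine need_p P N₀ hst h0 h1 A hA (fun x => (hM x).1 ?_)
  rw [hMtop]
  exact Submodule.mem_top

end Fermat.Agent.S13
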