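import Fermat.Agent.S13.MinkLift

set_option autoImplicit false

/-!
# S13, work package E: Minkowski's theorem for subgroups of `Gal(ℚ̄/ℚ)`

An open normal subgroup of `Gal(ℚ̄/ℚ)` containing an inertia subgroup over every prime is the
whole group (`mink_eq_top`).
-/

open scoped Pointwise NumberField

namespace Fermat.Agent.S13

local notation "Kb" => AlgebraicClosure ℚ
local notation "GQ" => (Kb ≃ₐ[ℚ] Kb)

attribute [local instance] isGalois_Kb isAlgClosure_Kb

/-- A ramified prime of a Galois number field has a nontrivial inertia group. -/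
theorem exists_inertia_ne_one (K : Type*) [Field K] [NumberField K] [IsGalois ℚ K]
    (P : Ideal (𝓞 K)) [P.IsPrime] (hP : ¬ Algebra.IsUnramifiedAt ℤ P) :
    ∃ τ : K ≃ₐ[ℚ] K, τ ≠ 1 ∧ ∀ x : 𝓞 K, galRestrict ℤ ℚ K (𝓞 K) τ x - x ∈ P := by
  let : MulSemiringAction Gal(K/ℚ) (𝓞 K) := IsIntegralClosure.MulSemiringAction ℤ ℚ K (𝓞 K)
  have := IsGaloisGroup.of_isFractionRing Gal(K/ℚ) ℤ (𝓞 K) ℚ K
  by_contra hcon
  push Not at hcon
  have hbot : P.inertia Gal(K/ℚ) = ⊥ := by
    rw [Subgroup.eq_bot_iff_forall]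
    intro τ hτ
    by_contra h1
    obtain ⟨x, hx⟩ := hcon τ h1
    exact hx (hτ x)
  have hcard : Nat.card (P.inertia Gal(K/ℚ)) = 1 := by
    rw [hbot]
    simp
  have h1 := Ideal.card_inertia_eq_ramificationIdxIn (G := Gal(K/ℚ)) (P.under ℤ) P
  rw [hcard, Ideal.ramificationIdxIn_eq_ramificationIdx (P.under ℤ) P Gal(K/ℚ)] at h1
  exact hP (Ideal.ramificationIdx_eq_one_iff.mp h1.symm)

/-- The prime of a number field `L ⊆ ℚ̄` cut out by a valuation subring. -/
def primeOL (A : ValuationSubring Kb) (L : IntermediateField ℚ Kb) : Ideal (𝓞 L) where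
  carrier := {x | A.valuation (((x : L) : Kb)) < 1}
  add_mem' := by
    intro x y hx hy
    simp only [Set.mem_ofPred_eq] at hx hy ⊢
    have : (((x + y : 𝓞 L) : L) : Kb) = ((x : L) : Kb) + ((y : L) : Kb) := by simp
    rw [this]
    exact lt_of_le_of_lt (Valuation.map_add _ _ _) (max_lt hx hy)
  zero_mem' := by simp
  smul_mem' := by
    intro c x hx
    simp only [Set.mem_ofPred_eq, smul_eq_mul] at hx ⊢
    have : (((c * x : 𝓞 L) : L) : Kb) = ((c : L) : Kb) * ((x : L) : Kb) := by simp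
    rw [this, map_mul]
    have hc : IsIntegral ℤ ((c : L) : Kb) :=
      map_isIntegral_int (algebraMap L Kb) (NumberField.RingOfIntegers.isIntegral_coe c)
    calc A.valuation ((c : L) : Kb) * A.valuation ((x : L) : Kb)
        ≤ 1 * A.valuation ((x : L) : Kb) :=
          mul_le_mul_left (valuation_le_one_of_isIntegral A hc) _
      _ = A.valuation ((x : L) : Kb) := one_mul _
      _ < 1 := hx

theorem mem_primeOL (A : ValuationSubring Kb) (L : IntermediateField ℚ Kb) (x : 𝓞 L) :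
    x ∈ primeOL A L ↔ A.valuation (((x : L) : Kb)) < 1 := Iff.rfl

theorem primeOL_isPrime (A : ValuationSubring Kb) (L : IntermediateField ℚ Kb) :
    (primeOL A L).IsPrime := by
  have hint : ∀ c : 𝓞 L, A.valuation ((c : L) : Kb) ≤ 1 := fun c =>
    valuation_le_one_of_isIntegral A
      (map_isIntegral_int (algebraMap L Kb) (NumberField.RingOfIntegers.isIntegral_coe c))
  refine ⟨?_, ?_⟩
  · intro h
    have h1 : (1 : 𝓞 L) ∈ primeOL A L := by rw [h]; trivial
    rw [mem_primeOL] at h1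
    simp at h1
  · intro x y hxy
    rw [mem_primeOL] at hxy
    by_contra hcon
    push Not at hcon
    have hx : A.valuation ((x : L) : Kb) = 1 := le_antisymm (hint x) (not_lt.mp hcon.1)
    have hy : A.valuation ((y : L) : Kb) = 1 := le_antisymm (hint y) (not_lt.mp hcon.2)
    have : (((x * y : 𝓞 L) : L) : Kb) = ((x : L) : Kb) * ((y : L) : Kb) := by simp
    rw [this, map_mul, hx, hy, one_mul] at hxy
    exact lt_irrefl _ hxy

/-- (E1) **Minkowski.** An open normal subgroup of `Gal(ℚ̄/ℚ)` containing, for every prime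
`q`, the inertia subgroup of some valuation subring over `q`, is the whole group. -/
theorem mink_eq_top (H : Subgroup GQ) [hn : H.Normal]
    (hopen : ∃ S : Set Kb, S.Finite ∧ ∀ σ : GQ, (∀ s ∈ S, σ s = s) → σ ∈ H)
    (hin : ∀ q : ℕ, q.Prime →
      ∃ A : ValuationSubring Kb, A.LiesOverPrime q ∧ A.inertiaSubgroupIn ℚ ≤ H) :
    H = ⊤ := by
  obtain ⟨S, hS, hSH⟩ := hopen
  -- `H` is open and closed
  have hSfin : Finite S := hS.to_subtype
  have hEfin : FiniteDimensional ℚ (IntermediateField.adjoin ℚ S) :=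
    IntermediateField.finiteDimensional_adjoin (S := S)
      (fun x _ => Algebra.IsIntegral.isIntegral x)
  have hEH : (IntermediateField.adjoin ℚ S).fixingSubgroup ≤ H := fun σ hσ =>
    hSH σ fun s hs => hσ ⟨s, IntermediateField.subset_adjoin ℚ S hs⟩
  have hHopen : IsOpen (H : Set GQ) :=
    Subgroup.isOpen_mono hEH (IntermediateField.adjoin ℚ S).fixingSubgroup_isOpen
  have hHclosed : IsClosed (H : Set GQ) := Subgroup.isClosed_of_isOpen H hHopen
  -- the fixed field
  set L : IntermediateField ℚ Kb := IntermediateField.fixedField H with hLdef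
  have hL : L.fixingSubgroup = H := InfiniteGalois.fixingSubgroup_fixedField ⟨H, hHclosed⟩
  have hLfin : FiniteDimensional ℚ L := by
    rw [← InfiniteGalois.isOpen_iff_finite, hL]
    exact hHopen
  have hLgal : IsGalois ℚ L := IsGalois.of_fixedField_normal_subgroup H
  by_contra hne
  have hLbot : L ≠ ⊥ := by
    intro hb
    apply hne
    rw [← hL, hb, IntermediateField.fixingSubgroup_bot]
  have hrank : 1 < Module.finrank ℚ L := by
    have h1 : Module.finrank ℚ L ≠ 1 := fun h => hLbot (IntermediateField.finrank_eq_one_iff.mp h)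
    have h2 : 0 < Module.finrank ℚ L := Module.finrank_pos
    omega
  have hLnf : NumberField L := ⟨⟩
  obtain ⟨q, hq, hram⟩ := NumberField.exists_not_isUnramifiedAt_int_of_isGalois (K := L)
    (𝒪 := 𝓞 L) hrank
  obtain ⟨A, hA, hAH⟩ := hin q hq
  have hPprime : (primeOL A L).IsPrime := primeOL_isPrime A L
  have hqP : ((q : ℕ) : 𝓞 L) ∈ primeOL A L := by
    rw [mem_primeOL]
    have : ((((q : ℕ) : 𝓞 L) : L) : Kb) = (q : Kb) := by simp
    rw [this]
    exact A.mem_nonunits_iff.mp hA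
  obtain ⟨τ, hτ1, hτ⟩ := exists_inertia_ne_one L (primeOL A L) (hram _ hPprime hqP)
  obtain ⟨σ₀, hσ₀⟩ := AlgEquiv.restrictNormalHom_surjective (F := ℚ) (K₁ := L) Kb τ
  have hσ₀L : ∀ y : L, σ₀ (y : Kb) = ((τ y : L) : Kb) := by
    intro y
    rw [← hσ₀]
    exact (AlgEquiv.restrictNormal_commutes σ₀ L y).symm
  -- `σ₀` is trivial modulo `𝔪_A` on `H`-invariant integers
  have h₀ : ∀ x : Kb, IsIntegral ℤ x → (∀ h ∈ H, h x = x) → A.valuation (σ₀ x - x) < 1 := by
    intro x hx hfix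
    have hxL : x ∈ L := by
      rw [hLdef, IntermediateField.mem_fixedField_iff]
      exact hfix
    have hxint : IsIntegral ℤ (⟨x, hxL⟩ : L) :=
      (isIntegral_algebraMap_iff (FaithfulSMul.algebraMap_injective L Kb)).mp hx
    set x' : 𝓞 L := IsIntegralClosure.mk' (𝓞 L) (⟨x, hxL⟩ : L) hxint with hx'
    have hx'L : algebraMap (𝓞 L) L x' = ⟨x, hxL⟩ := IsIntegralClosure.algebraMap_mk' _ _ _
    have h1 := hτ x'
    rw [mem_primeOL] at h1
    have h3 : algebraMap (𝓞 L) L (galRestrict ℤ ℚ L (𝓞 L) τ x') = τ (algebraMap (𝓞 L) L x') :=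
      algebraMap_galRestrict_apply ℤ τ x'
    have h2 : (((galRestrict ℤ ℚ L (𝓞 L) τ x' - x' : 𝓞 L) : L) : Kb) = σ₀ x - x := by
      have h4 : ((galRestrict ℤ ℚ L (𝓞 L) τ x' - x' : 𝓞 L) : L) =
          algebraMap (𝓞 L) L (galRestrict ℤ ℚ L (𝓞 L) τ x') - algebraMap (𝓞 L) L x' :=
        map_sub (algebraMap (𝓞 L) L) _ _
      rw [h4, h3, hx'L]
      have h5 := hσ₀L ⟨x, hxL⟩
      simp only at h5
      rw [h5]
      rfl
    rw [← h2]
    exact h1
  obtain ⟨h, hh, hσ⟩ := exists_mul_mem_inertia A H hHclosed σ₀ h₀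
  have h1 : h * σ₀ ∈ H := hAH hσ
  have h2 : σ₀ ∈ H := by
    have := H.mul_mem (H.inv_mem hh) h1
    simpa using this
  rw [← hL] at h2
  apply hτ1
  ext y
  rw [← hσ₀L y]
  exact h2 ⟨(y : Kb), y.2⟩

end Fermat.Agent.S13
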