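import Fermat.Agent.S13.Model
import Fermat.Agent.S13.Hub

set_option autoImplicit false

namespace Fermat.Agent.S13

open WeierstrassCurve WeierstrassCurve.Affine WeierstrassCurve.Affine.Point Fermat.Agent.S05

local notation "Kb" => AlgebraicClosure ℚ
local notation "GQ" => (AlgebraicClosure ℚ ≃ₐ[ℚ] AlgebraicClosure ℚ)

/-- [NT] `E[p] ≠ 0` for the Frey curve. -/
theorem torsion_nontrivial (P : FreyPackage) : Nontrivial (TorsV P) := by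
  have hF : P.a ^ P.p + P.b ^ P.p = P.c ^ P.p := P.hFLT
  have e2 : 4 * P.freyCurve.a₂ = (P.b : ℚ) ^ P.p - 1 - (P.a : ℚ) ^ P.p := by
    change 4 * (((P.b : ℚ) ^ P.p - 1 - (P.a : ℚ) ^ P.p) / 4) = _
    ring
  have e4 : 16 * P.freyCurve.a₄ = -((P.a : ℚ) ^ P.p) * (P.b : ℚ) ^ P.p := by
    change 16 * (-((P.a : ℚ) ^ P.p) * (P.b : ℚ) ^ P.p / 16) = _
    ring
  obtain ⟨ψ, -, -⟩ := exists_model_equiv P.freyCurve (P.b ^ P.p - P.a ^ P.p)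
    (-(P.a ^ P.p) * P.b ^ P.p) 0 rfl rfl rfl
    (by rw [e2]; push_cast; ring) (by rw [e4]; push_cast; ring) (by push_cast; ring)
  set a₂ : ℤ := P.b ^ P.p - P.a ^ P.p with ha₂
  set a₄ : ℤ := -(P.a ^ P.p) * P.b ^ P.p with ha₄
  have d1 : ((modelCurve a₂ a₄)⁄Kb).a₁ = 0 := by simp [modelCurve]
  have d2 : ((modelCurve a₂ a₄)⁄Kb).a₂ = (a₂ : Kb) := by simp [modelCurve]
  have d3 : ((modelCurve a₂ a₄)⁄Kb).a₃ = 0 := by simp [modelCurve]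
  have d4 : ((modelCurve a₂ a₄)⁄Kb).a₄ = (a₄ : Kb) := by simp [modelCurve]
  have d6 : ((modelCurve a₂ a₄)⁄Kb).a₆ = 0 := by simp [modelCurve]
  have hW : Special ((modelCurve a₂ a₄)⁄Kb) := ⟨d1, d3, d6⟩
  have hb0 : ((modelCurve a₂ a₄)⁄Kb).a₄ ≠ 0 := by
    rw [d4]
    have : a₄ ≠ 0 := by
      rw [ha₄]
      exact mul_ne_zero (neg_ne_zero.2 (pow_ne_zero _ P.ha0)) (pow_ne_zero _ P.hb0)
    exact_mod_cast this
  have hd0 : ((modelCurve a₂ a₄)⁄Kb).a₂ ^ 2 - 4 * ((modelCurve a₂ a₄)⁄Kb).a₄ ≠ 0 := by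
    rw [d2, d4]
    have hD : a₂ ^ 2 - 4 * a₄ = (P.c ^ P.p) ^ 2 := by
      rw [ha₂, ha₄, ← hF]; ring
    have : a₂ ^ 2 - 4 * a₄ ≠ 0 := by
      rw [hD]
      exact pow_ne_zero _ (pow_ne_zero _ P.hc0)
    exact_mod_cast this
  have hp1 : 1 < P.p := by have := P.hp5; omega
  obtain ⟨R, hR0, hR⟩ := exists_torsion_ne_zero hW hb0 hd0 P.hp_odd hp1
  have hQ : (P.p : ℤ) • ψ.symm R = 0 := by
    rw [natCast_zsmul, ← map_nsmul, hR, _root_.map_zero]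
  refine ⟨⟨⟨ψ.symm R, (Submodule.mem_torsionBy_iff _ _).2 hQ⟩, 0, ?_⟩⟩
  intro h
  apply hR0
  have h' : ψ.symm R = 0 := congrArg Subtype.val h
  have := congrArg ψ h'
  rwa [ψ.apply_symm_apply, _root_.map_zero] at this

end Fermat.Agent.S13
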