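import Fermat.Agent.S13.TwoRat
import Fermat.Agent.S05.Inertia
import Fermat.Agent.S51.Galois
import Fermat.Agent.S54.Frob
import Fermat.Prelude.Def_FLTPrelim_Ramification

set_option autoImplicit false

/-!
# Project S13: the Frey curve has no nonzero rational `p`-torsion point (2-adic argument).
-/

namespace Fermat.Agent.S13

open WeierstrassCurve WeierstrassCurve.Affine
open Fermat.Agent.S05 (xc InE1 InE0 ord ord_of_ne ord_mul ord_pow ord_pos_iff ord_lt_iff ord_eq_iff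
  ord_eq_zero_iff ord_zero)

local notation "Kb" => AlgebraicClosure ℚ
local notation "GQ" => (AlgebraicClosure ℚ ≃ₐ[ℚ] AlgebraicClosure ℚ)

theorem algebraMap_rat_eq (r : ℚ) : algebraMap ℚ Kb r = (r.num : Kb) / (r.den : Kb) := by
  conv_lhs => rw [← Rat.num_div_den r]
  simp

section Place

variable (A : ValuationSubring Kb) (hA : A.LiesOverPrime 2)

include hA

theorem val_two_lt_one : A.valuation (2 : Kb) < 1 := by
  have := A.mem_nonunits_iff.mp hA
  simpa using this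

theorem val_odd_eq_one (m : ℤ) (hm : ¬ (2 : ℤ) ∣ m) : A.valuation (m : Kb) = 1 :=
  S05.valuation_intCast_eq_one A Nat.prime_two hA m (by simpa using hm)

theorem val_even_lt_one (m : ℤ) (hm : (2 : ℤ) ∣ m) : A.valuation (m : Kb) < 1 :=
  S05.valuation_intCast_lt_one A hA m (by simpa using hm)

theorem ord_natCast_two (n : ℕ) (hn : n ≠ 0) :
    ∃ e : ℕ, ord A.valuation (n : Kb) = e • ord A.valuation (2 : Kb) := by
  obtain ⟨k, m, hm, rfl⟩ := Nat.exists_eq_two_pow_mul_odd hn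
  refine ⟨k, ?_⟩
  have hm0 : (m : Kb) ≠ 0 := Nat.cast_ne_zero.2 (by rintro rfl; simp at hm)
  have h2 : (2 : Kb) ≠ 0 := two_ne_zero
  have hv : A.valuation (m : Kb) = 1 := by
    have := val_odd_eq_one A hA (m : ℤ) (by exact_mod_cast hm.not_two_dvd_nat)
    exact_mod_cast this
  push_cast
  rw [ord_mul _ (pow_ne_zero k h2) hm0, ord_pow _ h2, (ord_eq_zero_iff _ hm0).2 hv, add_zero]

theorem ord_intCast_two (m : ℤ) (hm : m ≠ 0) :
    ∃ e : ℕ, ord A.valuation (m : Kb) = e • ord A.valuation (2 : Kb) := by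
  obtain ⟨e, he⟩ := ord_natCast_two A hA m.natAbs (Int.natAbs_ne_zero.2 hm)
  refine ⟨e, ?_⟩
  rcases Int.natAbs_eq m with h | h
  · rw [h, Int.cast_natCast]; exact he
  · rw [h, Int.cast_neg, Int.cast_natCast, S05.ord_neg]; exact he

theorem ord_ratCast_two (r : ℚ) (hr : r ≠ 0) :
    ∃ e : ℤ, ord A.valuation (algebraMap ℚ Kb r) = e • ord A.valuation (2 : Kb) := by
  obtain ⟨e₁, h₁⟩ := ord_intCast_two A hA r.num (Rat.num_ne_zero.2 hr)
  obtain ⟨e₂, h₂⟩ := ord_natCast_two A hA r.den r.den_ne_zero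
  refine ⟨e₁ - e₂, ?_⟩
  rw [algebraMap_rat_eq, S05.ord_div _ (Int.cast_ne_zero.2 (Rat.num_ne_zero.2 hr))
    (Nat.cast_ne_zero.2 r.den_ne_zero), h₁, h₂, sub_smul, natCast_zsmul, natCast_zsmul]

theorem rat_residue (r : ℚ) (hr : A.valuation (algebraMap ℚ Kb r) ≤ 1) :
    A.valuation (algebraMap ℚ Kb r) < 1 ∨ A.valuation (algebraMap ℚ Kb r - 1) < 1 := by
  have hd0 : (r.den : Kb) ≠ 0 := Nat.cast_ne_zero.2 r.den_ne_zero
  have hden : ¬ (2 : ℤ) ∣ (r.den : ℤ) := by
    intro h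
    have hnum : ¬ (2 : ℤ) ∣ r.num := by
      intro h'
      have hcop := r.reduced
      have h1 : 2 ∣ r.num.natAbs := Int.natCast_dvd.1 h'
      have h2 : 2 ∣ r.den := Int.natCast_dvd_natCast.1 h
      have := Nat.dvd_gcd h1 h2
      rw [hcop.gcd_eq_one] at this
      omega
    have v1 := val_odd_eq_one A hA r.num hnum
    have v2 : A.valuation (r.den : Kb) < 1 := by
      have := val_even_lt_one A hA (r.den : ℤ) h
      exact_mod_cast this
    have v0 : 0 < A.valuation (r.den : Kb) := zero_lt_iff.2 ((Valuation.ne_zero_iff _).2 hd0)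
    rw [algebraMap_rat_eq, map_div₀, v1, one_div] at hr
    exact absurd hr (not_le.2 ((one_lt_inv₀ v0).2 v2))
  have vd : A.valuation (r.den : Kb) = 1 := by
    have := val_odd_eq_one A hA (r.den : ℤ) hden
    exact_mod_cast this
  by_cases hn : (2 : ℤ) ∣ r.num
  · left
    rw [algebraMap_rat_eq, map_div₀, vd, div_one]
    exact val_even_lt_one A hA r.num hn
  · right
    have e : algebraMap ℚ Kb r - 1 = ((r.num - r.den : ℤ) : Kb) / (r.den : Kb) := by
      rw [algebraMap_rat_eq]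
      push_cast
      field_simp
    rw [e, map_div₀, vd, div_one]
    apply val_even_lt_one A hA
    omega

end Place

/-- Arithmetic of the Frey coefficients: `a₂` is an integer and `a₄ = -a^p · 2 · 2^(p-5) · b'^p`
with `b = 2b'`. -/
theorem frey_coeffs (P : FreyPackage) :
    ∃ m₂ m₄ : ℤ, P.freyCurve.a₂ = (m₂ : ℚ) ∧ P.freyCurve.a₄ = (m₄ : ℚ) ∧ (2 : ℤ) ∣ m₄ ∧
      16 * m₄ = -(P.a ^ P.p) * P.b ^ P.p ∧ ¬ (2 : ℤ) ∣ P.a := by
  have ha4 : P.a % 4 = 3 := by
    have h := (ZMod.intCast_eq_intCast_iff P.a 3 4).1 (by simpa using P.ha4)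
    exact h
  have hb2 : (2 : ℤ) ∣ P.b := (ZMod.intCast_zmod_eq_zero_iff_dvd P.b 2).1 P.hb2
  obtain ⟨b', hb'⟩ := hb2
  have hp5 := P.hp5
  have hodd : Odd P.p := P.hp_odd
  -- `4 ∣ b^p - 1 - a^p`
  have h4 : (4 : ℤ) ∣ P.b ^ P.p - 1 - P.a ^ P.p := by
    have ha : P.a ≡ -1 [ZMOD 4] := by
      change P.a % 4 = -1 % 4
      rw [ha4]; rfl
    have hap : P.a ^ P.p ≡ -1 [ZMOD 4] := by
      have := ha.pow P.p
      rwa [hodd.neg_one_pow] at this
    have hbp : P.b ^ P.p ≡ 0 [ZMOD 4] := by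
      apply (Int.modEq_zero_iff_dvd).2
      have : P.b ^ P.p = 4 * (2 ^ (P.p - 2) * b' ^ P.p) := by
        rw [hb', mul_pow]
        have : (2 : ℤ) ^ P.p = 4 * 2 ^ (P.p - 2) := by
          rw [show (4 : ℤ) = 2 ^ 2 by norm_num, ← pow_add]
          congr 1; omega
        rw [this]; ring
      rw [this]; exact dvd_mul_right _ _
    have := (hbp.sub (Int.ModEq.refl 1)).sub hap
    exact (Int.modEq_zero_iff_dvd).1 (by simpa using this)
  obtain ⟨m₂, hm₂⟩ := h4
  refine ⟨m₂, -(P.a ^ P.p) * (2 * 2 ^ (P.p - 5) * b' ^ P.p), ?_, ?_, ?_, ?_, ?_⟩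
  · change ((P.b : ℚ) ^ P.p - 1 - (P.a : ℚ) ^ P.p) / 4 = (m₂ : ℚ)
    rw [div_eq_iff (by norm_num)]
    have := congrArg (fun z : ℤ => (z : ℚ)) hm₂
    push_cast at this
    linear_combination this
  · change -((P.a : ℚ) ^ P.p) * (P.b : ℚ) ^ P.p / 16 = _
    rw [div_eq_iff (by norm_num)]
    have hb'' : (P.b : ℚ) = 2 * (b' : ℚ) := by exact_mod_cast hb'
    have h2p : (2 : ℚ) ^ P.p = 32 * 2 ^ (P.p - 5) := by
      rw [show (32 : ℚ) = 2 ^ 5 by norm_num, ← pow_add]
      congr 1; omega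
    push_cast
    rw [hb'', mul_pow, h2p]
    ring
  · exact ⟨-(P.a ^ P.p) * (2 ^ (P.p - 5) * b' ^ P.p), by ring⟩
  · have h2p : (2 : ℤ) ^ P.p = 32 * 2 ^ (P.p - 5) := by
      rw [show (32 : ℤ) = 2 ^ 5 by norm_num, ← pow_add]
      congr 1; omega
    rw [hb', mul_pow, h2p]
    ring
  · omega

/-- [NoRat] relative to a place above `2`: the Frey curve has no nonzero `p`-torsion point fixed by
the whole Galois group. -/
theorem no_rational_torsion_of_place (P : FreyPackage) (A : ValuationSubring Kb)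
    (hA : A.LiesOverPrime 2)
    (x : Submodule.torsionBy ℤ (P.freyCurve⁄Kb).Point P.p) (hx : ∀ σ : GQ, σ • x = x) :
    x = 0 := by
  obtain ⟨m₂, m₄, hm₂, hm₄, h2m₄, h16, haodd⟩ := frey_coeffs P
  have hW : Special2 (P.freyCurve⁄Kb) := by
    refine ⟨?_, ?_, ?_⟩ <;> simp [FreyPackage.freyCurve]
  have c2 : (P.freyCurve⁄Kb).a₂ = (m₂ : Kb) := by
    have : (P.freyCurve⁄Kb).a₂ = algebraMap ℚ Kb P.freyCurve.a₂ := by simp
    rw [this, hm₂]; simp
  have c4 : (P.freyCurve⁄Kb).a₄ = (m₄ : Kb) := by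
    have : (P.freyCurve⁄Kb).a₄ = algebraMap ℚ Kb P.freyCurve.a₄ := by simp
    rw [this, hm₄]; simp
  have h2 := val_two_lt_one A hA
  have h20 : (2 : Kb) ≠ 0 := two_ne_zero
  have hm₄0 : m₄ ≠ 0 := by
    rintro rfl
    have : P.a ^ P.p * P.b ^ P.p = 0 := by linear_combination h16
    rcases mul_eq_zero.1 this with h | h
    · exact P.ha0 (pow_eq_zero_iff P.hp0 |>.1 h)
    · exact P.hb0 (pow_eq_zero_iff P.hp0 |>.1 h)
  have hp2 : ¬ (2 : ℤ) ∣ (P.p : ℤ) := by
    have := P.hp_odd.not_two_dvd_nat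
    exact_mod_cast this
  have hpv : A.valuation ((P.p : ℕ) : Kb) = 1 := by
    have := val_odd_eq_one A hA (P.p : ℤ) hp2
    exact_mod_cast this
  -- valuation of `a₄`
  obtain ⟨β, hβ⟩ := ord_intCast_two A hA P.b P.hb0
  have ha0' : (P.a : Kb) ≠ 0 := Int.cast_ne_zero.2 P.ha0
  have hb0' : (P.b : Kb) ≠ 0 := Int.cast_ne_zero.2 P.hb0
  have hm₄0' : (m₄ : Kb) ≠ 0 := Int.cast_ne_zero.2 hm₄0
  have hordb : ord A.valuation (m₄ : Kb)
      = ((P.p : ℤ) * (β : ℤ) - 4) • ord A.valuation (2 : Kb) := by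
    have h16' : (2 : Kb) ^ 4 * (m₄ : Kb) = -((P.a : Kb) ^ P.p * (P.b : Kb) ^ P.p) := by
      have := congrArg (fun z : ℤ => (z : Kb)) h16
      push_cast at this
      linear_combination this
    have h1 := congrArg (ord A.valuation) h16'
    rw [S05.ord_neg, ord_mul _ (pow_ne_zero 4 h20) hm₄0', ord_pow _ h20,
      ord_mul _ (pow_ne_zero _ ha0') (pow_ne_zero _ hb0'), ord_pow _ ha0', ord_pow _ hb0',
      (ord_eq_zero_iff _ ha0').2 (val_odd_eq_one A hA P.a haodd), smul_zero, zero_add, hβ] at h1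
    rw [sub_smul, mul_smul, natCast_zsmul, natCast_zsmul]
    rw [eq_sub_iff_add_eq, add_comm]
    exact_mod_cast h1
  -- the point
  have hQ : P.p • (x : (P.freyCurve⁄Kb).Point) = 0 := by
    have := (Submodule.mem_torsionBy_iff _ _).1 x.2
    rwa [natCast_zsmul] at this
  have hfix : ∀ σ : GQ, σ • (x : (P.freyCurve⁄Kb).Point) = x := fun σ =>
    congrArg Subtype.val (hx σ)
  have key := no_rat_torsion2 A.valuation hW (by rw [c2]; exact S05.inertia_valuation_intCast_le_one A m₂)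
    h2 h20 (by rw [c4]; exact val_even_lt_one A hA m₄ h2m₄) (by rw [c4]; exact hm₄0')
    P.pp P.hp5 hpv (fun z => z ∈ Set.range (algebraMap ℚ Kb))
    (by
      rintro z ⟨r, rfl⟩ hz
      exact rat_residue A hA r hz)
    (by
      rintro z ⟨r, rfl⟩ hz
      exact ord_ratCast_two A hA r (fun h => hz (by rw [h, map_zero])))
    (β : ℤ) (by rw [c4]; exact hordb) hQ
    (by
      intro m x' y' h' hm
      have hfix' : ∀ σ : GQ, σ • (Point.some x' y' h' : (P.freyCurve⁄Kb).Point)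
          = Point.some x' y' h' := by
        intro σ
        rw [← hm]
        have := WeierstrassCurve.Affine.Point.algEquiv_smul_zsmul σ (m : ℤ)
          (x : (P.freyCurve⁄Kb).Point)
        rw [natCast_zsmul, natCast_zsmul, hfix σ] at this
        exact this
      have hcoord : ∀ σ : GQ, σ x' = x' ∧ σ y' = y' := by
        intro σ
        have e1 : σ • (Point.some x' y' h' : (P.freyCurve⁄Kb).Point) = Point.some (σ x') (σ y')
            ((Affine.baseChange_nonsingular P.freyCurve σ.toAlgHom.injective ..).mpr h') := rfl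
        have e2 := (hfix' σ).symm.trans e1
        simp only [Point.some.injEq] at e2
        exact ⟨e2.1.symm, e2.2.symm⟩
      exact ⟨S51.exists_rat_of_fixed x' fun σ => (hcoord σ).1,
        S51.exists_rat_of_fixed y' fun σ => (hcoord σ).2⟩)
  exact Subtype.ext key

/-- [NoRat]  the Frey curve has no nonzero rational `p`-torsion point. -/
theorem no_rational_torsion (P : FreyPackage)
    (x : Submodule.torsionBy ℤ (P.freyCurve⁄Kb).Point P.p) (hx : ∀ σ : GQ, σ • x = x) :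
    x = 0 := by
  obtain ⟨A, -, hA, -⟩ := S54.exists_isFrobeniusAt 2 Nat.prime_two
  exact no_rational_torsion_of_place P A hA x hx

end Fermat.Agent.S13
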