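import Mathlib
import Fermat.Agent.S05.Formulas

set_option autoImplicit false

/-!
# S13, WP-A, part 1: the function field of `Y² = X³ + a₂X² + a₄X`

`FF a₂ a₄ = K(x)[y]/(y² - f(x))`, its generic point and the conjugation `y ↦ -y`.
-/

namespace Fermat.Agent.S13

open Polynomial

variable {K : Type*} [Field K]

/-- The cubic `f = X³ + a₂X² + a₄X`. -/
noncomputable def cubic (a₂ a₄ : K) : K[X] := X ^ 3 + C a₂ * X ^ 2 + C a₄ * X

theorem cubic_natDegree (a₂ a₄ : K) : (cubic a₂ a₄).natDegree = 3 := by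
  unfold cubic
  compute_degree!

theorem cubic_ne_zero (a₂ a₄ : K) : cubic a₂ a₄ ≠ 0 := by
  intro h
  have := cubic_natDegree a₂ a₄
  rw [h] at this
  simp at this

theorem cubic_eval (a₂ a₄ x : K) : (cubic a₂ a₄).eval x = x ^ 3 + a₂ * x ^ 2 + a₄ * x := by
  simp [cubic]

/-- The cubic as an element of `K(x)`. -/
noncomputable def cubicR (a₂ a₄ : K) : RatFunc K := algebraMap K[X] (RatFunc K) (cubic a₂ a₄)

theorem cubicR_ne_zero (a₂ a₄ : K) : cubicR a₂ a₄ ≠ 0 := by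
  unfold cubicR
  rw [Ne, map_eq_zero_iff _ (IsFractionRing.injective K[X] (RatFunc K))]
  exact cubic_ne_zero a₂ a₄

theorem cubicR_intDegree (a₂ a₄ : K) : (cubicR a₂ a₄).intDegree = 3 := by
  unfold cubicR
  rw [RatFunc.intDegree_polynomial, cubic_natDegree]
  rfl

theorem cubicR_not_sq (a₂ a₄ : K) (b : RatFunc K) : b ^ 2 ≠ cubicR a₂ a₄ := by
  intro h
  have hb : b ≠ 0 := by
    rintro rfl
    exact cubicR_ne_zero a₂ a₄ (by rw [← h]; simp)
  have := congrArg RatFunc.intDegree h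
  rw [cubicR_intDegree, pow_two, RatFunc.intDegree_mul hb hb] at this
  omega

/-- The polynomial `Y² - f` over `K(x)`. -/
noncomputable def ffPoly (a₂ a₄ : K) : (RatFunc K)[X] := X ^ 2 - C (cubicR a₂ a₄)

theorem ffPoly_irreducible (a₂ a₄ : K) : Irreducible (ffPoly a₂ a₄) :=
  (X_pow_sub_C_irreducible_iff_of_prime Nat.prime_two).2 (cubicR_not_sq a₂ a₄)

instance ffPoly_fact (a₂ a₄ : K) : Fact (Irreducible (ffPoly a₂ a₄)) := ⟨ffPoly_irreducible a₂ a₄⟩

theorem ffPoly_monic (a₂ a₄ : K) : (ffPoly a₂ a₄).Monic := by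
  unfold ffPoly
  exact monic_X_pow_sub_C _ two_ne_zero

theorem ffPoly_natDegree (a₂ a₄ : K) : (ffPoly a₂ a₄).natDegree = 2 := by
  unfold ffPoly
  exact natDegree_X_pow_sub_C

/-- The function field `K(x)[y]/(y² - f)`. -/
abbrev FF (a₂ a₄ : K) : Type _ := AdjoinRoot (ffPoly a₂ a₄)

noncomputable instance (a₂ a₄ : K) : Field (FF a₂ a₄) := AdjoinRoot.instField


variable (a₂ a₄ : K)

theorem eval₂_ffPoly {B : Type*} [CommRing B] (i : RatFunc K →+* B) (t : B) :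
    (ffPoly a₂ a₄).eval₂ i t = t ^ 2 - i (cubicR a₂ a₄) := by
  simp [ffPoly]

/-- The coordinate function `x`. -/
noncomputable def xF : FF a₂ a₄ := algebraMap (RatFunc K) (FF a₂ a₄) RatFunc.X

/-- The coordinate function `y`. -/
noncomputable def yF : FF a₂ a₄ := AdjoinRoot.root (ffPoly a₂ a₄)

theorem algebraMap_FF_injective :
    Function.Injective (algebraMap (RatFunc K) (FF a₂ a₄)) :=
  (algebraMap (RatFunc K) (FF a₂ a₄)).injective

theorem algebraMap_K_FF_injective :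
    Function.Injective (algebraMap K (FF a₂ a₄)) :=
  (algebraMap K (FF a₂ a₄)).injective

theorem algebraMap_K_FF_eq (c : K) :
    algebraMap K (FF a₂ a₄) c = algebraMap (RatFunc K) (FF a₂ a₄) (algebraMap K (RatFunc K) c) :=
  IsScalarTower.algebraMap_apply K (RatFunc K) (FF a₂ a₄) c

/-- A polynomial in `x`, as an element of the function field. -/
noncomputable def polyF (q : K[X]) : FF a₂ a₄ :=
  algebraMap (RatFunc K) (FF a₂ a₄) (algebraMap K[X] (RatFunc K) q)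

theorem polyF_eq_aeval (q : K[X]) : polyF a₂ a₄ q = Polynomial.aeval (xF a₂ a₄) q := by
  unfold polyF xF
  induction q using Polynomial.induction_on' with
  | add p q hp hq => rw [map_add, map_add, map_add, hp, hq]
  | monomial n c =>
    rw [← C_mul_X_pow_eq_monomial]
    simp only [map_mul, map_pow, aeval_C, aeval_X, RatFunc.algebraMap_X, RatFunc.algebraMap_C,
      algebraMap_K_FF_eq, RatFunc.algebraMap_eq_C]

theorem algebraMap_cubicR : algebraMap (RatFunc K) (FF a₂ a₄) (cubicR a₂ a₄)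
    = xF a₂ a₄ ^ 3 + algebraMap K (FF a₂ a₄) a₂ * xF a₂ a₄ ^ 2
      + algebraMap K (FF a₂ a₄) a₄ * xF a₂ a₄ := by
  unfold cubicR cubic xF
  simp only [map_add, map_mul, map_pow, RatFunc.algebraMap_X, RatFunc.algebraMap_C,
    algebraMap_K_FF_eq, RatFunc.algebraMap_eq_C]

theorem yF_sq' : yF a₂ a₄ ^ 2 = algebraMap (RatFunc K) (FF a₂ a₄) (cubicR a₂ a₄) := by
  have h := AdjoinRoot.eval₂_root (ffPoly a₂ a₄)
  rw [eval₂_ffPoly] at h
  exact sub_eq_zero.1 h

theorem yF_sq : yF a₂ a₄ ^ 2 = xF a₂ a₄ ^ 3 + algebraMap K (FF a₂ a₄) a₂ * xF a₂ a₄ ^ 2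
    + algebraMap K (FF a₂ a₄) a₄ * xF a₂ a₄ := by
  rw [yF_sq', algebraMap_cubicR]

/-- Every element of the function field is `u + v y` with `u, v ∈ K(x)`. -/
theorem exists_decomp (s : FF a₂ a₄) : ∃ u v : RatFunc K,
    s = algebraMap (RatFunc K) (FF a₂ a₄) u + algebraMap (RatFunc K) (FF a₂ a₄) v * yF a₂ a₄ := by
  obtain ⟨g, rfl⟩ := AdjoinRoot.mk_surjective s
  have hmon := ffPoly_monic a₂ a₄
  have hdeg : (g %ₘ ffPoly a₂ a₄).natDegree < 2 := by
    have := natDegree_modByMonic_lt g hmon (by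
      intro h
      have := ffPoly_natDegree a₂ a₄
      rw [h] at this
      simp at this)
    rwa [ffPoly_natDegree] at this
  refine ⟨(g %ₘ ffPoly a₂ a₄).coeff 0, (g %ₘ ffPoly a₂ a₄).coeff 1, ?_⟩
  have h1 : AdjoinRoot.mk (ffPoly a₂ a₄) g = AdjoinRoot.mk (ffPoly a₂ a₄) (g %ₘ ffPoly a₂ a₄) := by
    rw [AdjoinRoot.mk_eq_mk]
    exact ⟨g /ₘ ffPoly a₂ a₄, by
      have := modByMonic_add_div g (ffPoly a₂ a₄)
      linear_combination -this⟩
  have h2 : g %ₘ ffPoly a₂ a₄ = C ((g %ₘ ffPoly a₂ a₄).coeff 0)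
      + C ((g %ₘ ffPoly a₂ a₄).coeff 1) * X := by
    have := eq_X_add_C_of_natDegree_le_one (p := g %ₘ ffPoly a₂ a₄) (by omega)
    conv_lhs => rw [this]
    ring
  rw [h1]
  conv_lhs => rw [h2]
  rw [map_add, map_mul, AdjoinRoot.mk_C, AdjoinRoot.mk_C, AdjoinRoot.mk_X]
  rfl

theorem decomp_unique {u v : RatFunc K}
    (h : algebraMap (RatFunc K) (FF a₂ a₄) u + algebraMap (RatFunc K) (FF a₂ a₄) v * yF a₂ a₄ = 0) :
    u = 0 ∧ v = 0 := by
  have h1 : AdjoinRoot.mk (ffPoly a₂ a₄) (C u + C v * X) = 0 := by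
    rw [map_add, map_mul, AdjoinRoot.mk_C, AdjoinRoot.mk_C, AdjoinRoot.mk_X]
    exact h
  rw [AdjoinRoot.mk_eq_zero] at h1
  have h2 : C u + C v * X = 0 := by
    apply eq_zero_of_dvd_of_natDegree_lt h1
    rw [ffPoly_natDegree]
    have : (C u + C v * X : (RatFunc K)[X]).natDegree ≤ 1 := by compute_degree
    omega
  have hu := congrArg (fun q : (RatFunc K)[X] => q.coeff 0) h2
  have hv := congrArg (fun q : (RatFunc K)[X] => q.coeff 1) h2
  simp at hu hv
  exact ⟨hu, hv⟩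

/-- Conjugation `y ↦ -y`. -/
noncomputable def conjF : FF a₂ a₄ →ₐ[RatFunc K] FF a₂ a₄ :=
  AdjoinRoot.liftAlgHom (ffPoly a₂ a₄) (Algebra.ofId (RatFunc K) (FF a₂ a₄)) (-yF a₂ a₄) (by
    rw [eval₂_ffPoly, neg_sq, sub_eq_zero]
    exact yF_sq' a₂ a₄)

theorem conjF_yF : conjF a₂ a₄ (yF a₂ a₄) = -yF a₂ a₄ := by
  unfold conjF yF
  exact AdjoinRoot.liftAlgHom_root _ _ _ _

theorem conjF_algebraMap (u : RatFunc K) :
    conjF a₂ a₄ (algebraMap (RatFunc K) (FF a₂ a₄) u) = algebraMap (RatFunc K) (FF a₂ a₄) u :=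
  (conjF a₂ a₄).commutes u

theorem conjF_xF : conjF a₂ a₄ (xF a₂ a₄) = xF a₂ a₄ := conjF_algebraMap a₂ a₄ _

theorem conjF_algebraMap_K (c : K) :
    conjF a₂ a₄ (algebraMap K (FF a₂ a₄) c) = algebraMap K (FF a₂ a₄) c := by
  rw [algebraMap_K_FF_eq, conjF_algebraMap]

/-- Conjugation as a `K`-algebra homomorphism. -/
noncomputable def conjK : FF a₂ a₄ →ₐ[K] FF a₂ a₄ :=
  (conjF a₂ a₄).restrictScalars K

theorem conjK_apply (s : FF a₂ a₄) : conjK a₂ a₄ s = conjF a₂ a₄ s := rfl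

theorem yF_ne_zero : yF a₂ a₄ ≠ 0 := by
  intro h
  have := yF_sq' a₂ a₄
  rw [h, zero_pow two_ne_zero] at this
  exact cubicR_ne_zero a₂ a₄ (algebraMap_FF_injective a₂ a₄ (by rw [← this, map_zero]))

theorem xF_ne_zero : xF a₂ a₄ ≠ 0 := by
  intro h
  unfold xF at h
  exact RatFunc.X_ne_zero (algebraMap_FF_injective a₂ a₄ (by rw [h, map_zero]))

/-- An element fixed by conjugation lies in `K(x)`. -/
theorem exists_ratFunc_of_conj_fixed (h2 : (2 : K) ≠ 0) (s : FF a₂ a₄)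
    (hs : conjF a₂ a₄ s = s) :
    ∃ u : RatFunc K, s = algebraMap (RatFunc K) (FF a₂ a₄) u := by
  obtain ⟨u, v, rfl⟩ := exists_decomp a₂ a₄ s
  refine ⟨u, ?_⟩
  rw [map_add, map_mul, conjF_algebraMap, conjF_algebraMap, conjF_yF] at hs
  have h1 : algebraMap (RatFunc K) (FF a₂ a₄) 0
      + algebraMap (RatFunc K) (FF a₂ a₄) (2 * v) * yF a₂ a₄ = 0 := by
    rw [map_zero, map_mul, map_ofNat]
    linear_combination -hs
  have h2' := (decomp_unique a₂ a₄ h1).2
  have h3 : v = 0 := by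
    rcases mul_eq_zero.1 h2' with h | h
    · have h' : (2 : K) = 0 := by
        have : algebraMap K (RatFunc K) (2 : K) = 0 := by rw [map_ofNat]; exact h
        exact (algebraMap K (RatFunc K)).injective (by rw [this, map_zero])
      exact absurd h' h2
    · exact h
  rw [h3, map_zero, zero_mul, add_zero]

end Fermat.Agent.S13
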