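import Fermat.Agent.S13.FF1

set_option autoImplicit false

/-!
# S13, WP-A, part 2: places of the function field

For every `K`-point `(a, b)` of `Y² = X³ + a₂X² + a₄X` a valuation subring of the function field
centred at that point, and one centred at infinity (Chevalley's extension theorem).
-/

namespace Fermat.Agent.S13

open Polynomial

variable {K : Type*} [Field K] (a₂ a₄ : K)

/-- The ring homomorphism `K[X] → K(x)[y]/(y² - f)`. -/
noncomputable def polyHom : K[X] →+* FF a₂ a₄ :=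
  (algebraMap (RatFunc K) (FF a₂ a₄)).comp (algebraMap K[X] (RatFunc K))

theorem polyHom_injective : Function.Injective (polyHom a₂ a₄) :=
  (algebraMap_FF_injective a₂ a₄).comp (IsFractionRing.injective K[X] (RatFunc K))

theorem polyHom_X : polyHom a₂ a₄ X = xF a₂ a₄ := by
  simp [polyHom, xF]

theorem polyHom_C (c : K) : polyHom a₂ a₄ (C c) = algebraMap K (FF a₂ a₄) c := by
  simp [polyHom, algebraMap_K_FF_eq, RatFunc.algebraMap_eq_C]

theorem polyHom_cubic : polyHom a₂ a₄ (cubic a₂ a₄) = yF a₂ a₄ ^ 2 := by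
  rw [yF_sq']
  rfl

/-- A valuation subring containing `K[x]` in which `x - a` is a non-unit. -/
theorem exists_valSubring_x (a : K) : ∃ B : ValuationSubring (FF a₂ a₄),
    (∀ q : K[X], polyHom a₂ a₄ q ∈ B) ∧ polyHom a₂ a₄ (X - C a) ∈ B.nonunits := by
  let A : Subring (FF a₂ a₄) := (polyHom a₂ a₄).range
  let g : A := ⟨polyHom a₂ a₄ (X - C a), ⟨_, rfl⟩⟩
  have hI : Ideal.span {g} ≠ ⊤ := by
    intro h
    rw [Ideal.eq_top_iff_one, Ideal.mem_span_singleton'] at h
    obtain ⟨⟨r, q, rfl⟩, hr⟩ := h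
    have h1 : polyHom a₂ a₄ (q * (X - C a)) = polyHom a₂ a₄ 1 := by
      have := congrArg Subtype.val hr
      rw [map_mul, map_one]
      exact this
    have h2 := polyHom_injective a₂ a₄ h1
    have h3 := congrArg (Polynomial.eval a) h2
    simp at h3
  obtain ⟨B, hAB, hIB⟩ := Ideal.image_subset_nonunits_valuationSubring (Ideal.span {g}) hI
  refine ⟨B, fun q => hAB ⟨q, rfl⟩, ?_⟩
  apply hIB
  exact ⟨g, Ideal.subset_span rfl, rfl⟩

theorem val_mul_lt_one {F : Type*} [Field F] (B : ValuationSubring F) {s t : F}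
    (hs : s ∈ B.nonunits) (ht : t ∈ B) : s * t ∈ B.nonunits := by
  rw [ValuationSubring.mem_nonunits_iff] at hs ⊢
  rw [map_mul]
  have ht' := (B.valuation_le_one_iff t).2 ht
  calc B.valuation s * B.valuation t ≤ B.valuation s * 1 := by gcongr
    _ = B.valuation s := mul_one _
    _ < 1 := hs

theorem mem_nonunits_comap {F : Type*} [Field F] (B : ValuationSubring F) (f : F →+* F) (s : F) :
    s ∈ (B.comap f).nonunits ↔ f s ∈ B.nonunits := by
  rw [ValuationSubring.mem_nonunits_iff_or, ValuationSubring.mem_nonunits_iff_or,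
    ValuationSubring.mem_comap, map_inv₀, map_eq_zero]

/-- A place of the function field centred at the point `(a, b)`. -/
theorem exists_place_at (a b : K) (hab : b ^ 2 = a ^ 3 + a₂ * a ^ 2 + a₄ * a) :
    ∃ B : ValuationSubring (FF a₂ a₄),
      (∀ c : K, algebraMap K (FF a₂ a₄) c ∈ B) ∧
      (xF a₂ a₄ - algebraMap K (FF a₂ a₄) a) ∈ B.nonunits ∧
      (yF a₂ a₄ - algebraMap K (FF a₂ a₄) b) ∈ B.nonunits := by
  obtain ⟨B, hB, hx⟩ := exists_valSubring_x a₂ a₄ a
  have hx' : xF a₂ a₄ - algebraMap K (FF a₂ a₄) a ∈ B.nonunits := by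
    have : polyHom a₂ a₄ (X - C a) = xF a₂ a₄ - algebraMap K (FF a₂ a₄) a := by
      rw [map_sub, polyHom_X, polyHom_C]
    rwa [this] at hx
  have hy : yF a₂ a₄ ∈ B := by
    rw [← B.valuation_le_one_iff]
    have h1 : B.valuation (yF a₂ a₄ ^ 2) ≤ 1 := by
      rw [B.valuation_le_one_iff, ← polyHom_cubic]
      exact hB _
    rw [map_pow] at h1
    by_contra hcon
    rw [not_le] at hcon
    exact absurd h1 (not_le.2 (one_lt_pow₀ hcon two_ne_zero))
  have hK : ∀ c : K, algebraMap K (FF a₂ a₄) c ∈ B := fun c => by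
    rw [← polyHom_C]; exact hB _
  -- (y - b)(y + b) is divisible by x - a
  have hdvd : X - C a ∣ cubic a₂ a₄ - C b ^ 2 := by
    rw [Polynomial.dvd_iff_isRoot]
    simp [cubic, hab]
  obtain ⟨g, hg⟩ := hdvd
  have hprod : (yF a₂ a₄ - algebraMap K (FF a₂ a₄) b) * (yF a₂ a₄ + algebraMap K (FF a₂ a₄) b)
      ∈ B.nonunits := by
    have : (yF a₂ a₄ - algebraMap K (FF a₂ a₄) b) * (yF a₂ a₄ + algebraMap K (FF a₂ a₄) b)
        = polyHom a₂ a₄ (X - C a) * polyHom a₂ a₄ g := by
      rw [← map_mul, ← hg, map_sub, polyHom_cubic, map_pow, polyHom_C]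
      ring
    rw [this]
    exact val_mul_lt_one B hx (hB g)
  have hyb : yF a₂ a₄ - algebraMap K (FF a₂ a₄) b ∈ B := sub_mem hy (hK b)
  have hyb' : yF a₂ a₄ + algebraMap K (FF a₂ a₄) b ∈ B := add_mem hy (hK b)
  by_cases hcase : yF a₂ a₄ - algebraMap K (FF a₂ a₄) b ∈ B.nonunits
  · exact ⟨B, hK, hx', hcase⟩
  · have hcase' : yF a₂ a₄ + algebraMap K (FF a₂ a₄) b ∈ B.nonunits := by
      rw [ValuationSubring.mem_nonunits_iff] at hprod hcase ⊢
      rw [map_mul] at hprod
      rw [not_lt] at hcase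
      have h1 := (B.valuation_le_one_iff _).2 hyb
      have h2 : B.valuation (yF a₂ a₄ - algebraMap K (FF a₂ a₄) b) = 1 := le_antisymm h1 hcase
      rwa [h2, one_mul] at hprod
    refine ⟨B.comap (conjF a₂ a₄ : FF a₂ a₄ →+* FF a₂ a₄), fun c => ?_, ?_, ?_⟩
    · rw [ValuationSubring.mem_comap]
      change conjF a₂ a₄ _ ∈ B
      rw [conjF_algebraMap_K]; exact hK c
    · rw [mem_nonunits_comap]
      change conjF a₂ a₄ _ ∈ B.nonunits
      rw [map_sub, conjF_xF, conjF_algebraMap_K]; exact hx'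
    · rw [mem_nonunits_comap]
      change conjF a₂ a₄ _ ∈ B.nonunits
      rw [map_sub, conjF_yF, conjF_algebraMap_K]
      have : -yF a₂ a₄ - algebraMap K (FF a₂ a₄) b = -(yF a₂ a₄ + algebraMap K (FF a₂ a₄) b) := by
        ring
      rw [this, ValuationSubring.mem_nonunits_iff, Valuation.map_neg,
        ← ValuationSubring.mem_nonunits_iff]
      exact hcase'

/-- A place of the function field centred at infinity. -/
theorem exists_place_infty : ∃ B : ValuationSubring (FF a₂ a₄),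
    (∀ c : K, algebraMap K (FF a₂ a₄) c ∈ B) ∧ (xF a₂ a₄)⁻¹ ∈ B.nonunits := by
  classical
  let R := (RatFunc.inftyValuation K).valuationSubring
  let f : R →+* FF a₂ a₄ := (algebraMap (RatFunc K) (FF a₂ a₄)).comp R.subtype
  obtain ⟨B, hB, hloc⟩ := IsLocalRing.exists_factor_valuationRing f
  have hC : ∀ c : K, RatFunc.C c ∈ R := by
    intro c
    rw [Valuation.mem_valuationSubring_iff]
    by_cases hc : c = 0
    · rw [hc, map_zero, map_zero]; exact zero_le_one
    · rw [RatFunc.inftyValuation.C K hc]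
  have hXinv : (RatFunc.X : RatFunc K)⁻¹ ∈ R := by
    rw [Valuation.mem_valuationSubring_iff, ← one_div, RatFunc.inftyValuation.X_inv]
    decide
  refine ⟨B, fun c => ?_, ?_⟩
  · have := hB ⟨RatFunc.C c, hC c⟩
    have h2 : f ⟨RatFunc.C c, hC c⟩ = algebraMap K (FF a₂ a₄) c := by
      change algebraMap (RatFunc K) (FF a₂ a₄) (RatFunc.C c) = _
      rw [algebraMap_K_FF_eq, RatFunc.algebraMap_eq_C]
    rwa [h2] at this
  · have h1 : f ⟨(RatFunc.X : RatFunc K)⁻¹, hXinv⟩ = (xF a₂ a₄)⁻¹ := by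
      change algebraMap (RatFunc K) (FF a₂ a₄) (RatFunc.X)⁻¹ = _
      rw [map_inv₀]; rfl
    have hmem : (xF a₂ a₄)⁻¹ ∈ B := by rw [← h1]; exact hB _
    rw [ValuationSubring.mem_nonunits_iff]
    by_contra hcon
    rw [not_lt] at hcon
    have hone : B.valuation (xF a₂ a₄)⁻¹ = 1 :=
      le_antisymm ((B.valuation_le_one_iff _).2 hmem) hcon
    -- then the image is a unit of `B`, hence `X⁻¹` is a unit of `R`
    have hunit : IsUnit ((f.codRestrict B.toSubring hB) ⟨(RatFunc.X : RatFunc K)⁻¹, hXinv⟩) := by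
      have : (f.codRestrict B.toSubring hB) ⟨(RatFunc.X : RatFunc K)⁻¹, hXinv⟩
          = (⟨(xF a₂ a₄)⁻¹, hmem⟩ : B) := Subtype.ext h1
      rw [this]
      exact (B.valuation_eq_one_iff ⟨(xF a₂ a₄)⁻¹, hmem⟩).2 hone
    have hunit' := hloc.map_nonunit _ hunit
    obtain ⟨u, hu⟩ := hunit'
    have h3 : ((u⁻¹ : Rˣ) : R) * ⟨(RatFunc.X : RatFunc K)⁻¹, hXinv⟩ = 1 := by
      rw [← hu]; exact u.inv_mul
    have h4 := congrArg (fun r : R => (r : RatFunc K)) h3
    simp only [MulMemClass.coe_mul, OneMemClass.coe_one] at h4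
    have h5 : (((u⁻¹ : Rˣ) : R) : RatFunc K) = RatFunc.X := by
      have hX : (RatFunc.X : RatFunc K) ≠ 0 := RatFunc.X_ne_zero
      field_simp at h4
      exact h4
    have h6 : RatFunc.inftyValuation K (((u⁻¹ : Rˣ) : R) : RatFunc K) ≤ 1 :=
      (Valuation.mem_valuationSubring_iff _ _).1 ((u⁻¹ : Rˣ) : R).2
    rw [h5, RatFunc.inftyValuation.X] at h6
    exact absurd h6 (by decide)

end Fermat.Agent.S13
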