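import Fermat.Agent.S13.FF2
import Fermat.Agent.S05.Core10

set_option autoImplicit false
set_option linter.unusedSectionVars false

/-!
# S13, WP-A, part 3: specialisation lemmas

`x(Q + ε) ≡ x(Q)` for `ε` in the kernel of reduction, and the generic point of the function field.
-/

namespace Fermat.Agent.S13

open WeierstrassCurve WeierstrassCurve.Affine Fermat.Agent.S05

section General

variable {L : Type*} [Field L] [DecidableEq L] {Γ₀ : Type*} [LinearOrderedCommGroupWithZero Γ₀]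
  (v : Valuation L Γ₀) {W : WeierstrassCurve.Affine L}

/-- Adding a point of the kernel of reduction does not change the reduction of the
`x`-coordinate (case of a unit `x`-coordinate). -/
theorem add_inE1_congr (hW : Special W) (ha : v W.a₂ ≤ 1) (hb : v W.a₄ ≤ 1)
    {x₂ y₂ : L} (h₂ : W.Nonsingular x₂ y₂) (hx₂ : v x₂ = 1) {E : W.Point} (hE : InE1 v E) :
    ∃ (x₃ y₃ : L) (h₃ : W.Nonsingular x₃ y₃), Point.some x₂ y₂ h₂ + E = Point.some x₃ y₃ h₃ ∧
      v (x₃ - x₂) < 1 := by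
  cases E with
  | zero =>
    refine ⟨x₂, y₂, h₂, ?_, ?_⟩
    · rw [← Point.zero_def, add_zero]
    · rw [sub_self, map_zero]; exact zero_lt_one
  | some x₁ y₁ h₁ =>
    have hx₁ : 1 < v x₁ := hE
    have hx₁0 : x₁ ≠ 0 := ne_zero_of_pole v hx₁
    have hne : ¬(x₂ = x₁ ∧ y₂ = -y₁) := by
      rintro ⟨h, -⟩
      rw [h] at hx₂
      rw [hx₂] at hx₁
      exact lt_irrefl _ hx₁
    obtain ⟨x₃, y₃, h₃, hadd, hN, -, -, -⟩ := add_formula hW h₂ h₁ hne
    refine ⟨x₃, y₃, h₃, hadd, ?_⟩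
    have e₁ := eqn_of_nonsingular hW h₁
    have hy₂ : v y₂ ≤ 1 := val_y_le_one v hW ha hb h₂ (le_of_eq hx₂)
    set z := x₁⁻¹ with hz
    have hzx : x₁ * z = 1 := mul_inv_cancel₀ hx₁0
    have hzs : v z < 1 := sm_inv_of_pole v hx₁
    have hz0 : z ≠ 0 := inv_ne_zero hx₁0
    set w := y₁ * z ^ 2 with hw
    have hw2 : w ^ 2 = z * (1 + W.a₂ * z + W.a₄ * z ^ 2) := by
      rw [hw, mul_pow, e₁]
      linear_combination (z ^ 3 * x₁ ^ 2 + z ^ 2 * x₁ + z + W.a₂ * z ^ 3 * x₁ + W.a₂ * z ^ 2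
          + W.a₄ * z ^ 3) * hzx
    have he : v (1 + W.a₂ * z + W.a₄ * z ^ 2) ≤ 1 :=
      int_add v (int_add v (by simp) (int_mul v ha (le_of_lt hzs)))
        (int_mul v hb (int_pow v (le_of_lt hzs) 2))
    have hws : v w < 1 := by
      apply sm_of_sq_sm
      rw [hw2]
      exact sm_mul_int v hzs he
    -- the key identity
    have key : x₃ * (x₂ ^ 2 * (1 + W.a₂ * z + W.a₄ * z ^ 2) + 2 * x₂ * y₂ * w + y₂ ^ 2 * z)
        = x₂ * (x₂ - W.a₄ * z) ^ 2 := by
      have h1 : z * (x₃ * (x₂ ^ 2 * (1 + W.a₂ * z + W.a₄ * z ^ 2) + 2 * x₂ * y₂ * w + y₂ ^ 2 * z))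
          = z * (x₂ * (x₂ - W.a₄ * z) ^ 2) := by
        have hN' : x₃ * (x₁ * y₂ + x₂ * y₁) ^ 2 = x₂ * x₁ * (x₂ * x₁ - W.a₄) ^ 2 := hN
        have e1 : (x₁ * y₂ + x₂ * y₁) * z ^ 2 = y₂ * z + x₂ * w := by
          rw [hw]; linear_combination (y₂ * z) * hzx
        have e2 : (x₂ * x₁ - W.a₄) * z = x₂ - W.a₄ * z := by linear_combination x₂ * hzx
        calc z * (x₃ * (x₂ ^ 2 * (1 + W.a₂ * z + W.a₄ * z ^ 2) + 2 * x₂ * y₂ * w + y₂ ^ 2 * z))
            = x₃ * (y₂ * z + x₂ * w) ^ 2 := by linear_combination (-(x₃ * x₂ ^ 2)) * hw2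
          _ = x₃ * (x₁ * y₂ + x₂ * y₁) ^ 2 * z ^ 4 := by rw [← e1]; ring
          _ = x₂ * x₁ * (x₂ * x₁ - W.a₄) ^ 2 * z ^ 4 := by rw [hN']
          _ = x₂ * (x₁ * z) * ((x₂ * x₁ - W.a₄) * z) ^ 2 * z := by ring
          _ = z * (x₂ * (x₂ - W.a₄ * z) ^ 2) := by rw [hzx, e2]; ring
      exact mul_left_cancel₀ hz0 h1
    set D := x₂ ^ 2 * (1 + W.a₂ * z + W.a₄ * z ^ 2) + 2 * x₂ * y₂ * w + y₂ ^ 2 * z with hD
    have h2i : v (2 : L) ≤ 1 := by exact_mod_cast int_natCast v 2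
    have hx₂i : v x₂ ≤ 1 := le_of_eq hx₂
    have hDu : v D = 1 := by
      have : D = x₂ ^ 2 + (x₂ ^ 2 * (W.a₂ * z + W.a₄ * z ^ 2) + 2 * x₂ * y₂ * w + y₂ ^ 2 * z) := by
        rw [hD]; ring
      rw [this]
      refine unit_add_sm v (unit_pow v hx₂ 2) (sm_add v (sm_add v ?_ ?_) ?_)
      · refine int_mul_sm v (int_pow v hx₂i 2) (sm_add v (int_mul_sm v ha hzs)
          (int_mul_sm v hb (sm_pow v hzs two_ne_zero)))
      · exact int_mul_sm v (int_mul v (int_mul v h2i hx₂i) hy₂) hws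
      · exact int_mul_sm v (int_pow v hy₂ 2) hzs
    have hnum : v (x₂ * (x₂ - W.a₄ * z) ^ 2 - x₂ * D) < 1 := by
      have : x₂ * (x₂ - W.a₄ * z) ^ 2 - x₂ * D
          = z * (x₂ * (-2 * x₂ * W.a₄ + W.a₄ ^ 2 * z - x₂ ^ 2 * W.a₂ - x₂ ^ 2 * W.a₄ * z - y₂ ^ 2))
            + w * (-2 * x₂ ^ 2 * y₂) := by
        rw [hD]; ring
      rw [this]
      refine sm_add v (sm_mul_int v hzs ?_) (sm_mul_int v hws ?_)
      · refine int_mul v hx₂i ?_
        refine int_sub v (int_sub v (int_sub v (int_add v ?_ ?_) ?_) ?_) (int_pow v hy₂ 2)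
        · exact int_mul v (int_mul v (int_neg v h2i) hx₂i) hb
        · exact int_mul v (int_pow v hb 2) (le_of_lt hzs)
        · exact int_mul v (int_pow v hx₂i 2) ha
        · exact int_mul v (int_mul v (int_pow v hx₂i 2) hb) (le_of_lt hzs)
      · exact int_mul v (int_mul v (int_neg v h2i) (int_pow v hx₂i 2)) hy₂
    have hfin : (x₃ - x₂) * D = x₂ * (x₂ - W.a₄ * z) ^ 2 - x₂ * D := by
      rw [sub_mul, key]
    have := congrArg v hfin
    rw [map_mul, hDu, mul_one] at this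
    rw [this]; exact hnum

end General

section Generic

variable {K : Type*} [Field K] [DecidableEq K] (W : WeierstrassCurve.Affine K)

/-- The function field of a special curve. -/
abbrev FW : Type _ := FF W.a₂ W.a₄

theorem special_baseChange (hW : Special W) : Special (W⁄(FW W)) := by
  obtain ⟨h1, h3, h6⟩ := hW
  refine ⟨?_, ?_, ?_⟩ <;> simp [h1, h3, h6]

theorem baseChange_a₂ : (W⁄(FW W)).a₂ = algebraMap K (FW W) W.a₂ := by simp

theorem baseChange_a₄ : (W⁄(FW W)).a₄ = algebraMap K (FW W) W.a₄ := by simp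

theorem gen_nonsingular (hW : Special W) (h2 : (2 : K) ≠ 0) :
    (W⁄(FW W)).Nonsingular (xF W.a₂ W.a₄) (yF W.a₂ W.a₄) := by
  have hS := special_baseChange W hW
  rw [Affine.nonsingular_iff']
  refine ⟨(eqn_iff hS _ _).2 ?_, Or.inr ?_⟩
  · rw [baseChange_a₂, baseChange_a₄]; exact yF_sq W.a₂ W.a₄
  · rw [hS.1, hS.2.1]
    have h2F : (2 : FW W) ≠ 0 := by
      have : (2 : FW W) = algebraMap K (FW W) 2 := by rw [map_ofNat]
      rw [this]
      exact fun h => h2 (algebraMap_K_FF_injective W.a₂ W.a₄ (by rw [h, map_zero]))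
    have : (2 : FW W) * yF W.a₂ W.a₄ ≠ 0 := mul_ne_zero h2F (yF_ne_zero W.a₂ W.a₄)
    simpa using this

/-- The generic point. -/
noncomputable def gen (hW : Special W) (h2 : (2 : K) ≠ 0) : (W⁄(FW W)).Point :=
  Point.some _ _ (gen_nonsingular W hW h2)

/-- Constant points. -/
noncomputable def cst : W.Point →+ (W⁄(FW W)).Point :=
  Point.map (W' := W) (Algebra.ofId K (FW W))

theorem cst_some {a b : K} (h : W.Nonsingular a b) :
    ∃ h' : (W⁄(FW W)).Nonsingular (algebraMap K (FW W) a) (algebraMap K (FW W) b),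
      cst W (Point.some a b h) = Point.some _ _ h' := ⟨_, rfl⟩

theorem cst_injective : Function.Injective (cst W) :=
  Point.map_injective (W' := W) (Algebra.ofId K (FW W))

/-- Conjugation on points. -/
noncomputable def conjP : (W⁄(FW W)).Point →+ (W⁄(FW W)).Point :=
  Point.map (W' := W) (conjK W.a₂ W.a₄)

theorem conjP_some {x y : FW W} (h : (W⁄(FW W)).Nonsingular x y) :
    ∃ h' : (W⁄(FW W)).Nonsingular (conjF W.a₂ W.a₄ x) (conjF W.a₂ W.a₄ y),
      conjP W (Point.some x y h) = Point.some _ _ h' := ⟨_, rfl⟩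

theorem conjP_gen (hW : Special W) (h2 : (2 : K) ≠ 0) : conjP W (gen W hW h2) = -gen W hW h2 := by
  obtain ⟨h', e⟩ := conjP_some W (gen_nonsingular W hW h2)
  unfold gen
  rw [e, Point.neg_some]
  simp only [Point.some.injEq]
  refine ⟨conjF_xF _ _, ?_⟩
  rw [conjF_yF, negY_eq (special_baseChange W hW)]

theorem xc_conjP (P : (W⁄(FW W)).Point) : xc (conjP W P) = conjF W.a₂ W.a₄ (xc P) := by
  cases P with
  | zero => change (0 : FW W) = conjF W.a₂ W.a₄ 0; rw [map_zero]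
  | some x y h => rfl

/-- The `x`-coordinate of a multiple of the generic point is a rational function of `x`. -/
theorem exists_ratFunc_xc_nsmul_gen (hW : Special W) (h2 : (2 : K) ≠ 0) (m : ℕ) :
    ∃ u : RatFunc K, xc (m • gen W hW h2) = algebraMap (RatFunc K) (FW W) u := by
  apply exists_ratFunc_of_conj_fixed W.a₂ W.a₄ h2
  rw [← xc_conjP, map_nsmul, conjP_gen, neg_nsmul, xc_neg]

end Generic

end Fermat.Agent.S13
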