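import Fermat.Agent.S13.FF3

set_option autoImplicit false
set_option linter.unusedSectionVars false

/-!
# S13, WP-A, part 4: valuations of constants and of polynomials in `x` at a place
-/

namespace Fermat.Agent.S13

open Polynomial WeierstrassCurve WeierstrassCurve.Affine Fermat.Agent.S05

variable {K : Type*} [Field K] {a₂ a₄ : K}

/-- A valuation subring of the function field containing the constants. -/
def IsKPlace (B : ValuationSubring (FF a₂ a₄)) : Prop :=
  ∀ c : K, algebraMap K (FF a₂ a₄) c ∈ B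

namespace IsKPlace

variable {B : ValuationSubring (FF a₂ a₄)} (hB : IsKPlace B)

include hB

theorem val_const_le (c : K) : B.valuation (algebraMap K (FF a₂ a₄) c) ≤ 1 :=
  (B.valuation_le_one_iff _).2 (hB c)

theorem val_const {c : K} (hc : c ≠ 0) : B.valuation (algebraMap K (FF a₂ a₄) c) = 1 := by
  apply le_antisymm (hB.val_const_le c)
  have h1 := hB.val_const_le c⁻¹
  rw [map_inv₀, map_inv₀] at h1
  have hne : B.valuation (algebraMap K (FF a₂ a₄) c) ≠ 0 := by
    rw [Valuation.ne_zero_iff]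
    exact fun h => hc (algebraMap_K_FF_injective a₂ a₄ (by rw [h, map_zero]))
  exact (inv_le_one₀ (zero_lt_iff.2 hne)).1 h1

theorem const_eq_zero {c : K} (h : B.valuation (algebraMap K (FF a₂ a₄) c) < 1) : c = 0 := by
  by_contra hc
  rw [hB.val_const hc] at h
  exact lt_irrefl _ h

theorem val_natCast {n : ℕ} (hn : (n : K) ≠ 0) : B.valuation ((n : ℕ) : FF a₂ a₄) = 1 := by
  have : ((n : ℕ) : FF a₂ a₄) = algebraMap K (FF a₂ a₄) (n : K) := by rw [map_natCast]
  rw [this]; exact hB.val_const hn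

theorem val_two (h2 : (2 : K) ≠ 0) : B.valuation (2 : FF a₂ a₄) = 1 := by
  have : (2 : FF a₂ a₄) = algebraMap K (FF a₂ a₄) 2 := by rw [map_ofNat]
  rw [this]; exact hB.val_const h2

theorem const_eq_of_val_sub_lt {c d : K}
    (h : B.valuation (algebraMap K (FF a₂ a₄) c - algebraMap K (FF a₂ a₄) d) < 1) : c = d := by
  rw [← map_sub] at h
  exact sub_eq_zero.1 (hB.const_eq_zero h)

end IsKPlace

/-- A place centred at `x = a`. -/
structure IsPlaceAt (B : ValuationSubring (FF a₂ a₄)) (a : K) : Prop where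
  isK : IsKPlace B
  x_sub : B.valuation (xF a₂ a₄ - algebraMap K (FF a₂ a₄) a) < 1

namespace IsPlaceAt

variable {B : ValuationSubring (FF a₂ a₄)} {a : K} (hB : IsPlaceAt B a)

include hB

theorem val_x_le : B.valuation (xF a₂ a₄) ≤ 1 := by
  have : xF a₂ a₄ = (xF a₂ a₄ - algebraMap K (FF a₂ a₄) a) + algebraMap K (FF a₂ a₄) a := by ring
  rw [this]
  exact int_add _ (le_of_lt hB.x_sub) (hB.isK.val_const_le a)

theorem val_x (ha : a ≠ 0) : B.valuation (xF a₂ a₄) = 1 := by
  have : xF a₂ a₄ = algebraMap K (FF a₂ a₄) a + (xF a₂ a₄ - algebraMap K (FF a₂ a₄) a) := by ring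
  rw [this]
  exact unit_add_sm _ (hB.isK.val_const ha) hB.x_sub

theorem val_poly_le (q : K[X]) : B.valuation (polyHom a₂ a₄ q) ≤ 1 := by
  induction q using Polynomial.induction_on with
  | C c => rw [polyHom_C]; exact hB.isK.val_const_le c
  | add p q hp hq => rw [map_add]; exact int_add _ hp hq
  | monomial n c h =>
    rw [pow_succ, ← mul_assoc, map_mul, polyHom_X]
    exact int_mul _ h hB.val_x_le

theorem val_poly_sub_eval (q : K[X]) :
    B.valuation (polyHom a₂ a₄ q - algebraMap K (FF a₂ a₄) (q.eval a)) < 1 := by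
  obtain ⟨g, hg⟩ := Polynomial.X_sub_C_dvd_sub_C_eval (a := a) (p := q)
  have : polyHom a₂ a₄ q - algebraMap K (FF a₂ a₄) (q.eval a)
      = (xF a₂ a₄ - algebraMap K (FF a₂ a₄) a) * polyHom a₂ a₄ g := by
    rw [← polyHom_C, ← map_sub, hg, map_mul, map_sub, polyHom_X, polyHom_C]
  rw [this]
  exact sm_mul_int _ hB.x_sub (hB.val_poly_le g)

theorem val_poly_of_eval_ne {q : K[X]} (h : q.eval a ≠ 0) : B.valuation (polyHom a₂ a₄ q) = 1 := by
  have : polyHom a₂ a₄ q = algebraMap K (FF a₂ a₄) (q.eval a)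
      + (polyHom a₂ a₄ q - algebraMap K (FF a₂ a₄) (q.eval a)) := by ring
  rw [this]
  exact unit_add_sm _ (hB.isK.val_const h) (hB.val_poly_sub_eval q)

theorem val_poly_of_eval_eq {q : K[X]} (h : q.eval a = 0) : B.valuation (polyHom a₂ a₄ q) < 1 := by
  have := hB.val_poly_sub_eval q
  rwa [h, map_zero, sub_zero] at this

theorem val_poly_pow {q q₂ : K[X]} {k : ℕ} (hq : q = (X - C a) ^ k * q₂) (h : q₂.eval a ≠ 0) :
    B.valuation (polyHom a₂ a₄ q)
      = B.valuation (xF a₂ a₄ - algebraMap K (FF a₂ a₄) a) ^ k := by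
  rw [hq, map_mul, map_pow, map_sub, polyHom_X, polyHom_C, map_mul, map_pow,
    hB.val_poly_of_eval_ne h, mul_one]

end IsPlaceAt

/-- A place centred at infinity. -/
structure IsPlaceInfty (B : ValuationSubring (FF a₂ a₄)) : Prop where
  isK : IsKPlace B
  x_inv : B.valuation (xF a₂ a₄)⁻¹ < 1

namespace IsPlaceInfty

variable {B : ValuationSubring (FF a₂ a₄)} (hB : IsPlaceInfty B)

include hB

theorem one_lt_val_x : 1 < B.valuation (xF a₂ a₄) := by
  have h := hB.x_inv
  rw [map_inv₀] at h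
  have hne : B.valuation (xF a₂ a₄) ≠ 0 := by
    rw [Valuation.ne_zero_iff]; exact xF_ne_zero a₂ a₄
  exact (inv_lt_one₀ (zero_lt_iff.2 hne)).1 h

/-- `q(x) x^{-deg q} ≡ leading coefficient`. -/
theorem val_poly_mul_sub_lead (q : K[X]) :
    B.valuation (polyHom a₂ a₄ q * (xF a₂ a₄)⁻¹ ^ q.natDegree
      - algebraMap K (FF a₂ a₄) q.leadingCoeff) < 1 := by
  have hx0 : xF a₂ a₄ ≠ 0 := xF_ne_zero a₂ a₄
  have hsum : polyHom a₂ a₄ q * (xF a₂ a₄)⁻¹ ^ q.natDegree
      - algebraMap K (FF a₂ a₄) q.leadingCoeff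
      = ∑ i ∈ Finset.range q.natDegree,
          algebraMap K (FF a₂ a₄) (q.coeff i) * (xF a₂ a₄)⁻¹ ^ (q.natDegree - i) := by
    have hq : polyHom a₂ a₄ q = ∑ i ∈ Finset.range (q.natDegree + 1),
        algebraMap K (FF a₂ a₄) (q.coeff i) * xF a₂ a₄ ^ i := by
      have h := congrArg (polyHom a₂ a₄) q.as_sum_range_C_mul_X_pow
      rw [map_sum] at h
      rw [h]
      refine Finset.sum_congr rfl fun i _ => ?_
      rw [map_mul, map_pow, polyHom_X, polyHom_C]
    rw [hq, Finset.sum_mul, Finset.sum_range_succ]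
    have hlast : algebraMap K (FF a₂ a₄) (q.coeff q.natDegree) * xF a₂ a₄ ^ q.natDegree
        * (xF a₂ a₄)⁻¹ ^ q.natDegree = algebraMap K (FF a₂ a₄) q.leadingCoeff := by
      rw [mul_assoc, ← mul_pow, mul_inv_cancel₀ hx0, one_pow, mul_one]
      rfl
    rw [hlast, add_sub_cancel_right]
    refine Finset.sum_congr rfl fun i hi => ?_
    rw [Finset.mem_range] at hi
    rw [mul_assoc]
    congr 1
    have : q.natDegree = i + (q.natDegree - i) := by omega
    conv_lhs => rw [this, pow_add, ← mul_assoc, ← mul_pow, mul_inv_cancel₀ hx0, one_pow, one_mul]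
  rw [hsum]
  apply Valuation.map_sum_lt _ one_ne_zero
  intro i hi
  rw [Finset.mem_range] at hi
  have hne : q.natDegree - i ≠ 0 := by omega
  exact int_mul_sm _ (hB.isK.val_const_le _)
    (by rw [map_pow]; exact pow_lt_one₀ zero_le hB.x_inv hne)

theorem val_poly_mul {q : K[X]} (hq : q ≠ 0) :
    B.valuation (polyHom a₂ a₄ q * (xF a₂ a₄)⁻¹ ^ q.natDegree) = 1 := by
  have : polyHom a₂ a₄ q * (xF a₂ a₄)⁻¹ ^ q.natDegree = algebraMap K (FF a₂ a₄) q.leadingCoeff
      + (polyHom a₂ a₄ q * (xF a₂ a₄)⁻¹ ^ q.natDegree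
        - algebraMap K (FF a₂ a₄) q.leadingCoeff) := by ring
  rw [this]
  exact unit_add_sm _ (hB.isK.val_const (leadingCoeff_ne_zero.2 hq)) (hB.val_poly_mul_sub_lead q)

theorem val_poly {q : K[X]} (hq : q ≠ 0) :
    B.valuation (polyHom a₂ a₄ q) = B.valuation (xF a₂ a₄) ^ q.natDegree := by
  have h := hB.val_poly_mul hq
  rw [map_mul, map_pow, map_inv₀, inv_pow] at h
  have hne : B.valuation (xF a₂ a₄) ^ q.natDegree ≠ 0 := by
    apply pow_ne_zero
    rw [Valuation.ne_zero_iff]; exact xF_ne_zero a₂ a₄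
  exact (mul_inv_eq_one₀ hne).1 h

end IsPlaceInfty

end Fermat.Agent.S13
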