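import Fermat.Agent.S13.FF4

set_option autoImplicit false
set_option linter.unusedSectionVars false

/-!
# S13, WP-A, part 5: specialisation of the generic point at the places of the function field
-/

namespace Fermat.Agent.S13

open Polynomial WeierstrassCurve WeierstrassCurve.Affine Fermat.Agent.S05

section Spec

variable {K : Type*} [Field K] [DecidableEq K] {W : WeierstrassCurve.Affine K}
  (hW : Special W) (h2 : (2 : K) ≠ 0) {B : ValuationSubring (FW W)}

theorem IsKPlace.val_a₂ (hB : IsKPlace B) : B.valuation (W⁄(FW W)).a₂ ≤ 1 := by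
  rw [baseChange_a₂ W]; exact hB.val_const_le _

theorem IsKPlace.val_a₄ (hB : IsKPlace B) : B.valuation (W⁄(FW W)).a₄ ≤ 1 := by
  rw [baseChange_a₄ W]; exact hB.val_const_le _

omit [DecidableEq K] in
theorem xc_pole_of_inE1 {L : Type*} [Field L] {Γ₀ : Type*} [LinearOrderedCommGroupWithZero Γ₀]
    (v : Valuation L Γ₀) {W' : WeierstrassCurve.Affine L} {P : W'.Point} (hP : InE1 v P)
    (h0 : P ≠ 0) : 1 < v (xc P) := by
  cases P with
  | zero => exact absurd rfl h0
  | some x y h => exact hP

/-- (SPEC) at a place centred at `R = (a, b)`, the generic point specialises to `R`. -/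
theorem spec_inE1 (hB : IsKPlace B) {a b : K} (h : W.Nonsingular a b)
    (hx : B.valuation (xF W.a₂ W.a₄ - algebraMap K (FW W) a) < 1)
    (hy : B.valuation (yF W.a₂ W.a₄ - algebraMap K (FW W) b) < 1) :
    InE1 B.valuation (gen W hW h2 - cst W (Point.some a b h)) := by
  obtain ⟨h', e⟩ := cst_some W h
  rw [e]
  have hS := special_baseChange W hW
  have hP : IsPlaceAt B a := ⟨hB, hx⟩
  have hns : B.valuation (algebraMap K (FW W) b) = 1 ∨
      B.valuation (3 * algebraMap K (FW W) a ^ 2 + 2 * (W⁄(FW W)).a₂ * algebraMap K (FW W) a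
        + (W⁄(FW W)).a₄) = 1 := by
    rw [Affine.nonsingular_iff'] at h
    obtain ⟨-, h | h⟩ := h
    · right
      have e1 : 3 * algebraMap K (FW W) a ^ 2 + 2 * (W⁄(FW W)).a₂ * algebraMap K (FW W) a
          + (W⁄(FW W)).a₄ = algebraMap K (FW W) (3 * a ^ 2 + 2 * W.a₂ * a + W.a₄) := by
        rw [baseChange_a₂ W, baseChange_a₄ W]
        simp only [map_add, map_mul, map_pow, map_ofNat]
      rw [e1]
      apply hB.val_const
      intro h0
      apply h
      rw [hW.1, zero_mul, zero_sub, h0, neg_zero]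
    · left
      apply hB.val_const
      rintro rfl
      apply h
      rw [hW.1, hW.2.1]; ring
  have key := congr_sub_inE1 B.valuation hS hB.val_a₂ hB.val_a₄ (hB.val_two h2) h'
    (gen_nonsingular W hW h2) (hB.val_const_le a) hP.val_x_le
    (by rw [Valuation.map_sub_swap]; exact hx) (by rw [Valuation.map_sub_swap]; exact hy) hns
  have := inE1_neg B.valuation key
  rwa [neg_sub] at this

/-- (SPEC-m) -/
theorem spec_nsmul_inE1 (hB : IsKPlace B) {a b : K} (h : W.Nonsingular a b)
    (hx : B.valuation (xF W.a₂ W.a₄ - algebraMap K (FW W) a) < 1)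
    (hy : B.valuation (yF W.a₂ W.a₄ - algebraMap K (FW W) b) < 1) (m : ℕ) :
    InE1 B.valuation (m • gen W hW h2 - cst W (m • Point.some a b h)) := by
  rw [map_nsmul, ← nsmul_sub]
  exact inE1_nsmul B.valuation (special_baseChange W hW) hB.val_a₂ hB.val_a₄
    (spec_inE1 hW h2 hB h hx hy) m

/-- (POLE) -/
theorem pole_of_torsion (hB : IsKPlace B) {a b : K} (h : W.Nonsingular a b)
    (hx : B.valuation (xF W.a₂ W.a₄ - algebraMap K (FW W) a) < 1)
    (hy : B.valuation (yF W.a₂ W.a₄ - algebraMap K (FW W) b) < 1) {m : ℕ}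
    (hm : m • Point.some a b h = 0) : InE1 B.valuation (m • gen W hW h2) := by
  have := spec_nsmul_inE1 hW h2 hB h hx hy m
  rwa [hm, map_zero, sub_zero] at this

/-- (NOPOLE) -/
theorem nopole_of_not_torsion (hB : IsKPlace B) {a b : K} (h : W.Nonsingular a b)
    (hx : B.valuation (xF W.a₂ W.a₄ - algebraMap K (FW W) a) < 1)
    (hy : B.valuation (yF W.a₂ W.a₄ - algebraMap K (FW W) b) < 1) {m : ℕ} {a' b' : K}
    (h' : W.Nonsingular a' b') (hm : m • Point.some a b h = Point.some a' b' h') :
    B.valuation (xc (m • gen W hW h2) - algebraMap K (FW W) a') < 1 := by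
  have hS := special_baseChange W hW
  have hE := spec_nsmul_inE1 hW h2 hB h hx hy m
  rw [hm] at hE
  obtain ⟨h'', e⟩ := cst_some W h'
  rw [e] at hE
  have hsum : m • gen W hW h2 = Point.some _ _ h''
      + (m • gen W hW h2 - Point.some _ _ h'') := by abel
  rw [hsum]
  generalize m • gen W hW h2 - Point.some _ _ h'' = E at hE
  by_cases ha' : a' = 0
  · subst ha'
    have hb' : b' = 0 := by
      have := eqn_of_nonsingular hW h'
      have h0 : b' ^ 2 = 0 := by rw [this]; ring
      exact pow_eq_zero_iff (two_ne_zero) |>.1 h0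
    subst hb'
    obtain ⟨hT, eT⟩ := some_congr (W := W⁄(FW W)) (map_zero (algebraMap K (FW W)))
      (map_zero (algebraMap K (FW W))) h''
    rw [eT, map_zero, sub_zero]
    cases E with
    | zero =>
      rw [← Point.zero_def, add_zero]
      change B.valuation (0 : FW W) < 1
      rw [map_zero]; exact zero_lt_one
    | some xE yE hE' =>
      have hxE : 1 < B.valuation xE := hE
      have hxE0 : xE ≠ 0 := ne_zero_of_pole _ hxE
      obtain ⟨y', hq, eq⟩ := add_T hS hT hE' hxE0
      rw [add_comm, eq]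
      change B.valuation ((W⁄(FW W)).a₄ / xE) < 1
      rw [div_eq_mul_inv]
      exact int_mul_sm _ hB.val_a₄ (sm_inv_of_pole _ hxE)
  · obtain ⟨x₃, y₃, h₃, e3, hlt⟩ := add_inE1_congr B.valuation hS hB.val_a₂ hB.val_a₄ h''
      (hB.val_const ha') hE
    rw [e3]; exact hlt

end Spec

end Fermat.Agent.S13
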