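import Fermat.Agent.S13.FF5

set_option autoImplicit false
set_option linter.unusedSectionVars false

/-!
# S13, WP-A, part 6: `x(mG) = A(x)/B(x)` and the roots of `A`, `B`

`numM = A`, `denM = B` (coprime, `B` monic).  Roots of `B` = `x`-coordinates of the nonzero
`m`-torsion points (double roots); roots of `A` = `x`-coordinates of the points `R` with
`m • R = (0, 0)`; `deg A = deg B + 1`, `m² · lc(A) = 1`; `A(a) = a · B(a)` when `m • (a, b) = (a, b)`.
-/

namespace Fermat.Agent.S13

open Polynomial WeierstrassCurve WeierstrassCurve.Affine Fermat.Agent.S05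

variable {K : Type*} [Field K] [DecidableEq K] (W : WeierstrassCurve.Affine K)
  (hW : Special W) (h2 : (2 : K) ≠ 0) (m : ℕ)

/-- The rational function `u` with `x(mG) = u(x)`. -/
noncomputable def uM : RatFunc K := (exists_ratFunc_xc_nsmul_gen W hW h2 m).choose

theorem uM_spec : xc (m • gen W hW h2) = algebraMap (RatFunc K) (FW W) (uM W hW h2 m) :=
  (exists_ratFunc_xc_nsmul_gen W hW h2 m).choose_spec

/-- Numerator of `x(mG)`. -/
noncomputable def numM : K[X] := (uM W hW h2 m).num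

/-- Denominator of `x(mG)` (monic). -/
noncomputable def denM : K[X] := (uM W hW h2 m).denom

theorem denM_monic : (denM W hW h2 m).Monic := RatFunc.monic_denom _

theorem denM_ne_zero : denM W hW h2 m ≠ 0 := RatFunc.denom_ne_zero _

theorem isCoprime_numM_denM : IsCoprime (numM W hW h2 m) (denM W hW h2 m) :=
  RatFunc.isCoprime_num_denom _

theorem xc_nsmul_gen_mul_den :
    xc (m • gen W hW h2) * polyHom W.a₂ W.a₄ (denM W hW h2 m)
      = polyHom W.a₂ W.a₄ (numM W hW h2 m) := by
  rw [uM_spec]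
  have hd : algebraMap K[X] (RatFunc K) (denM W hW h2 m) ≠ 0 :=
    RatFunc.algebraMap_ne_zero (denM_ne_zero W hW h2 m)
  have h := RatFunc.num_div_denom (uM W hW h2 m)
  have h' : algebraMap K[X] (RatFunc K) (numM W hW h2 m)
      = uM W hW h2 m * algebraMap K[X] (RatFunc K) (denM W hW h2 m) := (div_eq_iff hd).1 h
  change algebraMap (RatFunc K) (FW W) (uM W hW h2 m)
      * algebraMap (RatFunc K) (FW W) (algebraMap K[X] (RatFunc K) (denM W hW h2 m))
    = algebraMap (RatFunc K) (FW W) (algebraMap K[X] (RatFunc K) (numM W hW h2 m))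
  rw [← map_mul, h']

variable {W} {m}

include hW in
theorem exists_place_of_nonsingular {a b : K} (h : W.Nonsingular a b) :
    ∃ B : ValuationSubring (FW W), IsKPlace B ∧
      B.valuation (xF W.a₂ W.a₄ - algebraMap K (FW W) a) < 1 ∧
      B.valuation (yF W.a₂ W.a₄ - algebraMap K (FW W) b) < 1 := by
  obtain ⟨B, hB, hx, hy⟩ := exists_place_at W.a₂ W.a₄ a b (eqn_of_nonsingular hW h)
  exact ⟨B, hB, B.mem_nonunits_iff.mp hx, B.mem_nonunits_iff.mp hy⟩

theorem exists_place_infty' : ∃ B : ValuationSubring (FW W), IsPlaceInfty B := by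
  obtain ⟨B, hB, hx⟩ := exists_place_infty W.a₂ W.a₄
  exact ⟨B, hB, B.mem_nonunits_iff.mp hx⟩

/-- The generic point has infinite order. -/
theorem nsmul_gen_ne_zero (hm0 : (m : K) ≠ 0) : m • gen W hW h2 ≠ 0 := by
  obtain ⟨B, hP⟩ := exists_place_infty' (W := W)
  have hB : IsKPlace B := hP.isK
  intro h0
  have hG : InE1 B.valuation (gen W hW h2) := hP.one_lt_val_x
  have := no_torsion_E1 B.valuation (special_baseChange W hW) hB.val_a₂ hB.val_a₄
    (hB.val_two h2) hG m (hB.val_natCast hm0) h0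
  exact Point.some_ne_zero _ this

theorem num_eval_ne_zero_of_den {a : K} (hden : (denM W hW h2 m).eval a = 0) :
    (numM W hW h2 m).eval a ≠ 0 := by
  intro h0
  obtain ⟨u, w, huw⟩ := isCoprime_numM_denM W hW h2 m
  have := congrArg (Polynomial.eval a) huw
  simp [h0, hden] at this

theorem den_eval_ne_zero_of_num {a : K} (hnum : (numM W hW h2 m).eval a = 0) :
    (denM W hW h2 m).eval a ≠ 0 := by
  intro h0
  obtain ⟨u, w, huw⟩ := isCoprime_numM_denM W hW h2 m
  have := congrArg (Polynomial.eval a) huw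
  simp [h0, hnum] at this

/-- (C1a) the `x`-coordinate of a nonzero `m`-torsion point is a root of the denominator. -/
theorem den_eval_eq_zero_of_torsion (hm0 : (m : K) ≠ 0) {a b : K} (h : W.Nonsingular a b)
    (hm : m • Point.some a b h = 0) : (denM W hW h2 m).eval a = 0 := by
  obtain ⟨B, hB, hx, hy⟩ := exists_place_of_nonsingular hW h
  have hP : IsPlaceAt B a := ⟨hB, hx⟩
  have hpole := pole_of_torsion hW h2 hB h hx hy hm
  have h1 : 1 < B.valuation (xc (m • gen W hW h2)) :=
    xc_pole_of_inE1 _ hpole (nsmul_gen_ne_zero hW h2 hm0)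
  by_contra hne
  have hd := hP.val_poly_of_eval_ne hne
  have hn := hP.val_poly_le (numM W hW h2 m)
  rw [← xc_nsmul_gen_mul_den, map_mul, hd, mul_one] at hn
  exact absurd h1 (not_lt.2 hn)

/-- (C1b) a point whose `x`-coordinate is a root of the denominator is `m`-torsion. -/
theorem torsion_of_den_eval_eq_zero (hb0 : W.a₄ ≠ 0) {a b : K} (h : W.Nonsingular a b)
    (hden : (denM W hW h2 m).eval a = 0) : m • Point.some a b h = 0 := by
  obtain ⟨B, hB, hx, hy⟩ := exists_place_of_nonsingular hW h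
  have hP : IsPlaceAt B a := ⟨hB, hx⟩
  have hn := hP.val_poly_of_eval_ne (num_eval_ne_zero_of_den hW h2 hden)
  have hd := hP.val_poly_of_eval_eq hden
  rw [← xc_nsmul_gen_mul_den, map_mul] at hn
  have h1 : 1 < B.valuation (xc (m • gen W hW h2)) := by
    by_contra hcon
    rw [not_lt] at hcon
    have := int_mul_sm B.valuation hcon hd
    rw [map_mul, hn] at this
    exact lt_irrefl _ this
  cases hmR : m • Point.some a b h with
  | zero => rfl
  | some a' b' h' =>
    exfalso
    have := nopole_of_not_torsion hW h2 hB h hx hy h' hmR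
    have hle : B.valuation (xc (m • gen W hW h2)) ≤ 1 := by
      have e : xc (m • gen W hW h2)
          = (xc (m • gen W hW h2) - algebraMap K (FW W) a') + algebraMap K (FW W) a' := by ring
      rw [e]; exact int_add _ (le_of_lt this) (hB.val_const_le a')
    exact absurd h1 (not_lt.2 hle)

/-- (C4) roots of the numerator come from points `R` with `m • R = (0, 0)`. -/
theorem nsmul_eq_T_of_num_eval_eq_zero (hm0 : (m : K) ≠ 0) {a b : K} (h : W.Nonsingular a b)
    (hnum : (numM W hW h2 m).eval a = 0) :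
    ∃ hT : W.Nonsingular 0 0, m • Point.some a b h = Point.some 0 0 hT := by
  obtain ⟨B, hB, hx, hy⟩ := exists_place_of_nonsingular hW h
  have hP : IsPlaceAt B a := ⟨hB, hx⟩
  have hd := hP.val_poly_of_eval_ne (den_eval_ne_zero_of_num hW h2 hnum)
  have hn := hP.val_poly_of_eval_eq hnum
  rw [← xc_nsmul_gen_mul_den, map_mul, hd, mul_one] at hn
  cases hmR : m • Point.some a b h with
  | zero =>
    exfalso
    have hpole := pole_of_torsion hW h2 hB h hx hy hmR
    have h1 := xc_pole_of_inE1 _ hpole (nsmul_gen_ne_zero hW h2 hm0)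
    exact absurd (lt_trans hn h1) (lt_irrefl _)
  | some a' b' h' =>
    have hlt := nopole_of_not_torsion hW h2 hB h hx hy h' hmR
    have ha' : a' = 0 := by
      apply hB.const_eq_zero
      have e : algebraMap K (FW W) a' = xc (m • gen W hW h2)
          - (xc (m • gen W hW h2) - algebraMap K (FW W) a') := by ring
      rw [e]; exact sm_sub _ hn hlt
    subst ha'
    have hb' : b' = 0 := by
      have := eqn_of_nonsingular hW h'
      have h0 : b' ^ 2 = 0 := by rw [this]; ring
      exact (pow_eq_zero_iff two_ne_zero).1 h0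
    subst hb'
    exact ⟨h', rfl⟩

/-- (C5) at a point fixed by `[m]` (e.g. a 2-torsion point when `m` is odd): `A(a) = a · B(a)`. -/
theorem num_eval_of_fixed (hb0 : W.a₄ ≠ 0) {a b : K} (h : W.Nonsingular a b) (ha0 : a ≠ 0)
    (hm : m • Point.some a b h = Point.some a b h) :
    (numM W hW h2 m).eval a = a * (denM W hW h2 m).eval a := by
  obtain ⟨B, hB, hx, hy⟩ := exists_place_of_nonsingular hW h
  have hP : IsPlaceAt B a := ⟨hB, hx⟩
  have hlt := nopole_of_not_torsion hW h2 hB h hx hy h hm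
  have e : polyHom W.a₂ W.a₄ (numM W hW h2 m - C a * denM W hW h2 m)
      = (xc (m • gen W hW h2) - algebraMap K (FW W) a)
        * polyHom W.a₂ W.a₄ (denM W hW h2 m) := by
    rw [map_sub, map_mul, polyHom_C, ← xc_nsmul_gen_mul_den]; ring
  have hsm : B.valuation (polyHom W.a₂ W.a₄ (numM W hW h2 m - C a * denM W hW h2 m)) < 1 := by
    rw [e]; exact sm_mul_int _ hlt (hP.val_poly_le _)
  by_contra hne
  have hev : (numM W hW h2 m - C a * denM W hW h2 m).eval a ≠ 0 := by
    rw [eval_sub, eval_mul, eval_C]; exact sub_ne_zero.2 hne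
  rw [hP.val_poly_of_eval_ne hev] at hsm
  exact lt_irrefl _ hsm

/-- (C2) these roots are double roots. -/
theorem rootMultiplicity_den_of_torsion (hm0 : (m : K) ≠ 0) {a b : K} (h : W.Nonsingular a b)
    (hb : b ≠ 0) (hm : m • Point.some a b h = 0) : (denM W hW h2 m).rootMultiplicity a = 2 := by
  obtain ⟨B, hB, hx, hy⟩ := exists_place_of_nonsingular hW h
  have hP : IsPlaceAt B a := ⟨hB, hx⟩
  have hS := special_baseChange W hW
  have ha0 : a ≠ 0 := by
    rintro rfl
    have := eqn_of_nonsingular hW h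
    apply hb
    have h0 : b ^ 2 = 0 := by rw [this]; ring
    exact (pow_eq_zero_iff two_ne_zero).1 h0
  have ht0 : xF W.a₂ W.a₄ - algebraMap K (FW W) a ≠ 0 := by
    intro h0
    have h1 : polyHom W.a₂ W.a₄ (X - C a) = 0 := by
      rw [map_sub, polyHom_X, polyHom_C]; exact h0
    have h3 := polyHom_injective W.a₂ W.a₄ (h1.trans (map_zero _).symm)
    exact X_sub_C_ne_zero a h3
  have hvt0 : 0 < B.valuation (xF W.a₂ W.a₄ - algebraMap K (FW W) a) :=
    zero_lt_iff.2 ((Valuation.ne_zero_iff _).2 ht0)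
  obtain ⟨h', e⟩ := cst_some W h
  have hne : ¬(xF W.a₂ W.a₄ = algebraMap K (FW W) a ∧ yF W.a₂ W.a₄ = algebraMap K (FW W) b) :=
    fun hc => ht0 (sub_eq_zero.2 hc.1)
  obtain ⟨x₃, y₃, h₃, hsub, -, hM, -, -⟩ := sub_formula hS (gen_nonsingular W hW h2) h' hne
  have hunit : B.valuation (algebraMap K (FW W) a * yF W.a₂ W.a₄
      + xF W.a₂ W.a₄ * algebraMap K (FW W) b) = 1 := by
    have e2 : algebraMap K (FW W) a * yF W.a₂ W.a₄ + xF W.a₂ W.a₄ * algebraMap K (FW W) b
        = algebraMap K (FW W) (2 * a * b)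
          + (algebraMap K (FW W) a * (yF W.a₂ W.a₄ - algebraMap K (FW W) b)
            + (xF W.a₂ W.a₄ - algebraMap K (FW W) a) * algebraMap K (FW W) b) := by
      simp only [map_mul, map_ofNat]; ring
    rw [e2]
    exact unit_add_sm _ (hB.val_const (mul_ne_zero (mul_ne_zero h2 ha0) hb))
      (sm_add _ (int_mul_sm _ (hB.val_const_le a) hy) (sm_mul_int _ hx (hB.val_const_le b)))
  have hx3 : B.valuation x₃ * B.valuation (xF W.a₂ W.a₄ - algebraMap K (FW W) a) ^ 2 = 1 := by
    have := congrArg B.valuation hM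
    rw [map_mul, map_mul, map_mul, map_pow, map_pow, hunit, one_pow, hP.val_x ha0,
      hB.val_const ha0, one_mul, one_mul] at this
    exact this
  have hx3pole : 1 < B.valuation x₃ := by
    by_contra hcon
    rw [not_lt] at hcon
    have : B.valuation x₃ * B.valuation (xF W.a₂ W.a₄ - algebraMap K (FW W) a) ^ 2 < 1 := by
      rw [← map_pow, ← map_mul]
      exact int_mul_sm _ hcon (sm_pow _ hx two_ne_zero)
    rw [hx3] at this
    exact lt_irrefl _ this
  have hmQ : m • Point.some x₃ y₃ h₃ = m • gen W hW h2 := by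
    have hsub' : gen W hW h2 - cst W (Point.some a b h) = Point.some x₃ y₃ h₃ := by
      rw [e]; exact hsub
    rw [← hsub', nsmul_sub, ← map_nsmul, hm, map_zero, sub_zero]
  have hz := zeta_nsmul B.valuation hS hB.val_a₂ hB.val_a₄ (hB.val_two h2) h₃ hx3pole m
  rw [hmQ] at hz
  have hm1 : B.valuation ((m : FW W) ^ 2) = 1 := by
    rw [map_pow, hB.val_natCast hm0, one_pow]
  have hq : B.valuation ((xc (m • gen W hW h2))⁻¹ * x₃) = 1 := by
    have e3 : (xc (m • gen W hW h2))⁻¹ * x₃
        = (m : FW W) ^ 2 + ((xc (m • gen W hW h2))⁻¹ * x₃ - (m : FW W) ^ 2) := by ring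
    rw [e3]; exact unit_add_sm _ hm1 hz
  have hXm0 : xc (m • gen W hW h2) ≠ 0 := by
    intro h0
    rw [h0, inv_zero, zero_mul, map_zero] at hq
    exact zero_ne_one hq
  have hXm : B.valuation (xc (m • gen W hW h2)) = B.valuation x₃ := by
    rw [map_mul, map_inv₀] at hq
    exact (inv_mul_eq_one₀ ((Valuation.ne_zero_iff _).2 hXm0)).1 hq
  obtain ⟨q₂, hq₂, hndvd⟩ := Polynomial.exists_eq_pow_rootMultiplicity_mul_and_not_dvd
    (denM W hW h2 m) (denM_ne_zero W hW h2 m) a
  have hq₂a : q₂.eval a ≠ 0 := fun h0 => hndvd (Polynomial.dvd_iff_isRoot.2 h0)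
  have hvden := hP.val_poly_pow hq₂ hq₂a
  have hvnum := hP.val_poly_of_eval_ne
    (num_eval_ne_zero_of_den hW h2 (den_eval_eq_zero_of_torsion hW h2 hm0 h hm))
  have hprod := congrArg B.valuation (xc_nsmul_gen_mul_den W hW h2 m)
  rw [map_mul, hvden, hvnum, hXm] at hprod
  have hx30 : B.valuation x₃ ≠ 0 := ne_of_gt (lt_trans zero_lt_one hx3pole)
  have hpow := mul_left_cancel₀ hx30 (hprod.trans hx3.symm)
  exact (pow_right_strictAnti₀ hvt0 hx).injective hpow

theorem infty_setup (hm0 : (m : K) ≠ 0) : ∃ B : ValuationSubring (FW W), IsPlaceInfty B ∧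
    B.valuation ((xc (m • gen W hW h2))⁻¹ * xF W.a₂ W.a₄ - (m : FW W) ^ 2) < 1 ∧
    B.valuation ((xc (m • gen W hW h2))⁻¹ * xF W.a₂ W.a₄) = 1 ∧
    xc (m • gen W hW h2) ≠ 0 ∧
    B.valuation (xc (m • gen W hW h2)) = B.valuation (xF W.a₂ W.a₄) := by
  obtain ⟨B, hP⟩ := exists_place_infty' (W := W)
  have hB : IsKPlace B := hP.isK
  have hS := special_baseChange W hW
  have hz : B.valuation ((xc (m • gen W hW h2))⁻¹ * xF W.a₂ W.a₄ - (m : FW W) ^ 2) < 1 :=
    zeta_nsmul B.valuation hS hB.val_a₂ hB.val_a₄ (hB.val_two h2) (gen_nonsingular W hW h2)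
      hP.one_lt_val_x m
  have hm1 : B.valuation ((m : FW W) ^ 2) = 1 := by
    rw [map_pow, hB.val_natCast hm0, one_pow]
  have hq : B.valuation ((xc (m • gen W hW h2))⁻¹ * xF W.a₂ W.a₄) = 1 := by
    have e3 : (xc (m • gen W hW h2))⁻¹ * xF W.a₂ W.a₄
        = (m : FW W) ^ 2 + ((xc (m • gen W hW h2))⁻¹ * xF W.a₂ W.a₄ - (m : FW W) ^ 2) := by ring
    rw [e3]; exact unit_add_sm _ hm1 hz
  have hXm0 : xc (m • gen W hW h2) ≠ 0 := by
    intro h0
    rw [h0, inv_zero, zero_mul, map_zero] at hq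
    exact zero_ne_one hq
  refine ⟨B, hP, hz, hq, hXm0, ?_⟩
  have hq' := hq
  rw [map_mul, map_inv₀] at hq'
  exact (inv_mul_eq_one₀ ((Valuation.ne_zero_iff _).2 hXm0)).1 hq'

theorem numM_ne_zero (hm0 : (m : K) ≠ 0) : numM W hW h2 m ≠ 0 := by
  obtain ⟨B, hP, -, -, hXm0, -⟩ := infty_setup hW h2 hm0
  intro h0
  have := xc_nsmul_gen_mul_den W hW h2 m
  rw [h0, map_zero] at this
  rcases mul_eq_zero.1 this with h | h
  · exact hXm0 h
  · exact denM_ne_zero W hW h2 m (polyHom_injective W.a₂ W.a₄ (h.trans (map_zero _).symm))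

/-- (INFTY) degrees. -/
theorem natDegree_numM (hm0 : (m : K) ≠ 0) :
    (numM W hW h2 m).natDegree = (denM W hW h2 m).natDegree + 1 := by
  obtain ⟨B, hP, -, -, hXm0, hXm⟩ := infty_setup hW h2 hm0
  have hprod := congrArg B.valuation (xc_nsmul_gen_mul_den W hW h2 m)
  rw [map_mul, hP.val_poly (denM_ne_zero W hW h2 m), hP.val_poly (numM_ne_zero hW h2 hm0), hXm,
    ← pow_succ'] at hprod
  exact ((pow_right_strictMono₀ hP.one_lt_val_x).injective hprod).symm

/-- (INFTY) leading coefficients. -/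
theorem leadingCoeff_numM (hm0 : (m : K) ≠ 0) :
    (m : K) ^ 2 * (numM W hW h2 m).leadingCoeff = 1 := by
  obtain ⟨B, hP, hz, hq, hXm0, hXm⟩ := infty_setup hW h2 hm0
  have hB : IsKPlace B := hP.isK
  have hdeg := natDegree_numM hW h2 hm0
  have hα := hP.val_poly_mul_sub_lead (numM W hW h2 m)
  have hβ := hP.val_poly_mul_sub_lead (denM W hW h2 m)
  have hx0 : xF W.a₂ W.a₄ ≠ 0 := xF_ne_zero _ _
  have hrel : polyHom W.a₂ W.a₄ (denM W hW h2 m) * (xF W.a₂ W.a₄)⁻¹ ^ (denM W hW h2 m).natDegree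
      = polyHom W.a₂ W.a₄ (numM W hW h2 m) * (xF W.a₂ W.a₄)⁻¹ ^ (numM W hW h2 m).natDegree
        * ((xc (m • gen W hW h2))⁻¹ * xF W.a₂ W.a₄) := by
    rw [← xc_nsmul_gen_mul_den, hdeg, pow_succ]
    field_simp
  have key : B.valuation (algebraMap K (FW W) (denM W hW h2 m).leadingCoeff
      - algebraMap K (FW W) ((numM W hW h2 m).leadingCoeff * (m : K) ^ 2)) < 1 := by
    have e : algebraMap K (FW W) (denM W hW h2 m).leadingCoeff
        - algebraMap K (FW W) ((numM W hW h2 m).leadingCoeff * (m : K) ^ 2)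
        = -(polyHom W.a₂ W.a₄ (denM W hW h2 m) * (xF W.a₂ W.a₄)⁻¹ ^ (denM W hW h2 m).natDegree
            - algebraMap K (FW W) (denM W hW h2 m).leadingCoeff)
          + ((polyHom W.a₂ W.a₄ (numM W hW h2 m)
              * (xF W.a₂ W.a₄)⁻¹ ^ (numM W hW h2 m).natDegree
              - algebraMap K (FW W) (numM W hW h2 m).leadingCoeff)
              * ((xc (m • gen W hW h2))⁻¹ * xF W.a₂ W.a₄)
            + algebraMap K (FW W) (numM W hW h2 m).leadingCoeff
              * ((xc (m • gen W hW h2))⁻¹ * xF W.a₂ W.a₄ - (m : FW W) ^ 2)) := by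
      rw [hrel]
      simp only [map_mul, map_pow, map_natCast]
      ring
    rw [e]
    exact sm_add _ (sm_neg _ hβ) (sm_add _ (sm_mul_int _ hα (le_of_eq hq))
      (int_mul_sm _ (hB.val_const_le _) hz))
  have h1 := hB.const_eq_of_val_sub_lt key
  rw [(denM_monic W hW h2 m).leadingCoeff] at h1
  rw [mul_comm]; exact h1.symm

end Fermat.Agent.S13
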