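import Fermat.Agent.S13.MinkVal

set_option autoImplicit false

/-!
# S13, work package E: lifting inertia

Let `H` be a closed normal subgroup of `Gal(ℚ̄/ℚ)` and `A` a valuation subring of `ℚ̄`.  If
`σ₀` acts trivially modulo `𝔪_A` on the `H`-invariant algebraic integers, then `h * σ₀` lies in
the inertia subgroup of `A` for some `h ∈ H`.  This uses Mathlib's invariant theory of profinite
groups acting on the ring of all algebraic integers.
-/

open scoped Pointwise

namespace Fermat.Agent.S13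

local notation "Kb" => AlgebraicClosure ℚ
local notation "GQ" => (Kb ≃ₐ[ℚ] Kb)
local notation "OB" => (integralClosure ℤ Kb)

attribute [local instance] isGalois_Kb isAlgClosure_Kb

/-- The Galois action on the ring of all algebraic integers. -/
@[implicit_reducible]
noncomputable def galActionOB : MulSemiringAction GQ OB :=
  IsIntegralClosure.MulSemiringAction ℤ ℚ Kb OB

attribute [local instance] galActionOB

theorem coe_smul_OB (σ : GQ) (b : OB) : ((σ • b : OB) : Kb) = σ (b : Kb) :=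
  algebraMap_galRestrict_apply ℤ σ b

/-- The discrete topology on the ring of all algebraic integers. -/
@[implicit_reducible]
def topOB : TopologicalSpace OB := ⊥

attribute [local instance] topOB

theorem discreteTopology_OB : DiscreteTopology OB := ⟨rfl⟩

attribute [local instance] discreteTopology_OB

theorem continuousSMul_OB : ContinuousSMul GQ OB := by
  constructor
  rw [continuous_prod_of_discrete_right]
  intro b
  rw [continuous_discrete_rng]
  intro c
  rw [isOpen_iff_mem_nhds]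
  intro σ hσ
  have hint : IsIntegral ℚ (b : Kb) := Algebra.IsIntegral.isIntegral _
  have : FiniteDimensional ℚ (IntermediateField.adjoin ℚ {(b : Kb)}) :=
    IntermediateField.adjoin.finiteDimensional hint
  have hopen := IntermediateField.fixingSubgroup_isOpen (IntermediateField.adjoin ℚ {(b : Kb)})
  have hnhds : σ • ((IntermediateField.adjoin ℚ {(b : Kb)}).fixingSubgroup : Set GQ) ∈ nhds σ :=
    (hopen.smul σ).mem_nhds ⟨1, one_mem _, by simp⟩
  refine Filter.mem_of_superset hnhds ?_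
  rintro _ ⟨τ, hτ, rfl⟩
  have hτb : τ (b : Kb) = (b : Kb) :=
    hτ ⟨(b : Kb), IntermediateField.subset_adjoin ℚ _ rfl⟩
  show (σ • τ) • b = c
  rw [← hσ]
  apply Subtype.ext
  rw [coe_smul_OB, coe_smul_OB]
  show σ (τ (b : Kb)) = σ (b : Kb)
  rw [hτb]

attribute [local instance] continuousSMul_OB

/-- The prime ideal of the ring of algebraic integers cut out by a valuation subring. -/
def primeOB (A : ValuationSubring Kb) : Ideal OB where
  carrier := {b | A.valuation (b : Kb) < 1}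
  add_mem' := by
    intro x y hx hy
    simp only [Set.mem_ofPred_eq] at hx hy ⊢
    exact lt_of_le_of_lt (Valuation.map_add _ _ _) (max_lt hx hy)
  zero_mem' := by simp
  smul_mem' := by
    intro c x hx
    simp only [Set.mem_ofPred_eq, smul_eq_mul] at hx ⊢
    show A.valuation ((c : Kb) * (x : Kb)) < 1
    rw [map_mul]
    calc A.valuation (c : Kb) * A.valuation (x : Kb)
        ≤ 1 * A.valuation (x : Kb) :=
          mul_le_mul_left (valuation_le_one_of_isIntegral A c.2) _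
      _ = A.valuation (x : Kb) := one_mul _
      _ < 1 := hx

theorem mem_primeOB (A : ValuationSubring Kb) (b : OB) :
    b ∈ primeOB A ↔ A.valuation (b : Kb) < 1 := Iff.rfl

theorem primeOB_isPrime (A : ValuationSubring Kb) : (primeOB A).IsPrime := by
  refine ⟨?_, ?_⟩
  · intro h
    have h1 : (1 : OB) ∈ primeOB A := by rw [h]; trivial
    rw [mem_primeOB] at h1
    simp at h1
  · intro x y hxy
    rw [mem_primeOB] at hxy
    by_contra hcon
    push Not at hcon
    have hx : A.valuation (x : Kb) = 1 :=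
      le_antisymm (valuation_le_one_of_isIntegral A x.2) (not_lt.mp hcon.1)
    have hy : A.valuation (y : Kb) = 1 :=
      le_antisymm (valuation_le_one_of_isIntegral A y.2) (not_lt.mp hcon.2)
    have : A.valuation ((x * y : OB) : Kb) = 1 := by
      show A.valuation ((x : Kb) * (y : Kb)) = 1
      rw [map_mul, hx, hy, one_mul]
    rw [this] at hxy
    exact lt_irrefl _ hxy

theorem primeOB_smul_mem_iff (A : ValuationSubring Kb) (σ : GQ) (b : OB) :
    b ∈ σ • primeOB A ↔ A.valuation (σ.symm (b : Kb)) < 1 := by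
  rw [Ideal.mem_pointwise_smul_iff_inv_smul_mem, mem_primeOB, coe_smul_OB]
  rfl

/-- **Lifting to inertia.** -/
theorem exists_mul_mem_inertia (A : ValuationSubring Kb) (H : Subgroup GQ) [hn : H.Normal]
    (hH : IsClosed (H : Set GQ)) (σ₀ : GQ)
    (h₀ : ∀ x : Kb, IsIntegral ℤ x → (∀ h ∈ H, h x = x) → A.valuation (σ₀ x - x) < 1) :
    ∃ h ∈ H, h * σ₀ ∈ A.inertiaSubgroupIn ℚ := by
  have : CompactSpace H := isCompact_iff_compactSpace.mp hH.isCompact
  let A' := FixedPoints.subalgebra ℤ OB H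
  have : Algebra.IsInvariant A' OB H := ⟨fun b hb => ⟨⟨b, hb⟩, rfl⟩⟩
  let Q := primeOB A
  have hQ : Q.IsPrime := primeOB_isPrime A
  let Q' : Ideal OB := σ₀ • Q
  have hQ' : Q'.IsPrime := by
    show (σ₀ • Q).IsPrime
    rw [Ideal.pointwise_smul_eq_comap]
    exact Ideal.comap_isPrime _ _
  -- elements of `A'` are fixed by `H`
  have hA'fix : ∀ a : A', ∀ g ∈ H, g ((a : OB) : Kb) = ((a : OB) : Kb) := by
    intro a g hg
    have h1 := a.2 ⟨g, hg⟩
    have h2 := congrArg (Subtype.val : OB → Kb) h1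
    exact (coe_smul_OB g (a : OB)).symm.trans h2
  -- conjugates of `H`-fixed elements are `H`-fixed
  have hconj : ∀ (τ : GQ) (x : Kb), (∀ g ∈ H, g x = x) → ∀ g ∈ H, g (τ x) = τ x := by
    intro τ x hx g hg
    have h1 := hx (τ⁻¹ * g * τ) (by
      have := hn.conj_mem g hg τ⁻¹
      simpa using this)
    have h2 : τ ((τ⁻¹ * g * τ) x) = g (τ x) := by
      simp [AlgEquiv.mul_apply]
    rw [← h2, h1]
  have hPQ : Q'.under A' = Q.under A' := by
    ext a
    rw [Ideal.under_def, Ideal.under_def, Ideal.mem_comap, Ideal.mem_comap]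
    show (a : OB) ∈ σ₀ • primeOB A ↔ (a : OB) ∈ primeOB A
    rw [primeOB_smul_mem_iff, mem_primeOB]
    have hx : ∀ g ∈ H, g (σ₀.symm ((a : OB) : Kb)) = σ₀.symm ((a : OB) : Kb) :=
      hconj σ₀.symm _ (hA'fix a)
    have h1 := h₀ (σ₀.symm ((a : OB) : Kb)) (map_isIntegral_int σ₀.symm (a : OB).2) hx
    rw [AlgEquiv.apply_symm_apply] at h1
    constructor
    · intro h2
      have h3 : ((a : OB) : Kb) = (((a : OB) : Kb) - σ₀.symm ((a : OB) : Kb)) +
          σ₀.symm ((a : OB) : Kb) := by ring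
      rw [h3]
      exact lt_of_le_of_lt (Valuation.map_add _ _ _) (max_lt h1 h2)
    · intro h2
      have h3 : σ₀.symm ((a : OB) : Kb) = ((a : OB) : Kb) -
          (((a : OB) : Kb) - σ₀.symm ((a : OB) : Kb)) := by ring
      rw [h3]
      exact lt_of_le_of_lt (Valuation.map_sub _ _ _) (max_lt h2 h1)
  obtain ⟨h₁, hh₁⟩ := Algebra.IsInvariant.exists_smul_of_under_eq_of_profinite (A := A') (G := H)
    Q' Q hPQ
  -- `σ₁ = h₁ σ₀` stabilises `Q`
  set σ₁ : GQ := (h₁ : GQ) * σ₀ with hσ₁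
  have hstab : σ₁ • Q = Q := by
    rw [hσ₁, mul_smul]
    exact hh₁.symm
  -- `σ₁` is trivial on `A'` modulo `Q`
  have hσ₁A' : ∀ a : A', σ₁ • (a : OB) - (a : OB) ∈ Q := by
    intro a
    show A.valuation ((σ₁ • (a : OB) - (a : OB) : OB) : Kb) < 1
    have h1 : ((σ₁ • (a : OB) - (a : OB) : OB) : Kb) = σ₁ ((a : OB) : Kb) - ((a : OB) : Kb) := by
      rw [← coe_smul_OB]
      rfl
    rw [h1]
    have h2 : σ₁ ((a : OB) : Kb) = σ₀ ((a : OB) : Kb) := by
      rw [hσ₁, AlgEquiv.mul_apply]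
      exact hconj σ₀ _ (hA'fix a) h₁ h₁.2
    rw [h2]
    exact h₀ _ (a : OB).2 (hA'fix a)
  -- the induced automorphism of `OB ⧸ Q` over `A' ⧸ Q.under A'`
  let e₁ : (OB ⧸ Q) ≃+* (OB ⧸ Q) :=
    (Ideal.Quotient.stabilizerHom Q (Q.under ℤ) GQ ⟨σ₁, hstab⟩).toRingEquiv
  have he₁ : ∀ b : OB, e₁ (Ideal.Quotient.mk Q b) = Ideal.Quotient.mk Q (σ₁ • b) := fun b =>
    Ideal.Quotient.stabilizerHom_apply Q (Q.under ℤ) GQ ⟨σ₁, hstab⟩ b
  let σbar : (OB ⧸ Q) ≃ₐ[A' ⧸ Q.under A'] (OB ⧸ Q) :=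
    AlgEquiv.ofRingEquiv (f := e₁) (by
      intro x
      obtain ⟨a, rfl⟩ := Ideal.Quotient.mk_surjective x
      rw [Ideal.Quotient.algebraMap_mk_of_liesOver, he₁, Ideal.Quotient.eq]
      exact hσ₁A' a)
  obtain ⟨g₂, hg₂⟩ := Ideal.Quotient.stabilizerHom_surjective_of_profinite (G := H)
    (Q.under A') Q σbar
  have hg₂b : ∀ b : OB, ((g₂ : H) : GQ) • b - σ₁ • b ∈ Q := by
    intro b
    have h1 : (Ideal.Quotient.stabilizerHom Q (Q.under A') H g₂) (Ideal.Quotient.mk Q b) =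
        σbar (Ideal.Quotient.mk Q b) := by rw [hg₂]
    rw [Ideal.Quotient.stabilizerHom_apply] at h1
    have h2 : σbar (Ideal.Quotient.mk Q b) = Ideal.Quotient.mk Q (σ₁ • b) := he₁ b
    rw [h2, Ideal.Quotient.eq] at h1
    exact h1
  have hg₂Q : ∀ y : OB, y ∈ Q → (((g₂ : H) : GQ)⁻¹ • y) ∈ Q := by
    intro y hy
    have h1 : ((g₂ : H) : GQ) • Q = Q := g₂.2
    rw [← h1] at hy
    exact Ideal.mem_pointwise_smul_iff_inv_smul_mem.mp hy
  refine ⟨((g₂ : H) : GQ)⁻¹ * h₁, H.mul_mem (H.inv_mem (g₂ : H).2) h₁.2, ?_⟩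
  apply mem_inertiaSubgroupIn_of_integral
  intro b hb
  have h1 := hg₂Q _ (hg₂b ⟨b, hb⟩)
  rw [mem_primeOB, coe_smul_OB] at h1
  have h2 : (((((g₂ : H) : GQ) • (⟨b, hb⟩ : OB) - σ₁ • (⟨b, hb⟩ : OB) : OB)) : Kb) =
      ((g₂ : H) : GQ) b - σ₁ b := by
    have e1 := coe_smul_OB ((g₂ : H) : GQ) ⟨b, hb⟩
    have e2 := coe_smul_OB σ₁ ⟨b, hb⟩
    rw [← e1, ← e2]
    rfl
  rw [h2] at h1
  have h3 : (((g₂ : H) : GQ)⁻¹ * (h₁ : GQ) * σ₀) b - b =
      -(((g₂ : H) : GQ)⁻¹ (((g₂ : H) : GQ) b - σ₁ b)) := by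
    rw [map_sub, hσ₁]
    simp only [AlgEquiv.mul_apply]
    have h4 : ((g₂ : H) : GQ)⁻¹ (((g₂ : H) : GQ) b) = b := by
      rw [← AlgEquiv.mul_apply, inv_mul_cancel]
      rfl
    rw [h4]
    ring
  rw [h3, Valuation.map_neg]
  exact h1

end Fermat.Agent.S13
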