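import Fermat.Agent.S13.MinkBasic

set_option autoImplicit false

/-!
# S13, work package E: valuation subrings of `AlgebraicClosure ℚ` and algebraic integers

Every element of a valuation subring `A` of `AlgebraicClosure ℚ` is a quotient `b / s` of two
algebraic integers with `s` a unit of `A`.  Consequently an automorphism `σ` with
`σ b ≡ b mod 𝔪_A` for all algebraic integers `b` lies in the inertia subgroup of `A`.
-/

open scoped Pointwise
open Polynomial

namespace Fermat.Agent.S13

local notation "Kb" => AlgebraicClosure ℚ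

/-- An element lying in every valuation subring is an algebraic integer. -/
theorem isIntegral_of_forall_mem_valuationSubring (x : Kb)
    (h : ∀ V : ValuationSubring Kb, x ∈ V) : IsIntegral ℤ x := by
  by_contra hx
  have hx' : x ∉ (integralClosure ℤ Kb).toSubring := hx
  obtain ⟨V, -, hV⟩ := Subring.exists_le_valuationSubring_of_isIntegrallyClosedIn hx'
  exact hV (h V)

/-- Algebraic integers lie in every valuation subring. -/
theorem valuation_le_one_of_isIntegral (A : ValuationSubring Kb) {x : Kb} (hx : IsIntegral ℤ x) :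
    A.valuation x ≤ 1 := by
  rw [ValuationSubring.valuation_le_one_iff]
  have h1 : IsIntegral A x := hx.tower_top
  obtain ⟨y, rfl⟩ := IsIntegrallyClosedIn.algebraMap_eq_of_integral h1
  exact y.2

theorem sum_intCast_mul_pow_mem (V : ValuationSubring Kb) {y : Kb} (hy : y ∈ V) (s : Finset ℕ)
    (c : ℕ → ℤ) (e : ℕ → ℕ) : ∑ i ∈ s, (c i : Kb) * y ^ e i ∈ V :=
  V.toSubring.sum_mem fun i _ => V.mul_mem _ _ (intCast_mem V (c i)) (V.pow_mem hy _)

/-- The key identity: if `∑ i < r, c i * a ^ i + a ^ r * α = 0` with integers `c i`, then `α` and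
`a * α` are algebraic integers as soon as `α` is an integer polynomial in `a`. -/
theorem isIntegral_of_split (a α : Kb) (r m : ℕ) (c d : ℕ → ℤ)
    (hα : α = ∑ j ∈ Finset.range m, (d j : Kb) * a ^ j)
    (h : ∑ i ∈ Finset.range r, (c i : Kb) * a ^ i + a ^ r * α = 0) :
    IsIntegral ℤ α ∧ IsIntegral ℤ (a * α) := by
  have key : ∀ V : ValuationSubring Kb, α ∈ V ∧ a * α ∈ V := by
    intro V
    by_cases ha : a ∈ V
    · have h1 : α ∈ V := by
        rw [hα]
        exact sum_intCast_mul_pow_mem V ha _ _ _
      exact ⟨h1, V.mul_mem _ _ ha h1⟩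
    · have ha0 : a ≠ 0 := by
        rintro rfl
        exact ha V.zero_mem
      have hinv : a⁻¹ ∈ V := (V.mem_or_inv_mem a).resolve_left ha
      have h1 : α = -∑ i ∈ Finset.range r, (c i : Kb) * a⁻¹ ^ (r - i) := by
        have h2 : a ^ r * α = -∑ i ∈ Finset.range r, (c i : Kb) * a ^ i := by
          linear_combination h
        have h3 : α = (a ^ r)⁻¹ * (a ^ r * α) := by
          field_simp
        rw [h3, h2, mul_neg, Finset.mul_sum]
        congr 1
        refine Finset.sum_congr rfl fun i hi => ?_
        have hi' : i ≤ r := (Finset.mem_range.mp hi).le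
        have h4 : a ^ r = a ^ (r - i) * a ^ i := by rw [← pow_add, Nat.sub_add_cancel hi']
        rw [h4, inv_pow]
        field_simp
      have h5 : a * α = -∑ i ∈ Finset.range r, (c i : Kb) * a⁻¹ ^ (r - i - 1) := by
        rw [h1, mul_neg, Finset.mul_sum]
        congr 1
        refine Finset.sum_congr rfl fun i hi => ?_
        have hir := Finset.mem_range.mp hi
        obtain ⟨k, hk⟩ : ∃ k, r - i = k + 1 := ⟨r - i - 1, by omega⟩
        have hk' : r - i - 1 = k := by omega
        rw [hk', hk, pow_succ]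
        field_simp
      refine ⟨?_, ?_⟩
      · rw [h1]
        exact V.neg_mem _ (sum_intCast_mul_pow_mem V hinv _ _ _)
      · rw [h5]
        exact V.neg_mem _ (sum_intCast_mul_pow_mem V hinv _ _ _)
  exact ⟨isIntegral_of_forall_mem_valuationSubring _ fun V => (key V).1,
    isIntegral_of_forall_mem_valuationSubring _ fun V => (key V).2⟩

theorem isAlgebraic_int_Kb (a : Kb) : IsAlgebraic ℤ a := by
  have := isAlgClosure_Kb
  have h : IsAlgebraic ℚ a := Algebra.IsAlgebraic.isAlgebraic a
  exact (IsFractionRing.isAlgebraic_iff ℤ ℚ Kb).mpr h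

/-- A primitive integer polynomial has a coefficient which is a unit of `A`. -/
theorem exists_coeff_valuation_eq_one (A : ValuationSubring Kb) (f : ℤ[X]) (hf : f.IsPrimitive) :
    ∃ i, A.valuation ((f.coeff i : ℤ) : Kb) = 1 := by
  by_contra hcon
  push Not at hcon
  have hlt : ∀ i, A.valuation ((f.coeff i : ℤ) : Kb) < 1 := fun i =>
    lt_of_le_of_ne (S05.inertia_valuation_intCast_le_one A _) (hcon i)
  let I : Ideal ℤ :=
    { carrier := {n | A.valuation ((n : ℤ) : Kb) < 1}
      add_mem' := by
        intro x y hx hy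
        simp only [Set.mem_ofPred_eq, Int.cast_add] at hx hy ⊢
        exact lt_of_le_of_lt (Valuation.map_add _ _ _) (max_lt hx hy)
      zero_mem' := by simp
      smul_mem' := by
        intro c x hx
        simp only [Set.mem_ofPred_eq, smul_eq_mul, Int.cast_mul, map_mul] at hx ⊢
        calc A.valuation (c : Kb) * A.valuation (x : Kb)
            ≤ 1 * A.valuation (x : Kb) :=
              mul_le_mul_left (S05.inertia_valuation_intCast_le_one A c) _
          _ = A.valuation (x : Kb) := one_mul _
          _ < 1 := hx }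
  obtain ⟨d, hd⟩ := IsPrincipalIdealRing.principal I
  have hdI : I = Ideal.span {d} := hd
  have hdvd : ∀ i, d ∣ f.coeff i := fun i => by
    have h1 : f.coeff i ∈ I := hlt i
    rw [hdI] at h1
    exact Ideal.mem_span_singleton.mp h1
  have hunit : IsUnit d := hf d ((C_dvd_iff_dvd_coeff d f).mpr hdvd)
  have h1 : (1 : ℤ) ∈ I := by
    rw [hdI]
    exact Ideal.mem_span_singleton.mpr hunit.dvd
  have h2 : A.valuation (((1 : ℤ) : ℤ) : Kb) < 1 := h1
  simp at h2

/-- Every element of a valuation subring of `AlgebraicClosure ℚ` is a quotient of two algebraic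
integers, the denominator being a unit of the valuation subring. -/
theorem exists_integral_div (A : ValuationSubring Kb) (a : Kb) (ha : a ∈ A) :
    ∃ b s : Kb, IsIntegral ℤ b ∧ IsIntegral ℤ s ∧ A.valuation s = 1 ∧ a * s = b := by
  have hav : A.valuation a ≤ 1 := (ValuationSubring.valuation_le_one_iff A a).mpr ha
  obtain ⟨p, hp0, hpa⟩ := isAlgebraic_int_Kb a
  set f := p.primPart with hf
  have hfa : aeval a f = 0 := aeval_primPart_eq_zero hp0 hpa
  have hfprim : f.IsPrimitive := isPrimitive_primPart p
  obtain ⟨i₀, hi₀⟩ := exists_coeff_valuation_eq_one A f hfprim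
  set n := f.natDegree with hn
  have hi₀n : i₀ ≤ n := by
    by_contra hlt
    rw [coeff_eq_zero_of_natDegree_lt (by omega)] at hi₀
    simp at hi₀
  set r := Nat.findGreatest (fun i => A.valuation ((f.coeff i : ℤ) : Kb) = 1) n with hrdef
  have hr : A.valuation ((f.coeff r : ℤ) : Kb) = 1 :=
    Nat.findGreatest_spec (P := fun i => A.valuation ((f.coeff i : ℤ) : Kb) = 1) hi₀n hi₀
  have hrn : r ≤ n := Nat.findGreatest_le n
  have hgt : ∀ i, r < i → A.valuation ((f.coeff i : ℤ) : Kb) < 1 := by
    intro i hi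
    by_cases hin : i ≤ n
    · exact lt_of_le_of_ne (S05.inertia_valuation_intCast_le_one A _)
        (Nat.findGreatest_is_greatest (P := fun i => A.valuation ((f.coeff i : ℤ) : Kb) = 1)
          hi hin)
    · rw [coeff_eq_zero_of_natDegree_lt (by omega)]
      simp
  obtain ⟨k, hk⟩ : ∃ k, n + 1 - r = k + 1 := ⟨n - r, by omega⟩
  set α := ∑ j ∈ Finset.range (k + 1), ((f.coeff (r + j) : ℤ) : Kb) * a ^ j with hα
  have hsplit : ∑ i ∈ Finset.range r, ((f.coeff i : ℤ) : Kb) * a ^ i + a ^ r * α = 0 := by
    rw [← hfa, aeval_eq_sum_range' (n := r + (k + 1)) (by omega) a, Finset.sum_range_add]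
    congr 1
    · refine Finset.sum_congr rfl fun i _ => ?_
      rw [zsmul_eq_mul]
    · rw [hα, Finset.mul_sum]
      refine Finset.sum_congr rfl fun j _ => ?_
      rw [zsmul_eq_mul, pow_add]
      ring
  obtain ⟨hαint, haαint⟩ := isIntegral_of_split a α r (k + 1) (fun i => f.coeff i)
    (fun j => f.coeff (r + j)) rfl hsplit
  refine ⟨a * α, α, haαint, hαint, ?_, rfl⟩
  rw [hα, Finset.sum_range_succ']
  have hsmall : A.valuation (∑ j ∈ Finset.range k,
      ((f.coeff (r + (j + 1)) : ℤ) : Kb) * a ^ (j + 1)) < 1 := by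
    refine Valuation.map_sum_lt _ one_ne_zero fun j _ => ?_
    rw [map_mul, map_pow]
    calc A.valuation ((f.coeff (r + (j + 1)) : ℤ) : Kb) * A.valuation a ^ (j + 1)
        ≤ A.valuation ((f.coeff (r + (j + 1)) : ℤ) : Kb) * 1 :=
          mul_le_mul_right (pow_le_one₀ zero_le hav) _
      _ = A.valuation ((f.coeff (r + (j + 1)) : ℤ) : Kb) := mul_one _
      _ < 1 := hgt _ (by omega)
  have hmain : A.valuation (((f.coeff (r + 0) : ℤ) : Kb) * a ^ 0) = 1 := by
    simpa using hr
  rw [Valuation.map_add_eq_of_lt_right _ (by rw [hmain]; exact hsmall), hmain]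

/-- If `σ b ≡ b mod 𝔪_A` for every algebraic integer `b`, then `σ` lies in the inertia subgroup
of `A`. -/
theorem mem_inertiaSubgroupIn_of_integral (A : ValuationSubring Kb) (σ : Kb ≃ₐ[ℚ] Kb)
    (h : ∀ b : Kb, IsIntegral ℤ b → A.valuation (σ b - b) < 1) :
    σ ∈ A.inertiaSubgroupIn ℚ := by
  have hint : ∀ (τ : Kb ≃ₐ[ℚ] Kb) (b : Kb), IsIntegral ℤ b → IsIntegral ℤ (τ b) := fun τ b hb =>
    map_isIntegral_int τ hb
  -- the same property for `σ⁻¹`
  have h' : ∀ b : Kb, IsIntegral ℤ b → A.valuation (σ.symm b - b) < 1 := by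
    intro b hb
    have hc : IsIntegral ℤ (σ.symm b - b) := (hint σ.symm b hb).sub hb
    have h1 := h _ hc
    have h2 : σ (σ.symm b - b) = -(σ b - b) := by
      rw [map_sub, AlgEquiv.apply_symm_apply]
      ring
    have h3 : A.valuation (σ (σ.symm b - b)) < 1 := by
      rw [h2, Valuation.map_neg]
      exact h b hb
    have h4 : σ.symm b - b = σ (σ.symm b - b) - (σ (σ.symm b - b) - (σ.symm b - b)) := by ring
    rw [h4]
    exact lt_of_le_of_lt (Valuation.map_sub _ _ _) (max_lt h3 h1)
  -- stability of `A` under an automorphism with the congruence property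
  have key : ∀ τ : Kb ≃ₐ[ℚ] Kb, (∀ b : Kb, IsIntegral ℤ b → A.valuation (τ b - b) < 1) →
      ∀ x ∈ A, τ x ∈ A ∧ A.valuation (τ x - x) < 1 := by
    intro τ hτ x hx
    obtain ⟨b, s, hb, hs, hs1, hxs⟩ := exists_integral_div A x hx
    have hs0 : s ≠ 0 := by
      rintro rfl
      simp at hs1
    have hτs1 : A.valuation (τ s) = 1 := by
      have h1 : τ s = (τ s - s) + s := by ring
      rw [h1, Valuation.map_add_eq_of_lt_right _ (by rw [hs1]; exact hτ s hs), hs1]
    have hτs0 : τ s ≠ 0 := by
      intro h0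
      rw [h0] at hτs1
      simp at hτs1
    have hx' : x = b / s := by
      rw [← hxs]
      field_simp
    have hτx : τ x = τ b / τ s := by rw [hx', map_div₀]
    have hbv : A.valuation b ≤ 1 := valuation_le_one_of_isIntegral A hb
    have hτbv : A.valuation (τ b) ≤ 1 := valuation_le_one_of_isIntegral A (hint τ b hb)
    refine ⟨?_, ?_⟩
    · rw [← ValuationSubring.valuation_le_one_iff, hτx, map_div₀, hτs1, div_one]
      exact hτbv
    · have h5 : τ x - x = (s * (τ b - b) - b * (τ s - s)) / (s * τ s) := by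
        rw [hτx, hx']
        field_simp
        ring
      rw [h5, map_div₀, map_mul, hs1, hτs1, mul_one, div_one]
      refine lt_of_le_of_lt (Valuation.map_sub _ _ _) (max_lt ?_ ?_)
      · rw [map_mul, hs1, one_mul]
        exact hτ b hb
      · rw [map_mul]
        calc A.valuation b * A.valuation (τ s - s) ≤ 1 * A.valuation (τ s - s) :=
              mul_le_mul_left hbv _
          _ = A.valuation (τ s - s) := one_mul _
          _ < 1 := hτ s hs
  refine mem_inertiaSubgroupIn_of A σ (fun x hx => (key σ h x hx).1) (fun x hx => ?_)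
    (fun x hx => (key σ h x hx).2)
  have := (key σ.symm h' (σ x) hx).1
  simpa using this

end Fermat.Agent.S13
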