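import Fermat.Prelude.Def_FLTPrelim_Ramification
import Fermat.Agent.S05.Assembly

set_option autoImplicit false

namespace Fermat.Agent.S13

open WeierstrassCurve WeierstrassCurve.Affine WeierstrassCurve.Affine.Point

local notation "Kb" => AlgebraicClosure ℚ
local notation "GQ" => (AlgebraicClosure ℚ ≃ₐ[ℚ] AlgebraicClosure ℚ)

/-- Converse of `S05.transport_nonsingular`: an admissible change of variables reflects
nonsingular points. -/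
theorem transport_nonsingular_rev {F : Type*} [Field F] (W₁ W₂ : WeierstrassCurve.Affine F)
    (u r s t : F) (hu : u ≠ 0)
    (h1 : u * W₁.a₁ = W₂.a₁ + 2 * s)
    (h2 : u ^ 2 * W₁.a₂ = W₂.a₂ - s * W₂.a₁ + 3 * r - s ^ 2)
    (h3 : u ^ 3 * W₁.a₃ = W₂.a₃ + r * W₂.a₁ + 2 * t)
    (h4 : u ^ 4 * W₁.a₄ = W₂.a₄ - s * W₂.a₃ + 2 * r * W₂.a₂ - (t + r * s) * W₂.a₁ + 3 * r ^ 2
      - 2 * s * t)
    (h6 : u ^ 6 * W₁.a₆ = W₂.a₆ + r * W₂.a₄ + r ^ 2 * W₂.a₂ + r ^ 3 - t * W₂.a₃ - t ^ 2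
      - r * t * W₂.a₁) {x y : F}
    (h : W₂.Nonsingular (u ^ 2 * x + r) (u ^ 3 * y + u ^ 2 * s * x + t)) :
    W₁.Nonsingular x y := by
  rw [Affine.nonsingular_iff'] at h ⊢
  obtain ⟨he, hns⟩ := h
  refine ⟨?_, ?_⟩
  · rw [Affine.equation_iff'] at he ⊢
    rw [S05.transport_poly W₁ W₂ u r s t h1 h2 h3 h4 h6] at he
    rcases mul_eq_zero.1 he with h' | h'
    · exact absurd h' (pow_ne_zero 6 hu)
    · exact h'
  · rw [S05.transport_polyX W₁ W₂ u r s t h1 h2 h3 h4, S05.transport_polyY W₁ W₂ u r s t h1 h3]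
      at hns
    by_contra hcon
    rw [not_or, not_not, not_not] at hcon
    rw [hcon.1, hcon.2, mul_zero, mul_zero, sub_zero] at hns
    exact hns.elim (fun h => h rfl) (fun h => h (mul_zero _))

/-- [MODEL] The change of variables `(x, y) ↦ (4x + r, 8y + 4x)` from the (Frey-type) curve
`y² + xy = x³ + E.a₂ x² + E.a₄ x` to the special model `Y² = X³ + a₂X² + a₄X`, as a
Galois-equivariant isomorphism on `ℚ̄`-points. -/
theorem exists_model_equiv (E : WeierstrassCurve ℚ) (a₂ a₄ r : ℤ)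
    (hE1 : E.a₁ = 1) (hE3 : E.a₃ = 0) (hE6 : E.a₆ = 0)
    (hE2 : 4 * E.a₂ = (a₂ : ℚ) + 3 * r - 1)
    (hE4 : 16 * E.a₄ = (a₄ : ℚ) + 2 * r * a₂ + 3 * r ^ 2)
    (hr : (r : ℚ) * a₄ + r ^ 2 * a₂ + r ^ 3 = 0) :
    ∃ ψ : (E⁄Kb).Point ≃+ ((S05.modelCurve a₂ a₄)⁄Kb).Point,
      (∀ (σ : GQ) (R : (E⁄Kb).Point), ψ (σ • R) = σ • ψ R) ∧
      (∀ (x y : Kb) (h : (E⁄Kb).Nonsingular x y),
        ∃ h' : ((S05.modelCurve a₂ a₄)⁄Kb).Nonsingular (4 * x + (r : Kb)) (8 * y + 4 * x),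
          ψ (Point.some x y h) = Point.some (4 * x + (r : Kb)) (8 * y + 4 * x) h') := by
  have c1 : (E⁄Kb).a₁ = 1 := by simp [hE1]
  have c3 : (E⁄Kb).a₃ = 0 := by simp [hE3]
  have c6 : (E⁄Kb).a₆ = 0 := by simp [hE6]
  have d1 : ((S05.modelCurve a₂ a₄)⁄Kb).a₁ = 0 := by simp [S05.modelCurve]
  have d2 : ((S05.modelCurve a₂ a₄)⁄Kb).a₂ = (a₂ : Kb) := by simp [S05.modelCurve]
  have d3 : ((S05.modelCurve a₂ a₄)⁄Kb).a₃ = 0 := by simp [S05.modelCurve]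
  have d4 : ((S05.modelCurve a₂ a₄)⁄Kb).a₄ = (a₄ : Kb) := by simp [S05.modelCurve]
  have d6 : ((S05.modelCurve a₂ a₄)⁄Kb).a₆ = 0 := by simp [S05.modelCurve]
  have c2 : 4 * (E⁄Kb).a₂ = (a₂ : Kb) + 3 * r - 1 := by
    have := congrArg (algebraMap ℚ Kb) hE2
    simpa using this
  have c4 : 16 * (E⁄Kb).a₄ = (a₄ : Kb) + 2 * r * a₂ + 3 * r ^ 2 := by
    have := congrArg (algebraMap ℚ Kb) hE4
    simpa using this
  have cr : (r : Kb) * a₄ + r ^ 2 * a₂ + r ^ 3 = 0 := by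
    have := congrArg (algebraMap ℚ Kb) hr
    simpa using this
  have h1 : (2 : Kb) * (E⁄Kb).a₁ = ((S05.modelCurve a₂ a₄)⁄Kb).a₁ + 2 * 1 := by
    rw [c1, d1]; ring
  have h2' : (2 : Kb) ^ 2 * (E⁄Kb).a₂ = ((S05.modelCurve a₂ a₄)⁄Kb).a₂
      - 1 * ((S05.modelCurve a₂ a₄)⁄Kb).a₁ + 3 * (r : Kb) - 1 ^ 2 := by
    rw [d1, d2]; linear_combination c2
  have h3 : (2 : Kb) ^ 3 * (E⁄Kb).a₃ = ((S05.modelCurve a₂ a₄)⁄Kb).a₃
      + (r : Kb) * ((S05.modelCurve a₂ a₄)⁄Kb).a₁ + 2 * 0 := by rw [c3, d1, d3]; ring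
  have h4 : (2 : Kb) ^ 4 * (E⁄Kb).a₄ = ((S05.modelCurve a₂ a₄)⁄Kb).a₄
      - 1 * ((S05.modelCurve a₂ a₄)⁄Kb).a₃ + 2 * (r : Kb) * ((S05.modelCurve a₂ a₄)⁄Kb).a₂
      - (0 + (r : Kb) * 1) * ((S05.modelCurve a₂ a₄)⁄Kb).a₁ + 3 * (r : Kb) ^ 2 - 2 * 1 * 0 := by
    rw [d1, d2, d3, d4]; linear_combination c4
  have h6 : (2 : Kb) ^ 6 * (E⁄Kb).a₆ = ((S05.modelCurve a₂ a₄)⁄Kb).a₆
      + (r : Kb) * ((S05.modelCurve a₂ a₄)⁄Kb).a₄ + (r : Kb) ^ 2 * ((S05.modelCurve a₂ a₄)⁄Kb).a₂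
      + (r : Kb) ^ 3 - 0 * ((S05.modelCurve a₂ a₄)⁄Kb).a₃ - 0 ^ 2
      - (r : Kb) * 0 * ((S05.modelCurve a₂ a₄)⁄Kb).a₁ := by
    rw [c6, d1, d2, d3, d4, d6]; linear_combination -cr
  obtain ⟨ψ, hψinj, hψ⟩ := S05.exists_pointHom_of_variableChange (E⁄Kb)
    ((S05.modelCurve a₂ a₄)⁄Kb) 2 (r : Kb) 1 0 two_ne_zero h1 h2' h3 h4 h6
  -- the formula in simplified form
  have hψ' : ∀ (x y : Kb) (h : (E⁄Kb).Nonsingular x y),
      ∃ h' : ((S05.modelCurve a₂ a₄)⁄Kb).Nonsingular (4 * x + (r : Kb)) (8 * y + 4 * x),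
        ψ (Point.some x y h) = Point.some (4 * x + (r : Kb)) (8 * y + 4 * x) h' := by
    intro x y h
    obtain ⟨h', e⟩ := hψ x y h
    obtain ⟨h'', e'⟩ := S05.some_congr (W := (S05.modelCurve a₂ a₄)⁄Kb)
      (x := 2 ^ 2 * x + (r : Kb)) (x' := 4 * x + (r : Kb))
      (y := 2 ^ 3 * y + 2 ^ 2 * 1 * x + 0) (y' := 8 * y + 4 * x) (by ring) (by ring) h'
    exact ⟨h'', e.trans e'⟩
  have hsurj : Function.Surjective ψ := by
    rintro (_ | ⟨X, Y, hQ⟩)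
    · exact ⟨0, _root_.map_zero ψ⟩
    · have hX : (2 : Kb) ^ 2 * ((X - (r : Kb)) / 4) + (r : Kb) = X := by ring
      have hY : (2 : Kb) ^ 3 * ((Y - (X - (r : Kb))) / 8) + 2 ^ 2 * 1 * ((X - (r : Kb)) / 4) + 0
          = Y := by ring
      have hQ' : ((S05.modelCurve a₂ a₄)⁄Kb).Nonsingular
          ((2 : Kb) ^ 2 * ((X - (r : Kb)) / 4) + (r : Kb))
          ((2 : Kb) ^ 3 * ((Y - (X - (r : Kb))) / 8) + 2 ^ 2 * 1 * ((X - (r : Kb)) / 4) + 0) := by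
        rw [hX, hY]; exact hQ
      have hP := transport_nonsingular_rev (E⁄Kb) ((S05.modelCurve a₂ a₄)⁄Kb) 2 (r : Kb) 1 0
        two_ne_zero h1 h2' h3 h4 h6 hQ'
      refine ⟨Point.some _ _ hP, ?_⟩
      obtain ⟨h', e⟩ := hψ _ _ hP
      rw [e]
      obtain ⟨h'', e'⟩ := S05.some_congr (W := (S05.modelCurve a₂ a₄)⁄Kb) hX hY h'
      rw [e']
  refine ⟨AddEquiv.ofBijective ψ ⟨hψinj, hsurj⟩, ?_, hψ'⟩
  intro σ
  have s2 : σ (2 : Kb) = 2 := map_ofNat σ 2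
  have sr : σ (r : Kb) = r := map_intCast σ r
  rintro (_ | ⟨x, y, h⟩)
  · have e0 : σ • (0 : (E⁄Kb).Point) = 0 := rfl
    have e0' : σ • (0 : ((S05.modelCurve a₂ a₄)⁄Kb).Point) = 0 := rfl
    change ψ (σ • (0 : (E⁄Kb).Point)) = σ • ψ 0
    rw [e0, _root_.map_zero, e0']
  · change ψ (σ • (Point.some x y h : (E⁄Kb).Point)) = σ • ψ (Point.some x y h)
    obtain ⟨ha, e⟩ := hψ' x y h
    have e1 : σ • (Point.some x y h : (E⁄Kb).Point) = Point.some (σ x) (σ y)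
        ((Affine.baseChange_nonsingular E σ.toAlgHom.injective ..).mpr h) := rfl
    obtain ⟨hb, e2⟩ := hψ' (σ x) (σ y)
      ((Affine.baseChange_nonsingular E σ.toAlgHom.injective ..).mpr h)
    have e3 : σ • (Point.some (4 * x + (r : Kb)) (8 * y + 4 * x) ha :
          ((S05.modelCurve a₂ a₄)⁄Kb).Point)
        = Point.some (σ (4 * x + (r : Kb))) (σ (8 * y + 4 * x))
          ((Affine.baseChange_nonsingular (S05.modelCurve a₂ a₄) σ.toAlgHom.injective ..).mpr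
            ha) := rfl
    rw [e1, e2, e, e3]
    have s4 : σ (4 : Kb) = 4 := map_ofNat σ 4
    have s8 : σ (8 : Kb) = 8 := map_ofNat σ 8
    obtain ⟨hd, e4⟩ := S05.some_congr (W := (S05.modelCurve a₂ a₄)⁄Kb)
      (x := 4 * σ x + (r : Kb)) (x' := σ (4 * x + (r : Kb)))
      (y := 8 * σ y + 4 * σ x) (y' := σ (8 * y + 4 * x))
      (by rw [map_add, map_mul, s4, sr])
      (by rw [map_add, map_mul, map_mul, s8, s4]) hb
    exact e4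

end Fermat.Agent.S13
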