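import Fermat.Agent.S13.PadicFrey

set_option autoImplicit false

namespace Fermat.Agent.S13

open WeierstrassCurve WeierstrassCurve.Affine WeierstrassCurve.Affine.Point Fermat.Agent.S05

local notation "Kb" => AlgebraicClosure ℚ

/-- Linear algebra over `𝔽_p`: in a space with at most `p²` elements a proper subspace `M` is
either disjoint from, or contained in, any other subspace. -/
theorem submodule_inf_eq_bot_or_le {p : ℕ} [Fact p.Prime] {V : Type*} [AddCommGroup V]
    [Module (ZMod p) V] (hfin : Finite V) (hcard : Nat.card V ≤ p ^ 2)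
    (M N0 : Submodule (ZMod p) V) (hM : M ≠ ⊤) : M ⊓ N0 = ⊥ ∨ M ≤ N0 := by
  have : Module.Finite (ZMod p) V := Module.Finite.of_finite
  have h1 : Nat.card V = p ^ Module.finrank (ZMod p) V := by
    rw [Module.natCard_eq_pow_finrank (K := ZMod p)]; simp
  have h2 : Module.finrank (ZMod p) V ≤ 2 := by
    rw [h1] at hcard
    exact (Nat.pow_le_pow_iff_right (Fact.out : p.Prime).one_lt).1 hcard
  have h3 : Module.finrank (ZMod p) M ≤ 1 := by
    have := Submodule.finrank_lt hM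
    omega
  by_cases h : M ⊓ N0 = ⊥
  · exact Or.inl h
  · right
    have h4 : Module.finrank (ZMod p) ↥(M ⊓ N0) ≠ 0 := fun h0 =>
      h (Submodule.finrank_eq_zero.1 h0)
    have h5 : M ⊓ N0 = M := Submodule.eq_of_le_of_finrank_le inf_le_left (by omega)
    rw [← h5]
    exact inf_le_right

/-- The dichotomy at `p`: if all `σ ∈ S` move the `p`-torsion into a proper subspace `M` and `N0`
is a Galois-stable subspace of the (at most `p²`-element) `p`-torsion, then either `S` fixes `N0`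
pointwise or `S` acts trivially on the quotient by `N0`. -/
theorem padic_dichotomy (E : WeierstrassCurve ℚ) {p : ℕ} [Fact p.Prime]
    (hfin : Finite (Submodule.torsionBy ℤ (E⁄Kb).Point p))
    (hcard : Nat.card (Submodule.torsionBy ℤ (E⁄Kb).Point p) ≤ p ^ 2)
    (M N0 : Submodule (ZMod p) (Submodule.torsionBy ℤ (E⁄Kb).Point p)) (hM : M ≠ ⊤)
    (hN0 : IsGaloisStable ℚ N0) (S : Set (Kb ≃ₐ[ℚ] Kb))
    (hS : ∀ σ ∈ S, ∀ x : Submodule.torsionBy ℤ (E⁄Kb).Point p, σ • x - x ∈ M) :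
    (∀ σ ∈ S, ∀ x ∈ N0, σ • x = x) ∨
      (∀ σ ∈ S, ∀ x : Submodule.torsionBy ℤ (E⁄Kb).Point p, σ • x - x ∈ N0) := by
  rcases submodule_inf_eq_bot_or_le hfin hcard M N0 hM with h | h
  · left
    intro σ hσ x hx
    have h1 : σ • x - x ∈ M ⊓ N0 := ⟨hS σ hσ x, N0.sub_mem (hN0 σ x hx) hx⟩
    rw [h, Submodule.mem_bot] at h1
    exact sub_eq_zero.1 h1
  · right
    intro σ hσ x
    exact h (hS σ hσ x)

/-- The `p`-adic step for the Frey curve: for a valuation subring `A` of `ℚ̄` over `p`, the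
`p`-torsion points in the kernel of reduction form a subspace `M` containing `(σ - 1) E[p]` for
every `σ` in the inertia group of `A`. -/
theorem frey_padic (P : FreyPackage) (A : ValuationSubring Kb) (hA : A.LiesOverPrime P.p) :
    ∃ M : Submodule (ZMod P.p) (Submodule.torsionBy ℤ (P.freyCurve⁄Kb).Point P.p),
      (∀ x, x ∈ M ↔ InE1 A.valuation (x : (P.freyCurve⁄Kb).Point)) ∧
      ∀ σ ∈ A.inertiaSubgroupIn ℚ,
        ∀ x : Submodule.torsionBy ℤ (P.freyCurve⁄Kb).Point P.p, σ • x - x ∈ M := by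
  obtain ⟨a₂, a₄, r, hE2, hE4, hr, hred⟩ := frey_model P P.pp A hA
  have hp2 : P.p ≠ 2 := by have := P.hp5; omega
  have h2 : A.valuation (2 : Kb) = 1 := by
    have := valuation_intCast_eq_one A P.pp hA 2 (by
      intro h
      have h' : P.p ∣ 2 := by exact_mod_cast h
      have := Nat.le_of_dvd (by norm_num) h'
      have := P.hp5
      omega)
    simpa using this
  obtain ⟨ψ, comm, hψ⟩ := exists_model_equiv P.freyCurve a₂ a₄ r rfl rfl rfl hE2 hE4 hr
  have d1 : ((modelCurve a₂ a₄)⁄Kb).a₁ = 0 := by simp [modelCurve]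
  have d2 : ((modelCurve a₂ a₄)⁄Kb).a₂ = (a₂ : Kb) := by simp [modelCurve]
  have d3 : ((modelCurve a₂ a₄)⁄Kb).a₃ = 0 := by simp [modelCurve]
  have d4 : ((modelCurve a₂ a₄)⁄Kb).a₄ = (a₄ : Kb) := by simp [modelCurve]
  have d6 : ((modelCurve a₂ a₄)⁄Kb).a₆ = 0 := by simp [modelCurve]
  have hW : Special ((modelCurve a₂ a₄)⁄Kb) := ⟨d1, d3, d6⟩
  have ha : A.valuation ((modelCurve a₂ a₄)⁄Kb).a₂ ≤ 1 := by
    rw [d2]; exact inertia_valuation_intCast_le_one A a₂
  have hb : A.valuation ((modelCurve a₂ a₄)⁄Kb).a₄ ≤ 1 := by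
    rw [d4]; exact inertia_valuation_intCast_le_one A a₄
  have hiff := inE1_modelHom_iff P.freyCurve A h2 a₂ a₄ r ψ hψ
  let H : AddSubgroup (Submodule.torsionBy ℤ (P.freyCurve⁄Kb).Point P.p) :=
    { carrier := {x | InE1 A.valuation (x : (P.freyCurve⁄Kb).Point)}
      zero_mem' := trivial
      add_mem' := by
        intro x y hx hy
        change InE1 A.valuation ((x : (P.freyCurve⁄Kb).Point) + (y : (P.freyCurve⁄Kb).Point))
        rw [← hiff, map_add]
        exact inE1_add A.valuation hW ha hb ((hiff _).2 hx) ((hiff _).2 hy)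
      neg_mem' := by
        intro x hx
        change InE1 A.valuation (-(x : (P.freyCurve⁄Kb).Point))
        exact inE1_neg A.valuation hx }
  refine ⟨AddSubgroup.toZModSubmodule P.p H, fun x => ?_, fun σ hσ x => ?_⟩
  · rw [AddSubgroup.mem_toZModSubmodule]
    exact Iff.rfl
  · rw [AddSubgroup.mem_toZModSubmodule]
    change InE1 A.valuation (σ • (x : (P.freyCurve⁄Kb).Point) - (x : (P.freyCurve⁄Kb).Point))
    have hx := (Submodule.mem_torsionBy_iff _ _).1 x.2
    have hx' : P.p • (x : (P.freyCurve⁄Kb).Point) = 0 := by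
      rw [← hx, natCast_zsmul]
    exact frey_inertia_sub_inE1 P.freyCurve A σ hσ P.pp hp2 h2 a₂ a₄ r rfl rfl rfl hE2 hE4 hr hred
      x.1 hx'

/-- The `p`-adic dichotomy for the Frey curve, given `NEED(p)` (some `p`-torsion point is not in
the kernel of reduction) and `|E[p]| ≤ p²`: the inertia group of `A` either fixes the stable
subspace `N0` pointwise, or acts trivially on the quotient by `N0`. -/
theorem frey_padic_dichotomy (P : FreyPackage) (A : ValuationSubring Kb)
    (hA : A.LiesOverPrime P.p)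
    (hfin : Finite (Submodule.torsionBy ℤ (P.freyCurve⁄Kb).Point P.p))
    (hcard : Nat.card (Submodule.torsionBy ℤ (P.freyCurve⁄Kb).Point P.p) ≤ P.p ^ 2)
    (N0 : Submodule (ZMod P.p) (Submodule.torsionBy ℤ (P.freyCurve⁄Kb).Point P.p))
    (hN0 : IsGaloisStable ℚ N0)
    (hneed : ∃ x : Submodule.torsionBy ℤ (P.freyCurve⁄Kb).Point P.p,
      ¬ InE1 A.valuation (x : (P.freyCurve⁄Kb).Point)) :
    (∀ σ ∈ A.inertiaSubgroupIn ℚ, ∀ x ∈ N0, σ • x = x) ∨
      (∀ σ ∈ A.inertiaSubgroupIn ℚ,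
        ∀ x : Submodule.torsionBy ℤ (P.freyCurve⁄Kb).Point P.p, σ • x - x ∈ N0) := by
  have : Fact P.p.Prime := ⟨P.pp⟩
  obtain ⟨M, hM, hσ⟩ := frey_padic P A hA
  obtain ⟨x₀, hx₀⟩ := hneed
  have hMtop : M ≠ ⊤ := by
    intro h
    apply hx₀
    rw [← hM, h]
    exact Submodule.mem_top
  exact padic_dichotomy P.freyCurve hfin hcard M N0 hMtop hN0
    (A.inertiaSubgroupIn ℚ : Set (Kb ≃ₐ[ℚ] Kb)) hσ

end Fermat.Agent.S13
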