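import Fermat.Prelude.Def_FLTPrelim_Ramification
import Fermat.Agent.S05.Assembly
import Fermat.Agent.S05.FreyModel
import Fermat.Agent.S13.PadicCore
import Fermat.Agent.S13.Model

set_option autoImplicit false

namespace Fermat.Agent.S13

open WeierstrassCurve WeierstrassCurve.Affine Fermat.Agent.S05

local notation "Kb" => AlgebraicClosure ℚ

/-- The kernel of reduction is the same set in both models (`X = 4x + r`, `v 2 = 1`). -/
theorem inE1_modelHom_iff (E : WeierstrassCurve ℚ) (A : ValuationSubring Kb)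
    (h2 : A.valuation (2 : Kb) = 1) (a₂ a₄ r : ℤ)
    (ψ : (E⁄Kb).Point ≃+ ((modelCurve a₂ a₄)⁄Kb).Point)
    (hψ : ∀ (x y : Kb) (h : (E⁄Kb).Nonsingular x y),
        ∃ h' : ((modelCurve a₂ a₄)⁄Kb).Nonsingular (4 * x + (r : Kb)) (8 * y + 4 * x),
          ψ (Point.some x y h) = Point.some (4 * x + (r : Kb)) (8 * y + 4 * x) h')
    (R : (E⁄Kb).Point) : InE1 A.valuation (ψ R) ↔ InE1 A.valuation R := by
  rcases R with _ | ⟨x, y, h⟩
  · have e0 : ψ (Point.zero : (E⁄Kb).Point) = 0 := by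
      rw [← Point.zero_def]; exact map_zero ψ
    rw [e0]
    exact ⟨fun _ => trivial, fun _ => trivial⟩
  · obtain ⟨h', e⟩ := hψ x y h
    rw [e]
    change 1 < A.valuation (4 * x + (r : Kb)) ↔ 1 < A.valuation x
    have h4 : A.valuation (4 : Kb) = 1 := unit_four A.valuation h2
    have hr : A.valuation (r : Kb) ≤ 1 := inertia_valuation_intCast_le_one A r
    constructor
    · intro hX
      by_contra hx
      rw [not_lt] at hx
      have := int_add A.valuation (int_mul A.valuation (le_of_eq h4) hx) hr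
      exact absurd hX (not_lt.2 this)
    · intro hx
      have h4x : A.valuation (4 * x) = A.valuation x := by rw [map_mul, h4, one_mul]
      rw [Valuation.map_add_eq_of_lt_left A.valuation (by rw [h4x]; exact lt_of_le_of_lt hr hx),
        h4x]
      exact hx

/-- `p`-adic step on the Frey-type model: an inertia element moves every `p`-torsion point by an
element of the kernel of reduction.  (Hypotheses exactly as in `S05.unram_of_model`, minus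
`v p = 1`.) -/
theorem frey_inertia_sub_inE1 (E : WeierstrassCurve ℚ) (A : ValuationSubring Kb)
    (σ : Kb ≃ₐ[ℚ] Kb) (hσ : σ ∈ A.inertiaSubgroupIn ℚ)
    {p : ℕ} (hp : p.Prime) (hp2 : p ≠ 2)
    (h2 : A.valuation (2 : Kb) = 1)
    (a₂ a₄ r : ℤ) (hE1 : E.a₁ = 1) (hE3 : E.a₃ = 0) (hE6 : E.a₆ = 0)
    (hE2 : 4 * E.a₂ = (a₂ : ℚ) + 3 * r - 1)
    (hE4 : 16 * E.a₄ = (a₄ : ℚ) + 2 * r * a₂ + 3 * r ^ 2)
    (hr : (r : ℚ) * a₄ + r ^ 2 * a₂ + r ^ 3 = 0)
    (hred : A.valuation ((a₄ : Kb) ^ 2 * ((a₂ : Kb) ^ 2 - 4 * a₄)) = 1 ∨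
        (A.valuation (a₂ : Kb) = 1 ∧ ∃ b₀ u : ℤ, a₄ = u * b₀ ^ p ∧
          A.valuation (u : Kb) = 1 ∧ A.valuation (b₀ : Kb) < 1 ∧ b₀ ≠ 0))
    (Q : (E⁄Kb).Point) (hQ : p • Q = 0) : InE1 A.valuation (σ • Q - Q) := by
  obtain ⟨hσ1, hσ1', hσ2⟩ := inertia_props A σ hσ
  obtain ⟨ψ, comm, hψ⟩ := exists_model_equiv E a₂ a₄ r hE1 hE3 hE6 hE2 hE4 hr
  have d1 : ((modelCurve a₂ a₄)⁄Kb).a₁ = 0 := by simp [modelCurve]
  have d2 : ((modelCurve a₂ a₄)⁄Kb).a₂ = (a₂ : Kb) := by simp [modelCurve]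
  have d3 : ((modelCurve a₂ a₄)⁄Kb).a₃ = 0 := by simp [modelCurve]
  have d4 : ((modelCurve a₂ a₄)⁄Kb).a₄ = (a₄ : Kb) := by simp [modelCurve]
  have d6 : ((modelCurve a₂ a₄)⁄Kb).a₆ = 0 := by simp [modelCurve]
  have hτ : ∀ (x y : Kb) (h : ((modelCurve a₂ a₄)⁄Kb).Nonsingular x y),
      ∃ h' : ((modelCurve a₂ a₄)⁄Kb).Nonsingular ((σ.toAlgHom : Kb →+* Kb) x)
        ((σ.toAlgHom : Kb →+* Kb) y),
        Point.map (W' := modelCurve a₂ a₄) σ.toAlgHom (Point.some x y h)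
          = Point.some ((σ.toAlgHom : Kb →+* Kb) x) ((σ.toAlgHom : Kb →+* Kb) y) h' :=
    fun x y h => ⟨_, Point.map_some (W' := modelCurve a₂ a₄) σ.toAlgHom h⟩
  have hW : Special ((modelCurve a₂ a₄)⁄Kb) := ⟨d1, d3, d6⟩
  have hsq : ∀ w : Kb, ∃ g : Kb, g ^ 2 = w := fun w =>
    IsAlgClosed.exists_pow_nat_eq w (by norm_num)
  have hred' : A.valuation (((modelCurve a₂ a₄)⁄Kb).a₄ ^ 2 * (((modelCurve a₂ a₄)⁄Kb).a₂ ^ 2
        - 4 * ((modelCurve a₂ a₄)⁄Kb).a₄)) = 1 ∨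
      (A.valuation ((modelCurve a₂ a₄)⁄Kb).a₂ = 1 ∧ ∃ b₀ u : Kb,
        ((modelCurve a₂ a₄)⁄Kb).a₄ = u * b₀ ^ p ∧ A.valuation u = 1 ∧
        A.valuation b₀ < 1 ∧ b₀ ≠ 0 ∧ (σ.toAlgHom : Kb →+* Kb) b₀ = b₀) := by
    rw [d2, d4]
    rcases hred with h | ⟨ha, b₀, u, hbu, hu, hb₀, hb₀0⟩
    · exact Or.inl h
    · refine Or.inr ⟨ha, (b₀ : Kb), (u : Kb), ?_, hu, hb₀, ?_, ?_⟩
      · rw [hbu, Int.cast_mul, Int.cast_pow]
      · exact_mod_cast hb₀0
      · exact map_intCast σ b₀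
  have hψQ : p • ψ Q = 0 := by rw [← map_nsmul, hQ, map_zero]
  have key := torsion_tau_sub_inE1 A.valuation (σ.toAlgHom : Kb →+* Kb)
      (Point.map (W' := modelCurve a₂ a₄) σ.toAlgHom) hW
      (by rw [d2]; exact inertia_valuation_intCast_le_one A a₂)
      (by rw [d4]; exact inertia_valuation_intCast_le_one A a₄) h2 hp hp2
      (fun x hx => hσ1' x hx) (fun x hx => hσ1 x hx) (fun x hx => hσ2 x hx) hτ
      (by rw [d2]; exact map_intCast σ a₂) (by rw [d4]; exact map_intCast σ a₄) hsq hred'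
      (ψ Q) hψQ
  have e : Point.map (W' := modelCurve a₂ a₄) σ.toAlgHom (ψ Q) - ψ Q = ψ (σ • Q - Q) := by
    rw [map_sub, comm σ Q]; rfl
  rw [e] at key
  exact (inE1_modelHom_iff E A h2 a₂ a₄ r ψ hψ _).1 key

end Fermat.Agent.S13
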