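import Fermat.Agent.S13.TwoCore7

set_option autoImplicit false
set_option linter.unusedSectionVars false

/-!
# Project S13, 2-adic core: the Chebyshev (d'Alembert) relation on `E₀`

For `P ∈ E₀` put `ν(P) = x(P)⁻¹` (integral, `0` at the origin). Then, with `D = 1 + 4a₂`,
`ν(P+Q) + ν(P-Q) ≡ D ν(P) ν(Q) + 2 ν(P) + 2 ν(Q)` modulo the maximal ideal. Equivalently
`λ = D ν + 2` (the trace `g + g⁻¹` of the toric parameter) satisfies
`λ(P+Q) + λ(P-Q) ≡ λ(P) λ(Q)`.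
Model `Y² + XY = X³ + a₂X² + a₄X`.
-/

namespace Fermat.Agent.S13

open WeierstrassCurve WeierstrassCurve.Affine
open Fermat.Agent.S05 (xc InE1 InE0 int_add int_sub int_neg int_mul int_pow sm_add sm_sub sm_neg
  sm_mul_int int_mul_sm sm_pow unit_add_sm unit_sub_sm unit_mul unit_pow int_natCast sm_of_sq_sm
  ne_zero_of_unit ne_zero_of_pole sm_inv_of_pole sm_of_mul_unit xc_neg)

variable {K : Type*} [Field K] [DecidableEq K] {Γ₀ : Type*} [LinearOrderedCommGroupWithZero Γ₀]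
  (v : Valuation K Γ₀) {W : WeierstrassCurve.Affine K}

/-- Sum formula `(x(P₁+P₂) + x(P₁-P₂)) (x₁-x₂)² = 2(x₁+x₂)(x₁x₂+a₄) + (1+4a₂)x₁x₂`. -/
theorem xc_add_add_xc_sub2 (hW : Special2 W) {x₁ y₁ x₂ y₂ : K} (h₁ : W.Nonsingular x₁ y₁)
    (h₂ : W.Nonsingular x₂ y₂) (hxx : x₁ ≠ x₂) :
    (xc (Point.some x₁ y₁ h₁ + Point.some x₂ y₂ h₂)
        + xc (Point.some x₁ y₁ h₁ - Point.some x₂ y₂ h₂)) * (x₁ - x₂) ^ 2
      = 2 * (x₁ + x₂) * (x₁ * x₂ + W.a₄) + (1 + 4 * W.a₂) * x₁ * x₂ := by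
  have e₁ := eqn_of_nonsingular2 hW h₁
  have e₂ := eqn_of_nonsingular2 hW h₂
  have hne : ¬(x₁ = x₂ ∧ y₁ = -y₂ - x₂) := fun h => hxx h.1
  have hne' : ¬(x₁ = x₂ ∧ y₁ = y₂) := fun h => hxx h.1
  obtain ⟨xp, yp, hp, hadd, -, -, hchp, -⟩ := add_formula2 hW h₁ h₂ hne
  obtain ⟨xm, ym, hm, hsub, -, -, hchm, -⟩ := sub_formula2 hW h₁ h₂ hne'
  rw [hadd, hsub]
  change (xp + xm) * (x₁ - x₂) ^ 2 = _
  rw [hchp hxx, hchm hxx]
  have hd : x₁ - x₂ ≠ 0 := sub_ne_zero.2 hxx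
  field_simp
  linear_combination 2 * e₁ + 2 * e₂

omit [DecidableEq K] in
theorem int_inv_of_one_le {x : K} (hx : 1 ≤ v x) : v x⁻¹ ≤ 1 := by
  rw [map_inv₀]
  exact inv_le_one_of_one_le₀ hx

/-- `ν(P) = x(P)⁻¹` is integral on `E₀`. -/
theorem int_nu {P : W.Point} (hP : InE0 v P) : v (xc P)⁻¹ ≤ 1 := by
  cases P with
  | zero => change v (0 : K)⁻¹ ≤ 1; simp
  | some x y h => exact int_inv_of_one_le v hP

/-- `ν(P)` is small exactly on `E₁`. -/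
theorem sm_nu_iff {P : W.Point} (hP : InE0 v P) : v (xc P)⁻¹ < 1 ↔ InE1 v P := by
  cases P with
  | zero =>
    change v (0 : K)⁻¹ < 1 ↔ True
    simp
  | some x y h =>
    change v x⁻¹ < 1 ↔ 1 < v x
    have hx : 1 ≤ v x := hP
    have hx0 : v x ≠ 0 := ne_of_gt (lt_of_lt_of_le zero_lt_one hx)
    rw [map_inv₀]
    constructor
    · intro h1
      by_contra hcon
      have h1x : v x = 1 := le_antisymm (not_lt.1 hcon) hx
      rw [h1x, inv_one] at h1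
      exact lt_irrefl _ h1
    · intro h1
      exact inv_lt_one_of_one_lt₀ h1

/-- Duplication: `ν(2P) ≡ D ν(P)² + 4 ν(P)`. -/
theorem nu_double (hW : Special2 W) (ha : v W.a₂ ≤ 1) (hb : v W.a₄ < 1) {x y : K}
    (h : W.Nonsingular x y) (hx : 1 ≤ v x) :
    v ((xc (Point.some x y h + Point.some x y h))⁻¹
      - ((1 + 4 * W.a₂) * x⁻¹ * x⁻¹ + 4 * x⁻¹)) < 1 := by
  have e := eqn_of_nonsingular2 hW h
  have hx0 : x ≠ 0 := by
    rintro rfl
    rw [map_zero] at hx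
    exact absurd hx (not_le.2 zero_lt_one)
  have h4 := int_four' v
  set z := x⁻¹ with hz
  have hzx : x * z = 1 := mul_inv_cancel₀ hx0
  have hzi : v z ≤ 1 := int_inv_of_one_le v hx
  have hD : v (1 + 4 * W.a₂) ≤ 1 := int_add v (by simp) (int_mul v h4 ha)
  have e4 : (2 * y + x) ^ 2 = 4 * x ^ 3 + (1 + 4 * W.a₂) * x ^ 2 + 4 * W.a₄ * x := by
    linear_combination 4 * e
  have h1 : (2 * y + x) ^ 2 * z ^ 4 = 4 * z + (1 + 4 * W.a₂) * z ^ 2 + 4 * W.a₄ * z ^ 3 := by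
    rw [e4]
    linear_combination (4 * z ^ 3 * x ^ 2 + 4 * z ^ 2 * x + 4 * z
      + (1 + 4 * W.a₂) * z ^ 3 * x + (1 + 4 * W.a₂) * z ^ 2 + 4 * W.a₄ * z ^ 3) * hzx
  have hsmall : v (W.a₄ * (z ^ 2 * (4 * z + ((1 + 4 * W.a₂) * z ^ 2 + 4 * z)
      * (2 - W.a₄ * z ^ 2)))) < 1 := by
    refine sm_mul_int v hb (int_mul v (int_pow v hzi 2) (int_add v (int_mul v h4 hzi) ?_))
    refine int_mul v (int_add v (int_mul v hD (int_pow v hzi 2)) (int_mul v h4 hzi)) ?_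
    exact int_sub v (int_two' v) (int_mul v (le_of_lt hb) (int_pow v hzi 2))
  by_cases hd0 : 2 * y + x = 0
  · have h0 : Point.some x y h + Point.some x y h = 0 :=
      Point.add_of_Y_eq rfl (by rw [negY_eq2 hW]; linear_combination hd0)
    rw [h0]
    change v ((0 : K)⁻¹ - ((1 + 4 * W.a₂) * z * z + 4 * z)) < 1
    rw [inv_zero, zero_sub, Valuation.map_neg]
    have : (1 + 4 * W.a₂) * z * z + 4 * z = W.a₄ * (-4 * z ^ 3) := by
      rw [hd0] at h1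
      linear_combination -h1
    rw [this]
    exact sm_mul_int v hb (int_mul v (int_neg v h4) (int_pow v hzi 3))
  · have hne : ¬(x = x ∧ y = -y - x) := by
      rintro ⟨-, h'⟩
      apply hd0
      linear_combination h'
    obtain ⟨x₃, y₃, h₃, hadd, -, -, -, hdb⟩ := add_formula2 hW h h hne
    rw [hadd]
    change v (x₃⁻¹ - ((1 + 4 * W.a₂) * z * z + 4 * z)) < 1
    have hdb' := hdb rfl
    have hd : v (1 - W.a₄ * z ^ 2) = 1 :=
      unit_sub_sm v (by simp) (sm_mul_int v hb (int_pow v hzi 2))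
    have hd2 : v ((1 - W.a₄ * z ^ 2) ^ 2) = 1 := unit_pow v hd 2
    have hd0' : (1 - W.a₄ * z ^ 2) ^ 2 ≠ 0 := ne_zero_of_unit v hd2
    have h2' : (x ^ 2 - W.a₄) ^ 2 * z ^ 4 = (1 - W.a₄ * z ^ 2) ^ 2 := by
      have : (x ^ 2 - W.a₄) * z ^ 2 = 1 - W.a₄ * z ^ 2 := by
        linear_combination (x * z + 1) * hzx
      rw [← this]; ring
    have hx3 : x₃ * (4 * z + (1 + 4 * W.a₂) * z ^ 2 + 4 * W.a₄ * z ^ 3)
        = (1 - W.a₄ * z ^ 2) ^ 2 := by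
      calc x₃ * (4 * z + (1 + 4 * W.a₂) * z ^ 2 + 4 * W.a₄ * z ^ 3)
          = x₃ * (2 * y + x) ^ 2 * z ^ 4 := by linear_combination (-x₃) * h1
        _ = (1 - W.a₄ * z ^ 2) ^ 2 := by rw [hdb', h2']
    have hx30 : x₃ ≠ 0 := by
      rintro rfl
      rw [zero_mul] at hx3
      exact hd0' hx3.symm
    have hinv : x₃⁻¹ * (1 - W.a₄ * z ^ 2) ^ 2
        = 4 * z + (1 + 4 * W.a₂) * z ^ 2 + 4 * W.a₄ * z ^ 3 := by
      rw [← hx3, ← mul_assoc, inv_mul_cancel₀ hx30, one_mul]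
    apply sm_of_mul_unit v hd2
    have hT : (x₃⁻¹ - ((1 + 4 * W.a₂) * z * z + 4 * z)) * (1 - W.a₄ * z ^ 2) ^ 2
        = W.a₄ * (z ^ 2 * (4 * z + ((1 + 4 * W.a₂) * z ^ 2 + 4 * z) * (2 - W.a₄ * z ^ 2))) := by
      linear_combination hinv
    rw [hT]
    exact hsmall

/-- The Chebyshev relation for `ν` on `E₀`. -/
theorem nu_cheb (hW : Special2 W) (ha : v W.a₂ ≤ 1) (hb : v W.a₄ < 1) {P Q : W.Point}
    (hP : InE0 v P) (hQ : InE0 v Q) :
    v ((xc (P + Q))⁻¹ + (xc (P - Q))⁻¹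
      - ((1 + 4 * W.a₂) * (xc P)⁻¹ * (xc Q)⁻¹ + 2 * (xc P)⁻¹ + 2 * (xc Q)⁻¹)) < 1 := by
  have h4 := int_four' v
  have h2 := int_two' v
  have hD : v (1 + 4 * W.a₂) ≤ 1 := int_add v (by simp) (int_mul v h4 ha)
  cases P with
  | zero =>
    have e1 : (Point.zero : W.Point) + Q = Q := by rw [← Point.zero_def, zero_add]
    have e2 : (Point.zero : W.Point) - Q = -Q := by rw [← Point.zero_def, zero_sub]
    rw [e1, e2, xc_neg]
    change v ((xc Q)⁻¹ + (xc Q)⁻¹ - ((1 + 4 * W.a₂) * (0 : K)⁻¹ * (xc Q)⁻¹ + 2 * (0 : K)⁻¹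
      + 2 * (xc Q)⁻¹)) < 1
    have : (xc Q)⁻¹ + (xc Q)⁻¹ - ((1 + 4 * W.a₂) * (0 : K)⁻¹ * (xc Q)⁻¹ + 2 * (0 : K)⁻¹
      + 2 * (xc Q)⁻¹) = 0 := by
      rw [inv_zero]; ring
    rw [this, map_zero]
    exact zero_lt_one
  | some x₁ y₁ h₁ =>
    cases Q with
    | zero =>
      have e1 : Point.some x₁ y₁ h₁ + (Point.zero : W.Point) = Point.some x₁ y₁ h₁ := by
        rw [← Point.zero_def, add_zero]
      have e2 : Point.some x₁ y₁ h₁ - (Point.zero : W.Point) = Point.some x₁ y₁ h₁ := by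
        rw [← Point.zero_def, sub_zero]
      rw [e1, e2]
      change v (x₁⁻¹ + x₁⁻¹ - ((1 + 4 * W.a₂) * x₁⁻¹ * (0 : K)⁻¹ + 2 * x₁⁻¹ + 2 * (0 : K)⁻¹)) < 1
      have : x₁⁻¹ + x₁⁻¹ - ((1 + 4 * W.a₂) * x₁⁻¹ * (0 : K)⁻¹ + 2 * x₁⁻¹ + 2 * (0 : K)⁻¹) = 0 := by
        rw [inv_zero]; ring
      rw [this, map_zero]
      exact zero_lt_one
    | some x₂ y₂ h₂ =>
      have hx₁ : 1 ≤ v x₁ := hP
      have hx₂ : 1 ≤ v x₂ := hQ
      have e₁ := eqn_of_nonsingular2 hW h₁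
      have e₂ := eqn_of_nonsingular2 hW h₂
      change v ((xc (Point.some x₁ y₁ h₁ + Point.some x₂ y₂ h₂))⁻¹
        + (xc (Point.some x₁ y₁ h₁ - Point.some x₂ y₂ h₂))⁻¹
        - ((1 + 4 * W.a₂) * x₁⁻¹ * x₂⁻¹ + 2 * x₁⁻¹ + 2 * x₂⁻¹)) < 1
      by_cases hxx : x₁ = x₂
      · subst hxx
        have hprod : (y₁ - y₂) * (y₁ + y₂ + x₁) = 0 := by linear_combination e₁ - e₂
        have hdbl := nu_double v hW ha hb h₁ hx₁
        rcases mul_eq_zero.1 hprod with hy | hy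
        · have hyy : y₁ = y₂ := sub_eq_zero.1 hy
          subst hyy
          rw [sub_self]
          change v ((xc (Point.some x₁ y₁ h₁ + Point.some x₁ y₁ h₁))⁻¹ + (0 : K)⁻¹
            - ((1 + 4 * W.a₂) * x₁⁻¹ * x₁⁻¹ + 2 * x₁⁻¹ + 2 * x₁⁻¹)) < 1
          have : (xc (Point.some x₁ y₁ h₁ + Point.some x₁ y₁ h₁))⁻¹ + (0 : K)⁻¹
              - ((1 + 4 * W.a₂) * x₁⁻¹ * x₁⁻¹ + 2 * x₁⁻¹ + 2 * x₁⁻¹)
              = (xc (Point.some x₁ y₁ h₁ + Point.some x₁ y₁ h₁))⁻¹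
                - ((1 + 4 * W.a₂) * x₁⁻¹ * x₁⁻¹ + 4 * x₁⁻¹) := by
            rw [inv_zero]; ring
          rw [this]
          exact hdbl
        · obtain ⟨h₁', hneg⟩ := neg_some_eq2 hW h₁
          have hQ' : Point.some x₁ y₂ h₂ = -Point.some x₁ y₁ h₁ := by
            rw [hneg]
            simp only [Point.some.injEq, true_and]
            linear_combination hy
          rw [hQ', add_neg_cancel, sub_neg_eq_add]
          change v ((0 : K)⁻¹ + (xc (Point.some x₁ y₁ h₁ + Point.some x₁ y₁ h₁))⁻¹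
            - ((1 + 4 * W.a₂) * x₁⁻¹ * x₁⁻¹ + 2 * x₁⁻¹ + 2 * x₁⁻¹)) < 1
          have : (0 : K)⁻¹ + (xc (Point.some x₁ y₁ h₁ + Point.some x₁ y₁ h₁))⁻¹
              - ((1 + 4 * W.a₂) * x₁⁻¹ * x₁⁻¹ + 2 * x₁⁻¹ + 2 * x₁⁻¹)
              = (xc (Point.some x₁ y₁ h₁ + Point.some x₁ y₁ h₁))⁻¹
                - ((1 + 4 * W.a₂) * x₁⁻¹ * x₁⁻¹ + 4 * x₁⁻¹) := by
            rw [inv_zero]; ring
          rw [this]
          exact hdbl
      · have hx₁0 : x₁ ≠ 0 := by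
          rintro rfl
          rw [map_zero] at hx₁
          exact absurd hx₁ (not_le.2 zero_lt_one)
        have hx₂0 : x₂ ≠ 0 := by
          rintro rfl
          rw [map_zero] at hx₂
          exact absurd hx₂ (not_le.2 zero_lt_one)
        have hprod := xc_add_mul_xc_sub2 hW h₁ h₂ hx₁0 hx₂0 hxx
        have hsum := xc_add_add_xc_sub2 hW h₁ h₂ hxx
        generalize xc (Point.some x₁ y₁ h₁ + Point.some x₂ y₂ h₂) = xp at hprod hsum ⊢
        generalize xc (Point.some x₁ y₁ h₁ - Point.some x₂ y₂ h₂) = xm at hprod hsum ⊢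
        set z₁ := x₁⁻¹ with hz₁
        set z₂ := x₂⁻¹ with hz₂
        have hz₁x : x₁ * z₁ = 1 := mul_inv_cancel₀ hx₁0
        have hz₂x : x₂ * z₂ = 1 := mul_inv_cancel₀ hx₂0
        have hz₁i : v z₁ ≤ 1 := int_inv_of_one_le v hx₁
        have hz₂i : v z₂ ≤ 1 := int_inv_of_one_le v hx₂
        have hd : v (1 - W.a₄ * z₁ * z₂) = 1 := by
          refine unit_sub_sm v (by simp) ?_
          exact sm_mul_int v (sm_mul_int v hb hz₁i) hz₂i
        have hd2 : v ((1 - W.a₄ * z₁ * z₂) ^ 2) = 1 := unit_pow v hd 2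
        have hd0 : (1 - W.a₄ * z₁ * z₂) ^ 2 ≠ 0 := ne_zero_of_unit v hd2
        have e2 : (x₁ * x₂ - W.a₄) * (z₁ * z₂) = 1 - W.a₄ * z₁ * z₂ := by
          linear_combination (x₂ * z₂) * hz₁x + hz₂x
        have hprod' : xp * xm * ((x₁ - x₂) ^ 2 * (z₁ * z₂) ^ 2) = (1 - W.a₄ * z₁ * z₂) ^ 2 := by
          rw [← e2]
          linear_combination (z₁ * z₂) ^ 2 * hprod
        have hxp0 : xp ≠ 0 := by
          rintro rfl
          rw [zero_mul, zero_mul] at hprod'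
          exact hd0 hprod'.symm
        have hxm0 : xm ≠ 0 := by
          rintro rfl
          rw [mul_zero, zero_mul] at hprod'
          exact hd0 hprod'.symm
        have hinvsum : (xp⁻¹ + xm⁻¹) * (xp * xm) = xp + xm := by
          field_simp
          ring
        have hsum' : (xp + xm) * ((x₁ - x₂) ^ 2 * (z₁ * z₂) ^ 2)
            = 2 * (z₁ + z₂) * (1 + W.a₄ * z₁ * z₂) + (1 + 4 * W.a₂) * z₁ * z₂ := by
          have e3 : (2 * (x₁ + x₂) * (x₁ * x₂ + W.a₄) + (1 + 4 * W.a₂) * x₁ * x₂) * (z₁ * z₂) ^ 2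
              = 2 * (z₁ + z₂) * (1 + W.a₄ * z₁ * z₂) + (1 + 4 * W.a₂) * z₁ * z₂ := by
            have ez₁ : x₁ = z₁⁻¹ := by rw [hz₁, inv_inv]
            have ez₂ : x₂ = z₂⁻¹ := by rw [hz₂, inv_inv]
            have hz₁0 : z₁ ≠ 0 := inv_ne_zero hx₁0
            have hz₂0 : z₂ ≠ 0 := inv_ne_zero hx₂0
            rw [ez₁, ez₂]
            field_simp
            ring
          rw [← e3, ← hsum]
          ring
        have hU : (xp⁻¹ + xm⁻¹) * (1 - W.a₄ * z₁ * z₂) ^ 2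
            = 2 * (z₁ + z₂) * (1 + W.a₄ * z₁ * z₂) + (1 + 4 * W.a₂) * z₁ * z₂ := by
          rw [← hsum', ← hprod', ← hinvsum]
          ring
        apply sm_of_mul_unit v hd2
        have hT : (xp⁻¹ + xm⁻¹ - ((1 + 4 * W.a₂) * z₁ * z₂ + 2 * z₁ + 2 * z₂))
              * (1 - W.a₄ * z₁ * z₂) ^ 2
            = W.a₄ * (z₁ * z₂ * (2 * (z₁ + z₂)
              + ((1 + 4 * W.a₂) * z₁ * z₂ + 2 * z₁ + 2 * z₂) * (2 - W.a₄ * z₁ * z₂))) := by
          linear_combination hU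
        rw [hT]
        refine sm_mul_int v hb (int_mul v (int_mul v hz₁i hz₂i) (int_add v
          (int_mul v h2 (int_add v hz₁i hz₂i)) ?_))
        refine int_mul v (int_add v (int_add v (int_mul v (int_mul v hD hz₁i) hz₂i)
          (int_mul v h2 hz₁i)) (int_mul v h2 hz₂i)) ?_
        exact int_sub v h2 (int_mul v (int_mul v (le_of_lt hb) hz₁i) hz₂i)

end Fermat.Agent.S13
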