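import Fermat.Agent.S13.TwoFormulas
import Fermat.Agent.S05.Core2

set_option autoImplicit false
set_option linter.unusedSectionVars false

/-!
# Project S13, 2-adic core: `E₁` and `E₀` are subgroups on `Y² + XY = X³ + a₂X² + a₄X`
-/

namespace Fermat.Agent.S13

open WeierstrassCurve WeierstrassCurve.Affine
open Fermat.Agent.S05 (xc InE1 InE0 int_add int_mul int_pow sm_add sm_mul_int int_mul_sm sm_pow
  unit_add_sm unit_sub_sm unit_mul unit_pow)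

variable {K : Type*} [Field K] {Γ₀ : Type*} [LinearOrderedCommGroupWithZero Γ₀]
  (v : Valuation K Γ₀) {W : WeierstrassCurve.Affine K}

theorem val_rhs_le (ha : v W.a₂ ≤ 1) (hb : v W.a₄ ≤ 1) {x : K} (hx : 1 ≤ v x) :
    v (x ^ 3 + W.a₂ * x ^ 2 + W.a₄ * x) ≤ v x ^ 3 := by
  refine (v.map_add _ _).trans (max_le ((v.map_add _ _).trans (max_le ?_ ?_)) ?_)
  · rw [map_pow]
  · rw [map_mul, map_pow]
    calc v W.a₂ * v x ^ 2 ≤ v x ^ 2 := mul_le_of_le_one_left' ha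
      _ ≤ v x ^ 3 := pow_le_pow_right' hx (by norm_num)
  · rw [map_mul]
    calc v W.a₄ * v x ≤ v x := mul_le_of_le_one_left' hb
      _ ≤ v x ^ 3 := le_self_pow hx (by norm_num)

theorem val_rhs_of_pole (ha : v W.a₂ ≤ 1) (hb : v W.a₄ ≤ 1) {x : K} (hx : 1 < v x) :
    v (x ^ 3 + W.a₂ * x ^ 2 + W.a₄ * x) = v x ^ 3 := by
  have h1 : v (W.a₂ * x ^ 2) < v (x ^ 3) := by
    rw [map_mul, map_pow, map_pow]
    calc v W.a₂ * v x ^ 2 ≤ v x ^ 2 := mul_le_of_le_one_left' ha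
      _ < v x ^ 3 := pow_lt_pow_right₀ hx (by norm_num)
  have h2 : v (x ^ 3 + W.a₂ * x ^ 2) = v (x ^ 3) := Valuation.map_add_eq_of_lt_left v h1
  have h3 : v (W.a₄ * x) < v (x ^ 3 + W.a₂ * x ^ 2) := by
    rw [h2, map_mul, map_pow]
    calc v W.a₄ * v x ≤ v x := mul_le_of_le_one_left' hb
      _ < v x ^ 3 := lt_self_pow₀ hx (by norm_num)
  rw [Valuation.map_add_eq_of_lt_left v h3, h2, map_pow]

theorem val_y_sq_le2 (hW : Special2 W) (ha : v W.a₂ ≤ 1) (hb : v W.a₄ ≤ 1) {x y : K}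
    (h : W.Nonsingular x y) (hx : 1 ≤ v x) : v y ^ 2 ≤ v x ^ 3 := by
  have e := eqn_of_nonsingular2 hW h
  rcases le_or_gt (v y) (v x) with hyx | hyx
  · calc v y ^ 2 ≤ v x ^ 2 := pow_le_pow_left' hyx 2
      _ ≤ v x ^ 3 := pow_le_pow_right' hx (by norm_num)
  · have h1 : v (y + x) = v y := Valuation.map_add_eq_of_lt_left v hyx
    have h2 : v y ^ 2 = v (x ^ 3 + W.a₂ * x ^ 2 + W.a₄ * x) := by
      rw [← e]
      have : y ^ 2 + x * y = y * (y + x) := by ring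
      rw [this, map_mul, h1, pow_two]
    rw [h2]
    exact val_rhs_le v ha hb hx

theorem val_y_gt_of_pole2 (hW : Special2 W) (ha : v W.a₂ ≤ 1) (hb : v W.a₄ ≤ 1) {x y : K}
    (h : W.Nonsingular x y) (hx : 1 < v x) : v x < v y := by
  have e := eqn_of_nonsingular2 hW h
  by_contra hcon
  rw [not_lt] at hcon
  have h1 : v (y + x) ≤ v x := (v.map_add _ _).trans (max_le hcon le_rfl)
  have h2 : v (y ^ 2 + x * y) ≤ v x ^ 2 := by
    have : y ^ 2 + x * y = y * (y + x) := by ring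
    rw [this, map_mul, pow_two]
    exact mul_le_mul' hcon h1
  rw [e, val_rhs_of_pole v ha hb hx] at h2
  exact absurd h2 (not_le.2 (pow_lt_pow_right₀ hx (by norm_num)))

theorem val_y_sq_of_pole2 (hW : Special2 W) (ha : v W.a₂ ≤ 1) (hb : v W.a₄ ≤ 1) {x y : K}
    (h : W.Nonsingular x y) (hx : 1 < v x) : v y ^ 2 = v x ^ 3 := by
  have e := eqn_of_nonsingular2 hW h
  have hyx := val_y_gt_of_pole2 v hW ha hb h hx
  have h1 : v (y + x) = v y := Valuation.map_add_eq_of_lt_left v hyx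
  have h2 : v y ^ 2 = v (x ^ 3 + W.a₂ * x ^ 2 + W.a₄ * x) := by
    rw [← e]
    have : y ^ 2 + x * y = y * (y + x) := by ring
    rw [this, map_mul, h1, pow_two]
  rw [h2]
  exact val_rhs_of_pole v ha hb hx

theorem val_y_le_one2 (hW : Special2 W) (ha : v W.a₂ ≤ 1) (hb : v W.a₄ ≤ 1) {x y : K}
    (h : W.Nonsingular x y) (hx : v x ≤ 1) : v y ≤ 1 := by
  have e := eqn_of_nonsingular2 hW h
  by_contra hcon
  rw [not_le] at hcon
  have h1 : v (y + x) = v y := Valuation.map_add_eq_of_lt_left v (lt_of_le_of_lt hx hcon)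
  have h2 : v (y ^ 2 + x * y) = v y ^ 2 := by
    have : y ^ 2 + x * y = y * (y + x) := by ring
    rw [this, map_mul, h1, pow_two]
  have h3 : v (x ^ 3 + W.a₂ * x ^ 2 + W.a₄ * x) ≤ 1 :=
    int_add v (int_add v (int_pow v hx 3) (int_mul v ha (int_pow v hx 2))) (int_mul v hb hx)
  rw [← e, h2] at h3
  exact absurd h3 (not_le.2 (one_lt_pow₀ hcon two_ne_zero))

/-- Pure valuation consequence of the `N`-formula (any numerator `N` with the right bound). -/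
theorem val_of_FN2 {x₁ x₂ x₃ b N : K} (hx₁ : 1 ≤ v x₁) (hx₂ : 1 ≤ v x₂)
    (hN2 : v N ^ 2 ≤ (v x₁ * v x₂) ^ 2 * max (v x₁) (v x₂)) (hb : v b < v x₁ * v x₂)
    (hN : x₃ * N ^ 2 = x₁ * x₂ * (x₁ * x₂ - b) ^ 2) :
    min (v x₁) (v x₂) ≤ v x₃ := by
  have h1 : v (x₁ * x₂ - b) = v x₁ * v x₂ := by
    rw [← map_mul] at hb ⊢
    exact Valuation.map_sub_eq_of_lt_left v hb
  have hV : v x₃ * v N ^ 2 = (v x₁ * v x₂) ^ 3 := by
    have := congrArg v hN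
    rw [map_mul, map_pow, map_mul, map_mul, map_pow, h1] at this
    rw [this]; exact (pow_succ' _ 2).symm
  have hx₁0 : 0 < v x₁ := lt_of_lt_of_le zero_lt_one hx₁
  have hx₂0 : 0 < v x₂ := lt_of_lt_of_le zero_lt_one hx₂
  have hVpos : 0 < (v x₁ * v x₂) ^ 2 := pow_pos (mul_pos hx₁0 hx₂0) 2
  have h3 : (v x₁ * v x₂) ^ 2 * (v x₁ * v x₂) ≤ (v x₁ * v x₂) ^ 2 * (v x₃ * max (v x₁) (v x₂)) := by
    calc (v x₁ * v x₂) ^ 2 * (v x₁ * v x₂) = (v x₁ * v x₂) ^ 3 := (pow_succ _ 2).symm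
      _ = v x₃ * v N ^ 2 := hV.symm
      _ ≤ v x₃ * ((v x₁ * v x₂) ^ 2 * max (v x₁) (v x₂)) := mul_le_mul_right hN2 _
      _ = (v x₁ * v x₂) ^ 2 * (v x₃ * max (v x₁) (v x₂)) := mul_left_comm _ _ _
  have h4 : v x₁ * v x₂ ≤ v x₃ * max (v x₁) (v x₂) := le_of_mul_le_mul_left h3 hVpos
  rcases le_total (v x₁) (v x₂) with h | h
  · rw [max_eq_right h] at h4
    rw [min_eq_left h]
    exact le_of_mul_le_mul_right h4 hx₂0
  · rw [max_eq_left h] at h4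
    rw [min_eq_right h]
    rw [mul_comm] at h4
    exact le_of_mul_le_mul_right h4 hx₁0

/-- The bound on the numerator `N = x₂y₁ + x₁y₂ + x₁x₂`. -/
theorem val_N_bound {x₁ y₁ x₂ y₂ : K} (hx₁ : 1 ≤ v x₁) (hx₂ : 1 ≤ v x₂)
    (hy₁ : v y₁ ^ 2 ≤ v x₁ ^ 3) (hy₂ : v y₂ ^ 2 ≤ v x₂ ^ 3) :
    v (x₂ * y₁ + x₁ * y₂ + x₁ * x₂) ^ 2 ≤ (v x₁ * v x₂) ^ 2 * max (v x₁) (v x₂) := by
  have hle := (v.map_add (x₂ * y₁ + x₁ * y₂) (x₁ * x₂)).trans
    (max_le_max (v.map_add (x₂ * y₁) (x₁ * y₂)) le_rfl)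
  rcases le_max_iff.1 hle with h | h
  · rcases le_max_iff.1 h with h | h
    · calc v (x₂ * y₁ + x₁ * y₂ + x₁ * x₂) ^ 2 ≤ v (x₂ * y₁) ^ 2 := pow_le_pow_left' h 2
        _ = v x₂ ^ 2 * v y₁ ^ 2 := by rw [map_mul, mul_pow]
        _ ≤ v x₂ ^ 2 * v x₁ ^ 3 := mul_le_mul_right hy₁ _
        _ = (v x₁ * v x₂) ^ 2 * v x₁ := by rw [mul_pow, pow_succ (v x₁) 2]; ac_rfl
        _ ≤ (v x₁ * v x₂) ^ 2 * max (v x₁) (v x₂) := mul_le_mul_right (le_max_left _ _) _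
    · calc v (x₂ * y₁ + x₁ * y₂ + x₁ * x₂) ^ 2 ≤ v (x₁ * y₂) ^ 2 := pow_le_pow_left' h 2
        _ = v x₁ ^ 2 * v y₂ ^ 2 := by rw [map_mul, mul_pow]
        _ ≤ v x₁ ^ 2 * v x₂ ^ 3 := mul_le_mul_right hy₂ _
        _ = (v x₁ * v x₂) ^ 2 * v x₂ := by rw [mul_pow, pow_succ (v x₂) 2]; ac_rfl
        _ ≤ (v x₁ * v x₂) ^ 2 * max (v x₁) (v x₂) := mul_le_mul_right (le_max_right _ _) _
  · calc v (x₂ * y₁ + x₁ * y₂ + x₁ * x₂) ^ 2 ≤ v (x₁ * x₂) ^ 2 := pow_le_pow_left' h 2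
      _ = (v x₁ * v x₂) ^ 2 * 1 := by rw [map_mul, mul_one]
      _ ≤ (v x₁ * v x₂) ^ 2 * max (v x₁) (v x₂) :=
        mul_le_mul_right (le_trans hx₁ (le_max_left _ _)) _

variable [DecidableEq K]

theorem inE1_neg2 {P : W.Point} (h : InE1 v P) : InE1 v (-P) := S05.inE1_neg v h

theorem inE0_neg2 {P : W.Point} (h : InE0 v P) : InE0 v (-P) := S05.inE0_neg v h

theorem inE1_add2 (hW : Special2 W) (ha : v W.a₂ ≤ 1) (hb : v W.a₄ ≤ 1) {P Q : W.Point}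
    (hP : InE1 v P) (hQ : InE1 v Q) : InE1 v (P + Q) := by
  cases P with
  | zero => rw [← Point.zero_def, zero_add]; exact hQ
  | some x₁ y₁ h₁ =>
    cases Q with
    | zero => rw [← Point.zero_def, add_zero]; exact hP
    | some x₂ y₂ h₂ =>
      by_cases hne : x₁ = x₂ ∧ y₁ = -y₂ - x₂
      · have h0 : Point.some x₁ y₁ h₁ + Point.some x₂ y₂ h₂ = 0 :=
          Point.add_of_Y_eq hne.1 (by rw [negY_eq2 hW]; exact hne.2)
        rw [h0]; trivial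
      · obtain ⟨x₃, y₃, h₃, hadd, hN, -, -, -⟩ := add_formula2 hW h₁ h₂ hne
        rw [hadd]
        have hP' : 1 < v x₁ := hP
        have hQ' : 1 < v x₂ := hQ
        have hb' : v W.a₄ < v x₁ * v x₂ :=
          lt_of_le_of_lt hb (lt_of_lt_of_le hP' (le_mul_of_one_le_right' (le_of_lt hQ')))
        have := val_of_FN2 v (le_of_lt hP') (le_of_lt hQ')
          (val_N_bound v (le_of_lt hP') (le_of_lt hQ')
            (val_y_sq_le2 v hW ha hb h₁ (le_of_lt hP')) (val_y_sq_le2 v hW ha hb h₂ (le_of_lt hQ')))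
          hb' hN
        exact lt_of_lt_of_le (lt_min hP' hQ') this

theorem inE0_add2 (hW : Special2 W) (ha : v W.a₂ ≤ 1) (hb : v W.a₄ < 1) {P Q : W.Point}
    (hP : InE0 v P) (hQ : InE0 v Q) : InE0 v (P + Q) := by
  cases P with
  | zero => rw [← Point.zero_def, zero_add]; exact hQ
  | some x₁ y₁ h₁ =>
    cases Q with
    | zero => rw [← Point.zero_def, add_zero]; exact hP
    | some x₂ y₂ h₂ =>
      by_cases hne : x₁ = x₂ ∧ y₁ = -y₂ - x₂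
      · have h0 : Point.some x₁ y₁ h₁ + Point.some x₂ y₂ h₂ = 0 :=
          Point.add_of_Y_eq hne.1 (by rw [negY_eq2 hW]; exact hne.2)
        rw [h0]; trivial
      · obtain ⟨x₃, y₃, h₃, hadd, hN, -, -, -⟩ := add_formula2 hW h₁ h₂ hne
        rw [hadd]
        have hP' : 1 ≤ v x₁ := hP
        have hQ' : 1 ≤ v x₂ := hQ
        have hb' : v W.a₄ < v x₁ * v x₂ :=
          lt_of_lt_of_le hb (le_trans hP' (le_mul_of_one_le_right' hQ'))
        have := val_of_FN2 v hP' hQ'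
          (val_N_bound v hP' hQ'
            (val_y_sq_le2 v hW ha (le_of_lt hb) h₁ hP') (val_y_sq_le2 v hW ha (le_of_lt hb) h₂ hQ'))
          hb' hN
        exact le_trans (le_min hP' hQ') this

theorem inE1_sub2 (hW : Special2 W) (ha : v W.a₂ ≤ 1) (hb : v W.a₄ ≤ 1) {P Q : W.Point}
    (hP : InE1 v P) (hQ : InE1 v Q) : InE1 v (P - Q) := by
  rw [sub_eq_add_neg]; exact inE1_add2 v hW ha hb hP (inE1_neg2 v hQ)

theorem inE0_sub2 (hW : Special2 W) (ha : v W.a₂ ≤ 1) (hb : v W.a₄ < 1) {P Q : W.Point}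
    (hP : InE0 v P) (hQ : InE0 v Q) : InE0 v (P - Q) := by
  rw [sub_eq_add_neg]; exact inE0_add2 v hW ha hb hP (inE0_neg2 v hQ)

theorem inE1_nsmul2 (hW : Special2 W) (ha : v W.a₂ ≤ 1) (hb : v W.a₄ ≤ 1) {P : W.Point}
    (hP : InE1 v P) (n : ℕ) : InE1 v (n • P) := by
  induction n with
  | zero => rw [zero_nsmul]; trivial
  | succ n ih => rw [succ_nsmul]; exact inE1_add2 v hW ha hb ih hP

theorem inE0_nsmul2 (hW : Special2 W) (ha : v W.a₂ ≤ 1) (hb : v W.a₄ < 1) {P : W.Point}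
    (hP : InE0 v P) (n : ℕ) : InE0 v (n • P) := by
  induction n with
  | zero => rw [zero_nsmul]; trivial
  | succ n ih => rw [succ_nsmul]; exact inE0_add2 v hW ha hb ih hP

theorem inE1_zsmul2 (hW : Special2 W) (ha : v W.a₂ ≤ 1) (hb : v W.a₄ ≤ 1) {Q : W.Point}
    (hQ : InE1 v Q) (m : ℤ) : InE1 v (m • Q) := by
  cases m with
  | ofNat n => rw [Int.ofNat_eq_natCast, natCast_zsmul]; exact inE1_nsmul2 v hW ha hb hQ n
  | negSucc n => rw [negSucc_zsmul]; exact inE1_neg2 v (inE1_nsmul2 v hW ha hb hQ (n + 1))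

theorem inE0_zsmul2 (hW : Special2 W) (ha : v W.a₂ ≤ 1) (hb : v W.a₄ < 1) {Q : W.Point}
    (hQ : InE0 v Q) (m : ℤ) : InE0 v (m • Q) := by
  cases m with
  | ofNat n => rw [Int.ofNat_eq_natCast, natCast_zsmul]; exact inE0_nsmul2 v hW ha hb hQ n
  | negSucc n => rw [negSucc_zsmul]; exact inE0_neg2 v (inE0_nsmul2 v hW ha hb hQ (n + 1))

end Fermat.Agent.S13
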