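import Fermat.Agent.S13.TwoCore1
import Fermat.Agent.S05.Core4

set_option autoImplicit false
set_option linter.unusedSectionVars false

/-!
# Project S13, 2-adic core: the `ζ`-invariant on `E₁` and absence of prime-to-residue torsion,
for `Y² + XY = X³ + a₂X² + a₄X` (any residue characteristic).
-/

namespace Fermat.Agent.S13

open WeierstrassCurve WeierstrassCurve.Affine
open Fermat.Agent.S05 (xc InE1 InE0 int_add int_sub int_neg int_mul int_pow sm_add sm_sub sm_neg
  sm_mul_int int_mul_sm sm_pow unit_add_sm unit_sub_sm unit_mul unit_pow int_natCast sm_of_sq_sm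
  ne_zero_of_unit ne_zero_of_pole sm_inv_of_pole sm_of_mul_unit)

variable {K : Type*} [Field K] [DecidableEq K] {Γ₀ : Type*} [LinearOrderedCommGroupWithZero Γ₀]
  (v : Valuation K Γ₀) {W : WeierstrassCurve.Affine K}

omit [DecidableEq K] in
theorem int_two' : v (2 : K) ≤ 1 := by exact_mod_cast int_natCast v 2

omit [DecidableEq K] in
theorem int_three' : v (3 : K) ≤ 1 := by exact_mod_cast int_natCast v 3

omit [DecidableEq K] in
theorem int_four' : v (4 : K) ≤ 1 := by exact_mod_cast int_natCast v 4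

omit [DecidableEq K] in
theorem int_twelve' : v (12 : K) ≤ 1 := by exact_mod_cast int_natCast v 12

/-- Doubling step for the `ζ`-invariant on `E₁`. -/
theorem zeta_double2 (hW : Special2 W) (ha : v W.a₂ ≤ 1) (hb : v W.a₄ ≤ 1)
    {x : K} {Q : W.Point} (hQ : InE1 v Q) (c : K) (hc : v c ≤ 1)
    (hQc : v ((xc Q)⁻¹ * x - c ^ 2) < 1) : v ((xc (Q + Q))⁻¹ * x - (2 * c) ^ 2) < 1 := by
  have h4 := int_four' v
  cases Q with
  | zero =>
    have h0 : (Point.zero : W.Point) + Point.zero = 0 := by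
      rw [← Point.zero_def, add_zero]
    rw [h0]
    change v ((0 : K)⁻¹ * x - (2 * c) ^ 2) < 1
    have hc2 : v ((0 : K)⁻¹ * x - c ^ 2) < 1 := hQc
    rw [inv_zero, zero_mul, zero_sub, Valuation.map_neg] at hc2 ⊢
    have : (2 * c) ^ 2 = 4 * c ^ 2 := by ring
    rw [this]
    exact int_mul_sm v h4 hc2
  | some xk yk hk =>
    have hxk : 1 < v xk := hQ
    have hxk0 : xk ≠ 0 := ne_zero_of_pole v hxk
    have ek := eqn_of_nonsingular2 hW hk
    have hyx := val_y_gt_of_pole2 v hW ha hb hk hxk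
    by_cases hd0 : 2 * yk + xk = 0
    · -- `Q` is a point of order two in `E₁`: only possible in residue characteristic two
      have h0 : Point.some xk yk hk + Point.some xk yk hk = 0 :=
        Point.add_of_Y_eq rfl (by rw [negY_eq2 hW]; linear_combination hd0)
      rw [h0]
      change v ((0 : K)⁻¹ * x - (2 * c) ^ 2) < 1
      rw [inv_zero, zero_mul, zero_sub, Valuation.map_neg]
      have h2 : v (2 : K) < 1 := by
        by_contra hcon
        rw [not_lt] at hcon
        have h2' : v (2 * yk) = v xk := by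
          have : 2 * yk = -xk := by linear_combination hd0
          rw [this, Valuation.map_neg]
        rw [map_mul] at h2'
        have : v yk ≤ v xk := by
          calc v yk = 1 * v yk := (one_mul _).symm
            _ ≤ v 2 * v yk := mul_le_mul_left hcon _
            _ = v xk := h2'
        exact absurd hyx (not_lt.2 this)
      exact sm_pow v (sm_mul_int v h2 hc) two_ne_zero
    · have hne : ¬(xk = xk ∧ yk = -yk - xk) := by
        rintro ⟨-, h⟩
        apply hd0
        linear_combination h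
      obtain ⟨x₃, y₃, h₃, hadd, -, -, -, hdb⟩ := add_formula2 hW hk hk hne
      rw [hadd]
      change v (x₃⁻¹ * x - (2 * c) ^ 2) < 1
      have hQc' : v (xk⁻¹ * x - c ^ 2) < 1 := hQc
      have hdb' := hdb rfl
      set z := xk⁻¹ with hz
      have hzx : xk * z = 1 := mul_inv_cancel₀ hxk0
      have hzsm : v z < 1 := sm_inv_of_pole v hxk
      have he : v (4 + (4 * W.a₂ + 1) * z + 4 * W.a₄ * z ^ 2) ≤ 1 := by
        refine int_add v (int_add v h4 (int_mul v (int_add v (int_mul v h4 ha) (by simp))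
          (le_of_lt hzsm))) (int_mul v (int_mul v h4 hb) (int_pow v (le_of_lt hzsm) 2))
      have hd : v (1 - W.a₄ * z ^ 2) = 1 :=
        unit_sub_sm v (by simp) (int_mul_sm v hb (sm_pow v hzsm two_ne_zero))
      have hd2 : v ((1 - W.a₄ * z ^ 2) ^ 2) = 1 := unit_pow v hd 2
      have hd0' : (1 - W.a₄ * z ^ 2) ^ 2 ≠ 0 := ne_zero_of_unit v hd2
      have hx3 : x₃ * (z * (4 + (4 * W.a₂ + 1) * z + 4 * W.a₄ * z ^ 2))
          = (1 - W.a₄ * z ^ 2) ^ 2 := by
        have h1 : (2 * yk + xk) ^ 2 * z ^ 4 = z * (4 + (4 * W.a₂ + 1) * z + 4 * W.a₄ * z ^ 2) := by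
          have e4 : (2 * yk + xk) ^ 2 = 4 * xk ^ 3 + (4 * W.a₂ + 1) * xk ^ 2 + 4 * W.a₄ * xk := by
            linear_combination 4 * ek
          rw [e4]
          linear_combination (4 * z ^ 3 * xk ^ 2 + 4 * z ^ 2 * xk + 4 * z
            + (4 * W.a₂ + 1) * z ^ 3 * xk + (4 * W.a₂ + 1) * z ^ 2 + 4 * W.a₄ * z ^ 3) * hzx
        have h2' : (xk ^ 2 - W.a₄) ^ 2 * z ^ 4 = (1 - W.a₄ * z ^ 2) ^ 2 := by
          have : (xk ^ 2 - W.a₄) * z ^ 2 = 1 - W.a₄ * z ^ 2 := by
            linear_combination (xk * z + 1) * hzx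
          rw [← this]; ring
        calc x₃ * (z * (4 + (4 * W.a₂ + 1) * z + 4 * W.a₄ * z ^ 2))
            = x₃ * (2 * yk + xk) ^ 2 * z ^ 4 := by linear_combination (-x₃) * h1
          _ = (1 - W.a₄ * z ^ 2) ^ 2 := by rw [hdb', h2']
      have hx30 : x₃ ≠ 0 := by
        rintro rfl
        rw [zero_mul] at hx3
        exact hd0' hx3.symm
      have hinv : x₃⁻¹ * (1 - W.a₄ * z ^ 2) ^ 2
          = z * (4 + (4 * W.a₂ + 1) * z + 4 * W.a₄ * z ^ 2) := by
        rw [← hx3, ← mul_assoc, inv_mul_cancel₀ hx30, one_mul]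
      apply sm_of_mul_unit v hd2
      have hT : (x₃⁻¹ * x - (2 * c) ^ 2) * (1 - W.a₄ * z ^ 2) ^ 2
          = (4 + (4 * W.a₂ + 1) * z + 4 * W.a₄ * z ^ 2) * (z * x - c ^ 2)
            + c ^ 2 * (z * ((4 * W.a₂ + 1) + 12 * W.a₄ * z - 4 * W.a₄ ^ 2 * z ^ 3)) := by
        linear_combination x * hinv
      rw [hT]
      refine sm_add v (int_mul_sm v he hQc') ?_
      refine int_mul_sm v (int_pow v hc 2) (sm_mul_int v hzsm ?_)
      exact int_sub v (int_add v (int_add v (int_mul v h4 ha) (by simp))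
          (int_mul v (int_mul v (int_twelve' v) hb) (le_of_lt hzsm)))
        (int_mul v (int_mul v h4 (int_pow v hb 2)) (int_pow v (le_of_lt hzsm) 3))

/-- Odd step for the `ζ`-invariant on `E₁`. -/
theorem zeta_odd2 (hW : Special2 W) (ha : v W.a₂ ≤ 1) (hb : v W.a₄ ≤ 1)
    {x y : K} (h : W.Nonsingular x y) (hx : 1 < v x) {Q₁ Q₂ : W.Point}
    (hQ₁ : InE1 v Q₁) (hQ₂ : InE1 v Q₂) (hdiff : Q₁ - Q₂ = Point.some x y h)
    (c : K) (hc : v c ≤ 1)
    (h₁ : v ((xc Q₁)⁻¹ * x - (c + 1) ^ 2) < 1) (h₂ : v ((xc Q₂)⁻¹ * x - c ^ 2) < 1) :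
    v ((xc (Q₁ + Q₂))⁻¹ * x - (2 * c + 1) ^ 2) < 1 := by
  have hx0 : x ≠ 0 := ne_zero_of_pole v hx
  have h2 := int_two' v
  have h4 := int_four' v
  have h3 := int_three' v
  have h1' : v (1 : K) ≤ 1 := by simp
  cases Q₂ with
  | zero =>
    have hQ1 : Q₁ = Point.some x y h := by
      rw [← hdiff, ← Point.zero_def, sub_zero]
    have hsum : Q₁ + Point.zero = Point.some x y h := by
      rw [← Point.zero_def, add_zero, hQ1]
    rw [hsum]
    change v (x⁻¹ * x - (2 * c + 1) ^ 2) < 1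
    have hc2 : v ((0 : K)⁻¹ * x - c ^ 2) < 1 := h₂
    rw [inv_zero, zero_mul, zero_sub, Valuation.map_neg] at hc2
    have hcs : v c < 1 := sm_of_sq_sm v hc2
    have : x⁻¹ * x - (2 * c + 1) ^ 2 = c * (-4 * (c + 1)) := by
      rw [inv_mul_cancel₀ hx0]; ring
    rw [this]
    refine sm_mul_int v hcs (int_mul v (int_neg v h4) (int_add v hc h1'))
  | some x₂ y₂ hk₂ =>
    cases Q₁ with
    | zero =>
      have hsum : (Point.zero : W.Point) + Point.some x₂ y₂ hk₂ = Point.some x₂ y₂ hk₂ := by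
        rw [← Point.zero_def, zero_add]
      rw [hsum]
      change v (x₂⁻¹ * x - (2 * c + 1) ^ 2) < 1
      have hc1 : v ((0 : K)⁻¹ * x - (c + 1) ^ 2) < 1 := h₁
      rw [inv_zero, zero_mul, zero_sub, Valuation.map_neg] at hc1
      have hcs : v (c + 1) < 1 := sm_of_sq_sm v hc1
      have h₂' : v (x₂⁻¹ * x - c ^ 2) < 1 := h₂
      have : x₂⁻¹ * x - (2 * c + 1) ^ 2 = (x₂⁻¹ * x - c ^ 2) - (c + 1) * (3 * c + 1) := by ring
      rw [this]
      exact sm_sub v h₂' (sm_mul_int v hcs (int_add v (int_mul v h3 hc) h1'))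
    | some x₁ y₁ hk₁ =>
      have hx₁ : 1 < v x₁ := hQ₁
      have hx₂ : 1 < v x₂ := hQ₂
      have hx₁0 : x₁ ≠ 0 := ne_zero_of_pole v hx₁
      have hx₂0 : x₂ ≠ 0 := ne_zero_of_pole v hx₂
      have h₁' : v (x₁⁻¹ * x - (c + 1) ^ 2) < 1 := h₁
      have h₂' : v (x₂⁻¹ * x - c ^ 2) < 1 := h₂
      by_cases hopp : x₁ = x₂ ∧ y₁ = -y₂ - x₂
      · have h0 : Point.some x₁ y₁ hk₁ + Point.some x₂ y₂ hk₂ = 0 :=
          Point.add_of_Y_eq hopp.1 (by rw [negY_eq2 hW]; exact hopp.2)
        rw [h0]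
        change v ((0 : K)⁻¹ * x - (2 * c + 1) ^ 2) < 1
        rw [inv_zero, zero_mul, zero_sub, Valuation.map_neg]
        rw [hopp.1] at h₁'
        have hd : v (2 * c + 1) < 1 := by
          have : 2 * c + 1 = (x₂⁻¹ * x - c ^ 2) - (x₂⁻¹ * x - (c + 1) ^ 2) := by ring
          rw [this]; exact sm_sub v h₂' h₁'
        exact sm_pow v hd two_ne_zero
      · have hneq : ¬(x₁ = x₂ ∧ y₁ = y₂) := by
          rintro ⟨rfl, rfl⟩
          rw [sub_self] at hdiff
          exact Point.some_ne_zero h hdiff.symm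
        obtain ⟨xm, ym, hm, hsub, hNm, -, -, -⟩ := sub_formula2 hW hk₁ hk₂ hneq
        rw [hsub] at hdiff
        have hxm : xm = x := by
          have := hdiff
          simp only [Point.some.injEq] at this
          exact this.1
        subst hxm
        obtain ⟨xp, yp, hp, hadd, -, hMp, -, -⟩ := add_formula2 hW hk₁ hk₂ hopp
        rw [hadd]
        change v (xp⁻¹ * xm - (2 * c + 1) ^ 2) < 1
        set z₁ := x₁⁻¹ with hz₁
        set z₂ := x₂⁻¹ with hz₂
        have hz₁x : x₁ * z₁ = 1 := mul_inv_cancel₀ hx₁0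
        have hz₂x : x₂ * z₂ = 1 := mul_inv_cancel₀ hx₂0
        have hz₁s : v z₁ < 1 := sm_inv_of_pole v hx₁
        have hz₂s : v z₂ < 1 := sm_inv_of_pole v hx₂
        have hd : v (1 - W.a₄ * z₁ * z₂) = 1 := by
          refine unit_sub_sm v (by simp) ?_
          exact sm_mul_int v (int_mul_sm v hb hz₁s) (le_of_lt hz₂s)
        have hd2 : v ((1 - W.a₄ * z₁ * z₂) ^ 2) = 1 := unit_pow v hd 2
        have hd0 : (1 - W.a₄ * z₁ * z₂) ^ 2 ≠ 0 := ne_zero_of_unit v hd2
        have hprod : xm * xp * (x₁ - x₂) ^ 2 = (x₁ * x₂ - W.a₄) ^ 2 := by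
          have h12 : x₁ * x₂ ≠ 0 := mul_ne_zero hx₁0 hx₂0
          apply mul_left_cancel₀ h12
          linear_combination xm * hMp + hNm
        have hprod' : xp * (xm * (z₂ - z₁) ^ 2) = (1 - W.a₄ * z₁ * z₂) ^ 2 := by
          have e1 : (x₁ - x₂) * (z₁ * z₂) = z₂ - z₁ := by
            linear_combination z₂ * hz₁x - z₁ * hz₂x
          have e2 : (x₁ * x₂ - W.a₄) * (z₁ * z₂) = 1 - W.a₄ * z₁ * z₂ := by
            linear_combination (x₂ * z₂) * hz₁x + hz₂x
          rw [← e1, ← e2]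
          linear_combination (z₁ * z₂) ^ 2 * hprod
        have hxp0 : xp ≠ 0 := by
          rintro rfl
          rw [zero_mul] at hprod'
          exact hd0 hprod'.symm
        have hinv : xp⁻¹ * (1 - W.a₄ * z₁ * z₂) ^ 2 = xm * (z₂ - z₁) ^ 2 := by
          rw [← hprod', ← mul_assoc, inv_mul_cancel₀ hxp0, one_mul]
        apply sm_of_mul_unit v hd2
        have hT : (xp⁻¹ * xm - (2 * c + 1) ^ 2) * (1 - W.a₄ * z₁ * z₂) ^ 2
            = (z₂ * xm - z₁ * xm - (2 * c + 1) * (1 - W.a₄ * z₁ * z₂))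
              * ((z₂ * xm - c ^ 2) - (z₁ * xm - (c + 1) ^ 2)
                + (2 * c + 1) * (-(W.a₄ * z₁ * z₂))) := by
          linear_combination xm * hinv
        rw [hT]
        have hr₁ : v (z₁ * xm) ≤ 1 := by
          have : z₁ * xm = (z₁ * xm - (c + 1) ^ 2) + (c + 1) ^ 2 := by ring
          rw [this]
          exact int_add v (le_of_lt h₁') (int_pow v (int_add v hc h1') 2)
        have hr₂ : v (z₂ * xm) ≤ 1 := by
          have : z₂ * xm = (z₂ * xm - c ^ 2) + c ^ 2 := by ring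
          rw [this]
          exact int_add v (le_of_lt h₂') (int_pow v hc 2)
        have h2c1 : v (2 * c + 1) ≤ 1 := int_add v (int_mul v h2 hc) h1'
        refine int_mul_sm v ?_ ?_
        · exact int_sub v (int_sub v hr₂ hr₁) (int_mul v h2c1 (le_of_eq hd))
        · refine sm_add v (sm_sub v h₂' h₁') (int_mul_sm v h2c1 (sm_neg v ?_))
          exact sm_mul_int v (int_mul_sm v hb hz₁s) (le_of_lt hz₂s)

/-- The `ζ`-invariant of multiples: `ζ(mP)/ζ(P) ≡ m²` modulo the maximal ideal. -/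
theorem zeta_nsmul2 (hW : Special2 W) (ha : v W.a₂ ≤ 1) (hb : v W.a₄ ≤ 1)
    {x y : K} (h : W.Nonsingular x y) (hx : 1 < v x) (m : ℕ) :
    v ((xc (m • Point.some x y h))⁻¹ * x - (m : K) ^ 2) < 1 := by
  have hx0 : x ≠ 0 := ne_zero_of_pole v hx
  have hP : InE1 v (Point.some x y h) := hx
  induction m using Nat.strong_induction_on with
  | _ m ih =>
    rcases Nat.lt_or_ge m 2 with hm | hm
    · interval_cases m
      · rw [zero_nsmul]
        change v ((0 : K)⁻¹ * x - ((0 : ℕ) : K) ^ 2) < 1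
        simp
      · rw [one_nsmul]
        change v (x⁻¹ * x - ((1 : ℕ) : K) ^ 2) < 1
        rw [inv_mul_cancel₀ hx0]
        simp
    · rcases Nat.even_or_odd' m with ⟨k, hk | hk⟩
      · have hk1 : k < m := by omega
        have hm' : m • Point.some x y h = k • Point.some x y h + k • Point.some x y h := by
          rw [← add_nsmul]; congr 1; omega
        rw [hm']
        have hc : ((m : ℕ) : K) = 2 * (k : K) := by rw [hk]; push_cast; ring
        rw [hc]
        exact zeta_double2 v hW ha hb (inE1_nsmul2 v hW ha hb hP k) (k : K) (int_natCast v k)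
          (ih k hk1)
      · have hk1 : k < m := by omega
        have hk2 : k + 1 < m := by omega
        have hm' : m • Point.some x y h
            = (k + 1) • Point.some x y h + k • Point.some x y h := by
          rw [← add_nsmul]; congr 1; omega
        rw [hm']
        have hc : ((m : ℕ) : K) = 2 * (k : K) + 1 := by rw [hk]; push_cast; ring
        rw [hc]
        have hdiff : (k + 1) • Point.some x y h - k • Point.some x y h = Point.some x y h := by
          rw [succ_nsmul]; abel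
        have ih1 := ih (k + 1) hk2
        rw [Nat.cast_succ] at ih1
        exact zeta_odd2 v hW ha hb h hx (inE1_nsmul2 v hW ha hb hP (k + 1))
          (inE1_nsmul2 v hW ha hb hP k) hdiff (k : K) (int_natCast v k) ih1 (ih k hk1)

/-- `E₁` has no `n`-torsion when `n` is a unit. -/
theorem no_torsion_E1_2 (hW : Special2 W) (ha : v W.a₂ ≤ 1) (hb : v W.a₄ ≤ 1)
    {P : W.Point} (hP : InE1 v P) (n : ℕ) (hn : v (n : K) = 1) (hnP : n • P = 0) : P = 0 := by
  cases P with
  | zero => rfl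
  | some x y h =>
    exfalso
    have hx : 1 < v x := hP
    have := zeta_nsmul2 v hW ha hb h hx n
    rw [hnP] at this
    change v ((0 : K)⁻¹ * x - (n : K) ^ 2) < 1 at this
    rw [inv_zero, zero_mul, zero_sub, Valuation.map_neg, map_pow, hn, one_pow] at this
    exact lt_irrefl _ this

end Fermat.Agent.S13
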