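import Fermat.Agent.S13.TwoCore2
import Fermat.Agent.S05.Core5

set_option autoImplicit false
set_option linter.unusedSectionVars false

/-!
# Project S13, 2-adic core: points of `E₀` with the same reduction differ by `E₁`;
inertia-like automorphisms fix the prime-to-residue torsion of `E₀`.
Model `Y² + XY = X³ + a₂X² + a₄X`, residue characteristic two (`v 2 < 1`).
-/

namespace Fermat.Agent.S13

open WeierstrassCurve WeierstrassCurve.Affine
open Fermat.Agent.S05 (xc InE1 InE0 int_add int_sub int_neg int_mul int_pow sm_add sm_sub sm_neg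
  sm_mul_int int_mul_sm sm_pow unit_add_sm unit_sub_sm unit_mul unit_pow int_natCast sm_of_sq_sm
  ne_zero_of_unit ne_zero_of_pole sm_inv_of_pole sm_of_mul_unit pole_div)

variable {K : Type*} [Field K] [DecidableEq K] {Γ₀ : Type*} [LinearOrderedCommGroupWithZero Γ₀]
  (v : Valuation K Γ₀) {W : WeierstrassCurve.Affine K}

/-- Two integral points with the same reduction, at which `∂F/∂y = 2y + x` is a unit, differ by an
element of `E₁`. -/
theorem congr_sub_inE1_2 (hW : Special2 W) (ha : v W.a₂ ≤ 1)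
    {x₁ y₁ x₂ y₂ : K} (h₁ : W.Nonsingular x₁ y₁) (h₂ : W.Nonsingular x₂ y₂)
    (hx₁ : v x₁ ≤ 1) (hx₂ : v x₂ ≤ 1) (hx : v (x₁ - x₂) < 1) (hy : v (y₁ - y₂) < 1)
    (hns : v (2 * y₁ + x₁) = 1) :
    InE1 v (Point.some x₁ y₁ h₁ - Point.some x₂ y₂ h₂) := by
  have e₁ := eqn_of_nonsingular2 hW h₁
  have e₂ := eqn_of_nonsingular2 hW h₂
  by_cases heq : x₁ = x₂ ∧ y₁ = y₂
  · obtain ⟨rfl, rfl⟩ := heq
    rw [sub_self]; trivial
  · obtain ⟨x₃, y₃, h₃, hsub, -, -, hch, -⟩ := sub_formula2 hW h₁ h₂ heq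
    rw [hsub]
    change 1 < v x₃
    have hnum : v (y₁ + y₂ + x₂) = 1 := by
      have : y₁ + y₂ + x₂ = (2 * y₁ + x₁) - ((y₁ - y₂) + (x₁ - x₂)) := by ring
      rw [this]
      exact unit_sub_sm v hns (sm_add v hy hx)
    have hxx : x₁ ≠ x₂ := by
      rintro rfl
      have hyne : y₁ ≠ y₂ := fun h => heq ⟨rfl, h⟩
      have hprod : (y₁ - y₂) * (y₁ + y₂ + x₁) = 0 := by linear_combination e₁ - e₂
      rcases mul_eq_zero.1 hprod with h | h
      · exact hyne (sub_eq_zero.1 h)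
      · rw [h, map_zero] at hnum
        exact zero_ne_one hnum
    have hd : x₁ - x₂ ≠ 0 := sub_ne_zero.2 hxx
    have hL : 1 < v ((y₁ + y₂ + x₂) / (x₁ - x₂)) := pole_div v hnum hx hd
    rw [hch hxx]
    have hL2 : v ((y₁ + y₂ + x₂) / (x₁ - x₂)) < v (((y₁ + y₂ + x₂) / (x₁ - x₂)) ^ 2) := by
      rw [map_pow]; exact lt_self_pow₀ hL (by norm_num)
    have hL2' : 1 < v (((y₁ + y₂ + x₂) / (x₁ - x₂)) ^ 2) := lt_trans hL hL2
    have hrest : v (W.a₂ + x₁ + x₂) ≤ 1 := int_add v (int_add v ha hx₁) hx₂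
    have hsum : v (((y₁ + y₂ + x₂) / (x₁ - x₂)) ^ 2 + (y₁ + y₂ + x₂) / (x₁ - x₂))
        = v (((y₁ + y₂ + x₂) / (x₁ - x₂)) ^ 2) := Valuation.map_add_eq_of_lt_left v hL2
    have : ((y₁ + y₂ + x₂) / (x₁ - x₂)) ^ 2 + (y₁ + y₂ + x₂) / (x₁ - x₂) - W.a₂ - x₁ - x₂
        = (((y₁ + y₂ + x₂) / (x₁ - x₂)) ^ 2 + (y₁ + y₂ + x₂) / (x₁ - x₂))
          - (W.a₂ + x₁ + x₂) := by ring
    rw [this, Valuation.map_sub_eq_of_lt_left v (by rw [hsum]; exact lt_of_le_of_lt hrest hL2'),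
      hsum]
    exact hL2'

/-- In residue characteristic two, `∂F/∂y = 2y + x` is a unit at integral points with `v x = 1`. -/
theorem unit_two_y_add_x (hW : Special2 W) (ha : v W.a₂ ≤ 1) (hb : v W.a₄ ≤ 1)
    (h2 : v (2 : K) < 1) {x y : K} (h : W.Nonsingular x y) (hx : v x = 1) :
    v (2 * y + x) = 1 := by
  have hy : v y ≤ 1 := val_y_le_one2 v hW ha hb h (le_of_eq hx)
  rw [add_comm]
  exact unit_add_sm v hx (sm_mul_int v h2 hy)

section Sigma

variable (σ : K →+* K) (τ : W.Point →+ W.Point)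

/-- If `P ∈ E₀` then `τ P - P` lies in the kernel of reduction. -/
theorem tau_sub_inE1_2 (hW : Special2 W) (ha : v W.a₂ ≤ 1) (hb : v W.a₄ ≤ 1) (h2 : v (2 : K) < 1)
    (hσ1' : ∀ x, 1 < v x → 1 < v (σ x)) (hσ1 : ∀ x, v x ≤ 1 → v (σ x) ≤ 1)
    (hσ2 : ∀ x, v x ≤ 1 → v (σ x - x) < 1)
    (hτ : ∀ (x y : K) (h : W.Nonsingular x y),
      ∃ h' : W.Nonsingular (σ x) (σ y), τ (Point.some x y h) = Point.some (σ x) (σ y) h')
    {P : W.Point} (hP : InE0 v P) : InE1 v (τ P - P) := by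
  cases P with
  | zero =>
    have : τ (Point.zero : W.Point) = 0 := by rw [← Point.zero_def]; exact map_zero τ
    rw [this, ← Point.zero_def, sub_zero]; trivial
  | some x y h =>
    obtain ⟨h', hτP⟩ := hτ x y h
    rw [hτP]
    have hP' : 1 ≤ v x := hP
    rcases lt_or_eq_of_le hP' with hx | hx
    · exact inE1_sub2 v hW ha hb (show InE1 v (Point.some (σ x) (σ y) h') from hσ1' x hx)
        (show InE1 v (Point.some x y h) from hx)
    · have hx1 : v x = 1 := hx.symm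
      have hx' : v x ≤ 1 := le_of_eq hx1
      have hy' : v y ≤ 1 := val_y_le_one2 v hW ha hb h hx'
      have hxs : v (x - σ x) < 1 := by rw [Valuation.map_sub_swap]; exact hσ2 x hx'
      have hys : v (y - σ y) < 1 := by rw [Valuation.map_sub_swap]; exact hσ2 y hy'
      have := congr_sub_inE1_2 v hW ha h h' hx' (hσ1 x hx') hxs hys
        (unit_two_y_add_x v hW ha hb h2 h hx1)
      have h3 := inE1_neg2 v this
      rwa [neg_sub] at h3

/-- A point of `E₀` whose `n`-th multiple is `τ`-fixed (`n` a unit) is `τ`-fixed. -/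
theorem fixed_of_inE0_2 (hW : Special2 W) (ha : v W.a₂ ≤ 1) (hb : v W.a₄ ≤ 1) (h2 : v (2 : K) < 1)
    (hσ1' : ∀ x, 1 < v x → 1 < v (σ x)) (hσ1 : ∀ x, v x ≤ 1 → v (σ x) ≤ 1)
    (hσ2 : ∀ x, v x ≤ 1 → v (σ x - x) < 1)
    (hτ : ∀ (x y : K) (h : W.Nonsingular x y),
      ∃ h' : W.Nonsingular (σ x) (σ y), τ (Point.some x y h) = Point.some (σ x) (σ y) h')
    {P : W.Point} (hP : InE0 v P) (n : ℕ) (hn : v (n : K) = 1) (hnP : τ (n • P) = n • P) :
    τ P = P := by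
  have h1 := tau_sub_inE1_2 v σ τ hW ha hb h2 hσ1' hσ1 hσ2 hτ hP
  have h3 : n • (τ P - P) = 0 := by
    rw [nsmul_sub, ← map_nsmul, hnP, sub_self]
  exact sub_eq_zero.1 (no_torsion_E1_2 v hW ha hb h1 n hn h3)

end Sigma

end Fermat.Agent.S13
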