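import Fermat.Agent.S13.TwoCore3
import Fermat.Agent.S05.Core6

set_option autoImplicit false
set_option linter.unusedSectionVars false

/-!
# Project S13, 2-adic core: the two-torsion point `T = (0,0)`, branches at the node, and the
"same valuation" lemmas. Model `Y² + XY = X³ + a₂X² + a₄X`.
-/

namespace Fermat.Agent.S13

open WeierstrassCurve WeierstrassCurve.Affine
open Fermat.Agent.S05 (xc InE1 InE0 int_add int_sub int_neg int_mul int_pow sm_add sm_sub sm_neg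
  sm_mul_int int_mul_sm sm_pow unit_add_sm unit_sub_sm unit_mul unit_pow int_natCast sm_of_sq_sm
  ne_zero_of_unit ne_zero_of_pole sm_inv_of_pole sm_of_mul_unit pole_div unit_of_sq_unit
  unit_of_mul_unit_left unit_of_mul_unit_right)

variable {K : Type*} [Field K] [DecidableEq K] {Γ₀ : Type*} [LinearOrderedCommGroupWithZero Γ₀]
  (v : Valuation K Γ₀) {W : WeierstrassCurve.Affine K}

omit [DecidableEq K] in
theorem nonsingular_T2 (hW : Special2 W) (hb0 : W.a₄ ≠ 0) : W.Nonsingular 0 0 := by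
  rw [Affine.nonsingular_zero]; exact ⟨hW.2.2, Or.inr hb0⟩

theorem two_nsmul_T2 (hW : Special2 W) (hT : W.Nonsingular 0 0) :
    2 • Point.some 0 0 hT = 0 := by
  rw [two_nsmul]
  exact Point.add_of_Y_eq rfl (by rw [negY_eq2 hW]; simp)

/-- Translation by the two-torsion point `T = (0, 0)` sends `x` to `a₄ / x`. -/
theorem add_T2 (hW : Special2 W) (hT : W.Nonsingular 0 0) {x y : K} (h : W.Nonsingular x y)
    (hx : x ≠ 0) :
    ∃ (y' : K) (h' : W.Nonsingular (W.a₄ / x) y'),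
      Point.some x y h + Point.some 0 0 hT = Point.some (W.a₄ / x) y' h' := by
  have hne : ¬(x = 0 ∧ y = -0 - 0) := fun h0 => hx h0.1
  obtain ⟨x₃, y₃, h₃, hadd, -, -, hch, -⟩ := add_formula2 hW h hT hne
  have e := eqn_of_nonsingular2 hW h
  have hx3 : x₃ = W.a₄ / x := by
    rw [hch hx, eq_div_iff hx]
    have h1 : ((y - 0) / (x - 0)) ^ 2 + (y - 0) / (x - 0) = (y ^ 2 + x * y) / x ^ 2 := by
      rw [sub_zero, sub_zero]
      field_simp
    rw [h1, e]
    field_simp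
    ring
  subst hx3
  exact ⟨y₃, h₃, hadd⟩

theorem sub_T2 (hW : Special2 W) (hT : W.Nonsingular 0 0) {x y : K} (h : W.Nonsingular x y)
    (hx : x ≠ 0) :
    ∃ (y' : K) (h' : W.Nonsingular (W.a₄ / x) y'),
      Point.some x y h - Point.some 0 0 hT = Point.some (W.a₄ / x) y' h' := by
  have hne : ¬(x = 0 ∧ y = 0) := fun h0 => hx h0.1
  obtain ⟨x₃, y₃, h₃, hsub, -, -, hch, -⟩ := sub_formula2 hW h hT hne
  have e := eqn_of_nonsingular2 hW h
  have hx3 : x₃ = W.a₄ / x := by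
    rw [hch hx, eq_div_iff hx]
    have h1 : ((y + 0 + 0) / (x - 0)) ^ 2 + (y + 0 + 0) / (x - 0) = (y ^ 2 + x * y) / x ^ 2 := by
      rw [add_zero, add_zero, sub_zero]
      field_simp
    rw [h1, e]
    field_simp
    ring
  subst hx3
  exact ⟨y₃, h₃, hsub⟩

/-- Points in the "middle component" differ from `T` by an element of `E₀`. -/
theorem sub_T_inE0_2 (hW : Special2 W) (hT : W.Nonsingular 0 0) {x y : K}
    (h : W.Nonsingular x y) (hx : v x ≤ v W.a₄) :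
    InE0 v (Point.some x y h - Point.some 0 0 hT) := by
  by_cases hx0 : x = 0
  · subst hx0
    have e := eqn_of_nonsingular2 hW h
    have hy : y = 0 := by
      have : y ^ 2 = 0 := by linear_combination e
      exact pow_eq_zero_iff (two_ne_zero) |>.1 this
    subst hy
    rw [sub_self]; trivial
  · obtain ⟨y', h', hsub⟩ := sub_T2 hW hT h hx0
    rw [hsub]
    change 1 ≤ v (W.a₄ / x)
    rw [map_div₀]
    have hvx : 0 < v x := zero_lt_iff.2 ((Valuation.ne_zero_iff v).2 hx0)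
    exact (one_le_div₀ hvx).2 hx

/-- The branch parameter `t = y / x` of a point near the node (not in the middle component) is
integral and is a root of `t² + t - a₂` modulo the maximal ideal. -/
theorem branch_eq (hW : Special2 W) {x y : K} (h : W.Nonsingular x y) (hx0 : x ≠ 0) :
    (y / x) ^ 2 + y / x - W.a₂ = x + W.a₄ / x := by
  have e := eqn_of_nonsingular2 hW h
  field_simp
  linear_combination e

theorem branch_sm (hW : Special2 W) {x y : K} (h : W.Nonsingular x y)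
    (hx0 : x ≠ 0) (hx : v x < 1) (hbx : v W.a₄ < v x) :
    v ((y / x) ^ 2 + y / x - W.a₂) < 1 := by
  have hvx : 0 < v x := zero_lt_iff.2 ((Valuation.ne_zero_iff v).2 hx0)
  have hbx' : v (W.a₄ / x) < 1 := by
    rw [map_div₀]; exact (div_lt_one₀ hvx).2 hbx
  rw [branch_eq hW h hx0]
  exact sm_add v hx hbx'

theorem branch_int (hW : Special2 W) (ha : v W.a₂ ≤ 1) {x y : K} (h : W.Nonsingular x y)
    (hx0 : x ≠ 0) (hx : v x < 1) (hbx : v W.a₄ < v x) : v (y / x) ≤ 1 := by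
  have hs := branch_sm v hW h hx0 hx hbx
  by_contra hcon
  rw [not_le] at hcon
  have h1 : v (y / x) < v ((y / x) ^ 2) := by
    rw [map_pow]; exact lt_self_pow₀ hcon (by norm_num)
  have h2 : v ((y / x) ^ 2 + y / x) = v ((y / x) ^ 2) := Valuation.map_add_eq_of_lt_left v h1
  have h3 : v ((y / x) ^ 2 + y / x) ≤ 1 := by
    have : (y / x) ^ 2 + y / x = ((y / x) ^ 2 + y / x - W.a₂) + W.a₂ := by ring
    rw [this]
    exact int_add v (le_of_lt hs) ha
  rw [h2] at h3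
  exact absurd (lt_trans hcon h1) (not_lt.2 h3)

/-- `2t + 1` is a unit: the two branches are distinct (multiplicative reduction). -/
theorem branch_unit (hW : Special2 W) (hD : v (1 + 4 * W.a₂) = 1) {x y : K}
    (h : W.Nonsingular x y) (hx0 : x ≠ 0) (hx : v x < 1) (hbx : v W.a₄ < v x) :
    v (2 * (y / x) + 1) = 1 := by
  have hs := branch_sm v hW h hx0 hx hbx
  apply unit_of_sq_unit
  have : (2 * (y / x) + 1) ^ 2 = (1 + 4 * W.a₂) + 4 * ((y / x) ^ 2 + y / x - W.a₂) := by ring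
  rw [this]
  exact unit_add_sm v hD (int_mul_sm v (int_four' v) hs)

/-- Two points near the node with the same `v x`: if `t₁ + t₂ + 1` is a unit, their difference
lies in `E₀`. -/
theorem sub_inE0_of_unit (hW : Special2 W) {x₁ y₁ x₂ y₂ : K}
    (h₁ : W.Nonsingular x₁ y₁) (h₂ : W.Nonsingular x₂ y₂) (hx₁0 : x₁ ≠ 0) (hx₂0 : x₂ ≠ 0)
    (hval : v x₁ = v x₂) (hu : v (y₁ / x₁ + y₂ / x₂ + 1) = 1) :
    InE0 v (Point.some x₁ y₁ h₁ - Point.some x₂ y₂ h₂) := by
  have e₁ := eqn_of_nonsingular2 hW h₁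
  have e₂ := eqn_of_nonsingular2 hW h₂
  have hV : 0 < v x₁ := zero_lt_iff.2 ((Valuation.ne_zero_iff v).2 hx₁0)
  have hM : x₂ * y₁ + x₁ * y₂ + x₁ * x₂ = x₁ * x₂ * (y₁ / x₁ + y₂ / x₂ + 1) := by
    field_simp
  have hvM : v (x₂ * y₁ + x₁ * y₂ + x₁ * x₂) = v x₁ * v x₁ := by
    rw [hM, map_mul, map_mul, hu, mul_one, ← hval]
  by_cases heq : x₁ = x₂ ∧ y₁ = y₂
  · obtain ⟨rfl, rfl⟩ := heq
    rw [sub_self]; trivial
  · obtain ⟨x₃, y₃, h₃, hsub, -, hMf, -, -⟩ := sub_formula2 hW h₁ h₂ heq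
    rw [hsub]
    change 1 ≤ v x₃
    have hxx : x₁ ≠ x₂ := by
      rintro rfl
      have hyne : y₁ ≠ y₂ := fun h => heq ⟨rfl, h⟩
      have hprod : (y₁ - y₂) * (y₁ + y₂ + x₁) = 0 := by linear_combination e₁ - e₂
      rcases mul_eq_zero.1 hprod with h | h
      · exact hyne (sub_eq_zero.1 h)
      · have h0 : x₁ * y₁ + x₁ * y₂ + x₁ * x₁ = 0 := by linear_combination x₁ * h
        rw [h0, map_zero] at hvM
        exact absurd hvM.symm (ne_of_gt (mul_pos hV hV))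
    have hd0 : x₁ - x₂ ≠ 0 := sub_ne_zero.2 hxx
    have hD : v (x₁ - x₂) ≤ v x₁ :=
      (Valuation.map_sub v x₁ x₂).trans (max_le le_rfl (le_of_eq hval.symm))
    have hDpos : 0 < v (x₁ - x₂) := zero_lt_iff.2 ((Valuation.ne_zero_iff v).2 hd0)
    have h1 := congrArg v hMf
    rw [map_mul, map_mul, map_mul, map_pow, map_pow, hvM, ← hval] at h1
    by_contra hcon
    rw [not_le] at hcon
    have h3 : v x₃ * (v x₁ * v x₁ * v (x₁ - x₂) ^ 2) < v x₁ * v x₁ * (v x₁ * v x₁) := by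
      calc v x₃ * (v x₁ * v x₁ * v (x₁ - x₂) ^ 2)
          < 1 * (v x₁ * v x₁ * v (x₁ - x₂) ^ 2) := by
            apply mul_lt_mul_of_pos_right hcon
            exact mul_pos (mul_pos hV hV) (pow_pos hDpos 2)
        _ = v x₁ * v x₁ * v (x₁ - x₂) ^ 2 := one_mul _
        _ ≤ v x₁ * v x₁ * (v x₁ * v x₁) := by
            apply mul_le_mul_right
            rw [pow_two]
            exact mul_le_mul' hD hD
    rw [h1, pow_two] at h3
    exact lt_irrefl _ h3

/-- Two points near the node with the same `v x`: if `t₁ - t₂` is a unit, their sum lies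
in `E₀`. -/
theorem add_inE0_of_unit (hW : Special2 W) {x₁ y₁ x₂ y₂ : K}
    (h₁ : W.Nonsingular x₁ y₁) (h₂ : W.Nonsingular x₂ y₂) (hx₁0 : x₁ ≠ 0) (hx₂0 : x₂ ≠ 0)
    (hval : v x₁ = v x₂) (hu : v (y₁ / x₁ - y₂ / x₂) = 1) :
    InE0 v (Point.some x₁ y₁ h₁ + Point.some x₂ y₂ h₂) := by
  obtain ⟨h₂', hneg⟩ := neg_some_eq2 hW h₂
  have hu' : v (y₁ / x₁ + (-y₂ - x₂) / x₂ + 1) = 1 := by
    have : y₁ / x₁ + (-y₂ - x₂) / x₂ + 1 = y₁ / x₁ - y₂ / x₂ := by
      field_simp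
      ring
    rw [this]; exact hu
  have := sub_inE0_of_unit v hW h₁ h₂' hx₁0 hx₂0 hval hu'
  rwa [← hneg, sub_neg_eq_add] at this

/-- Two points near the node with the same `v x` (not in the middle component): their sum or their
difference lies in `E₀`. -/
theorem same_val_inE0_2 (hW : Special2 W) (ha : v W.a₂ ≤ 1) (hD : v (1 + 4 * W.a₂) = 1)
    {x₁ y₁ x₂ y₂ : K}
    (h₁ : W.Nonsingular x₁ y₁) (h₂ : W.Nonsingular x₂ y₂) (hx₁0 : x₁ ≠ 0) (hx₂0 : x₂ ≠ 0)
    (hval : v x₁ = v x₂) (hx₁ : v x₁ < 1) (hbx : v W.a₄ < v x₁) :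
    InE0 v (Point.some x₁ y₁ h₁ - Point.some x₂ y₂ h₂) ∨
      InE0 v (Point.some x₁ y₁ h₁ + Point.some x₂ y₂ h₂) := by
  have ht₁ := branch_int v hW ha h₁ hx₁0 hx₁ hbx
  have ht₂ := branch_int v hW ha h₂ hx₂0 (hval ▸ hx₁) (hval ▸ hbx)
  have hu₁ := branch_unit v hW hD h₁ hx₁0 hx₁ hbx
  have hA : v (y₁ / x₁ + y₂ / x₂ + 1) ≤ 1 := int_add v (int_add v ht₁ ht₂) (by simp)
  have hB : v (y₁ / x₁ - y₂ / x₂) ≤ 1 := int_sub v ht₁ ht₂
  rcases lt_or_eq_of_le hA with hA' | hA'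
  · right
    refine add_inE0_of_unit v hW h₁ h₂ hx₁0 hx₂0 hval ?_
    have : y₁ / x₁ - y₂ / x₂ = (2 * (y₁ / x₁) + 1) - (y₁ / x₁ + y₂ / x₂ + 1) := by ring
    rw [this]
    exact unit_sub_sm v hu₁ hA'
  · left
    exact sub_inE0_of_unit v hW h₁ h₂ hx₁0 hx₂0 hval hA'

/-- Same-branch lemma: two points near the node with the same `v x` and congruent branch
parameters `y / x` differ by an element of `E₀`. -/
theorem same_branch_sub_inE0 (hW : Special2 W) (hD : v (1 + 4 * W.a₂) = 1)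
    {x₁ y₁ x₂ y₂ : K}
    (h₁ : W.Nonsingular x₁ y₁) (h₂ : W.Nonsingular x₂ y₂) (hx₁0 : x₁ ≠ 0) (hx₂0 : x₂ ≠ 0)
    (hval : v x₁ = v x₂) (hx₁ : v x₁ < 1) (hbx : v W.a₄ < v x₁)
    (ht : v (y₁ / x₁ - y₂ / x₂) < 1) :
    InE0 v (Point.some x₁ y₁ h₁ - Point.some x₂ y₂ h₂) := by
  have hu₁ := branch_unit v hW hD h₁ hx₁0 hx₁ hbx
  refine sub_inE0_of_unit v hW h₁ h₂ hx₁0 hx₂0 hval ?_
  have : y₁ / x₁ + y₂ / x₂ + 1 = (2 * (y₁ / x₁) + 1) - (y₁ / x₁ - y₂ / x₂) := by ring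
  rw [this]
  exact unit_sub_sm v hu₁ ht

end Fermat.Agent.S13
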