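import Fermat.Agent.S13.TwoCore5
import Fermat.Agent.S05.Core9

set_option autoImplicit false
set_option linter.unusedSectionVars false

/-!
# Project S13, 2-adic core: the sawtooth recursion and the valuation of `p`-torsion points
outside `E₀`. Model `Y² + XY = X³ + a₂X² + a₄X`.
-/

namespace Fermat.Agent.S13

open WeierstrassCurve WeierstrassCurve.Affine
open Fermat.Agent.S05 (xc InE1 InE0 ord ord_of_ne ord_mul ord_pow ord_pos_iff ord_lt_iff ord_eq_iff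
  ord_eq_zero_iff ord_sub_of_ne ord_zero not_dvd_natCast not_dvd_two_mul sawtooth xc_neg)

variable {K : Type*} [Field K] [DecidableEq K] {Γ₀ : Type*} [LinearOrderedCommGroupWithZero Γ₀]
  (v : Valuation K Γ₀) {W : WeierstrassCurve.Affine K}

/-- Product formula `x(P₁+P₂) x(P₁-P₂) (x₁-x₂)² = (x₁x₂ - a₄)²`. -/
theorem xc_add_mul_xc_sub2 (hW : Special2 W) {x₁ y₁ x₂ y₂ : K} (h₁ : W.Nonsingular x₁ y₁)
    (h₂ : W.Nonsingular x₂ y₂) (hx₁0 : x₁ ≠ 0) (hx₂0 : x₂ ≠ 0) (hxx : x₁ ≠ x₂) :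
    xc (Point.some x₁ y₁ h₁ + Point.some x₂ y₂ h₂) * xc (Point.some x₁ y₁ h₁ - Point.some x₂ y₂ h₂)
      * (x₁ - x₂) ^ 2 = (x₁ * x₂ - W.a₄) ^ 2 := by
  have hne : ¬(x₁ = x₂ ∧ y₁ = -y₂ - x₂) := fun h => hxx h.1
  have hne' : ¬(x₁ = x₂ ∧ y₁ = y₂) := fun h => hxx h.1
  obtain ⟨xp, yp, hp, hadd, -, hMp, -, -⟩ := add_formula2 hW h₁ h₂ hne
  obtain ⟨xm, ym, hm, hsub, hNm, -, -, -⟩ := sub_formula2 hW h₁ h₂ hne'
  rw [hadd, hsub]
  change xp * xm * (x₁ - x₂) ^ 2 = (x₁ * x₂ - W.a₄) ^ 2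
  have h12 : x₁ * x₂ ≠ 0 := mul_ne_zero hx₁0 hx₂0
  apply mul_left_cancel₀ h12
  linear_combination xm * hMp + hNm

theorem xc_double2 (hW : Special2 W) {x y : K} (h : W.Nonsingular x y) (hd : 2 * y + x ≠ 0) :
    xc (Point.some x y h + Point.some x y h) * (2 * y + x) ^ 2 = (x ^ 2 - W.a₄) ^ 2 := by
  have hne : ¬(x = x ∧ y = -y - x) := by
    rintro ⟨-, h'⟩
    apply hd
    linear_combination h'
  obtain ⟨x₃, y₃, h₃, hadd, -, -, -, hdb⟩ := add_formula2 hW h h hne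
  rw [hadd]
  exact hdb rfl

section Chain

variable (hW : Special2 W) (ha : v W.a₂ ≤ 1) (hD : v (1 + 4 * W.a₂) = 1) (hb : v W.a₄ < 1)
  (hb0 : W.a₄ ≠ 0) (hT : W.Nonsingular 0 0)
  {p : ℕ} (hp : p.Prime) (hp2 : p ≠ 2) {P : W.Point} (hpP : p • P = 0) (hP0 : ¬ InE0 v P)

include hW ha hD hb hb0 hT hp hp2 hpP hP0

theorem ord_bounds2 {m : ℤ} (hm : ¬ (p : ℤ) ∣ m) :
    0 < ord v (xc (m • P)) ∧ ord v (xc (m • P)) < ord v W.a₄ := by
  obtain ⟨x₁, y₁, h₁, e₁, hx₁0, hx₁, hbx₁⟩ := near_node2 v hW ha hb hT hp hp2 hpP hP0 hm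
  rw [e₁]
  change 0 < ord v x₁ ∧ ord v x₁ < ord v W.a₄
  exact ⟨(ord_pos_iff v hx₁0).2 hx₁, (ord_lt_iff v hx₁0 hb0).2 hbx₁⟩

theorem ord_add_ne2 {m m' : ℤ} (hm : ¬ (p : ℤ) ∣ m) (hm' : ¬ (p : ℤ) ∣ m') :
    ord v (xc (m • P)) + ord v (xc (m' • P)) ≠ ord v W.a₄ := by
  have hne := val_mul_ne2 v hW ha hD hb hb0 hT hp hp2 hpP hP0 hm hm'
  obtain ⟨x₁, y₁, h₁, e₁, hx₁0, hx₁, hbx₁⟩ := near_node2 v hW ha hb hT hp hp2 hpP hP0 hm
  obtain ⟨x₂, y₂, h₂, e₂, hx₂0, hx₂, hbx₂⟩ := near_node2 v hW ha hb hT hp hp2 hpP hP0 hm'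
  rw [e₁, e₂] at hne ⊢
  change ord v x₁ + ord v x₂ ≠ ord v W.a₄
  have hne' : v x₁ * v x₂ ≠ v W.a₄ := hne
  rw [← ord_mul v hx₁0 hx₂0]
  intro h
  apply hne'
  rw [← map_mul]
  exact (ord_eq_iff v (mul_ne_zero hx₁0 hx₂0) hb0).1 h

theorem rec_formula2 {m m' : ℤ} (hm : ¬ (p : ℤ) ∣ m) (hm' : ¬ (p : ℤ) ∣ m')
    (hs : ¬ (p : ℤ) ∣ m + m') (hd : ¬ (p : ℤ) ∣ m - m') :
    ord v (xc ((m + m') • P)) + ord v (xc ((m - m') • P))
        + 2 • min (ord v (xc (m • P))) (ord v (xc (m' • P)))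
      = 2 • min (ord v (xc (m • P)) + ord v (xc (m' • P))) (ord v W.a₄) := by
  have hne := ord_add_ne2 v hW ha hD hb hb0 hT hp hp2 hpP hP0 hm hm'
  have hsame : v (xc (m • P)) ≠ v (xc (m' • P)) := by
    intro h
    rcases dvd_of_same_val2 v hW ha hD hb hT hp hp2 hpP hP0 hm hm' h with h' | h'
    · exact hd h'
    · exact hs h'
  obtain ⟨xs, ys, hs', es, hxs0, -, -⟩ := near_node2 v hW ha hb hT hp hp2 hpP hP0 hs
  obtain ⟨xd, yd, hd', ed, hxd0, -, -⟩ := near_node2 v hW ha hb hT hp hp2 hpP hP0 hd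
  obtain ⟨x₁, y₁, h₁, e₁, hx₁0, hx₁, hbx₁⟩ := near_node2 v hW ha hb hT hp hp2 hpP hP0 hm
  obtain ⟨x₂, y₂, h₂, e₂, hx₂0, hx₂, hbx₂⟩ := near_node2 v hW ha hb hT hp hp2 hpP hP0 hm'
  have hxx : x₁ ≠ x₂ := by
    rintro rfl
    apply hsame; rw [e₁, e₂]; rfl
  have hprod := xc_add_mul_xc_sub2 hW h₁ h₂ hx₁0 hx₂0 hxx
  rw [← e₁, ← e₂, ← add_smul, ← sub_smul, es, ed] at hprod
  have hprod' : xs * xd * (x₁ - x₂) ^ 2 = (x₁ * x₂ - W.a₄) ^ 2 := hprod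
  have hsame' : v x₁ ≠ v x₂ := by
    have := hsame; rw [e₁, e₂] at this; exact this
  have hne' : ord v x₁ + ord v x₂ ≠ ord v W.a₄ := by
    have := hne; rw [e₁, e₂] at this; exact this
  rw [es, ed, e₁, e₂]
  change ord v xs + ord v xd + 2 • min (ord v x₁) (ord v x₂)
      = 2 • min (ord v x₁ + ord v x₂) (ord v W.a₄)
  have hne1 : ord v x₁ ≠ ord v x₂ := by
    intro h
    apply hsame'
    exact (ord_eq_iff v hx₁0 hx₂0).1 h
  have hne2 : ord v (x₁ * x₂) ≠ ord v W.a₄ := by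
    rw [ord_mul v hx₁0 hx₂0]; exact hne'
  obtain ⟨hd0, hdord⟩ := ord_sub_of_ne v hx₁0 hx₂0 hne1
  obtain ⟨hn0, hnord⟩ := ord_sub_of_ne v (mul_ne_zero hx₁0 hx₂0) hb0 hne2
  have h1 := congrArg (ord v) hprod'
  rw [ord_mul v (mul_ne_zero hxs0 hxd0) (pow_ne_zero 2 hd0), ord_mul v hxs0 hxd0,
    ord_pow v hd0, ord_pow v hn0, hdord, hnord, ord_mul v hx₁0 hx₂0] at h1
  exact h1

theorem rec_double2 {m : ℤ} (hm : ¬ (p : ℤ) ∣ m) :
    ord v (xc ((2 * m) • P)) + 2 • ord v (xc (m • P))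
      = 2 • min (2 • ord v (xc (m • P))) (ord v W.a₄) := by
  have hne := ord_add_ne2 v hW ha hD hb hb0 hT hp hp2 hpP hP0 hm hm
  have hm2 := not_dvd_two_mul hp hp2 hm
  obtain ⟨xs, ys, hs', es, hxs0, -, -⟩ := near_node2 v hW ha hb hT hp hp2 hpP hP0 hm2
  obtain ⟨x₁, y₁, h₁, e₁, hx₁0, hx₁, hbx₁⟩ := near_node2 v hW ha hb hT hp hp2 hpP hP0 hm
  have hu := branch_unit v hW hD h₁ hx₁0 hx₁ hbx₁
  have hdeq : 2 * y₁ + x₁ = x₁ * (2 * (y₁ / x₁) + 1) := by field_simp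
  have hvd : v (2 * y₁ + x₁) = v x₁ := by rw [hdeq, map_mul, hu, mul_one]
  have hd0 : 2 * y₁ + x₁ ≠ 0 := by
    intro h0
    rw [h0, map_zero] at hvd
    exact hx₁0 ((Valuation.zero_iff v).1 hvd.symm)
  have hdb := xc_double2 hW h₁ hd0
  have h2m : (2 * m) • P = m • P + m • P := by rw [two_mul, add_smul]
  rw [← e₁, ← h2m, es] at hdb
  have hdb' : xs * (2 * y₁ + x₁) ^ 2 = (x₁ ^ 2 - W.a₄) ^ 2 := hdb
  have hne' : ord v x₁ + ord v x₁ ≠ ord v W.a₄ := by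
    have := hne; rw [e₁] at this; exact this
  rw [es, e₁]
  change ord v xs + 2 • ord v x₁ = 2 • min (2 • ord v x₁) (ord v W.a₄)
  have hne2 : ord v (x₁ ^ 2) ≠ ord v W.a₄ := by
    rw [ord_pow v hx₁0, two_nsmul]; exact hne'
  obtain ⟨hn0, hnord⟩ := ord_sub_of_ne v (pow_ne_zero 2 hx₁0) hb0 hne2
  have h1 := congrArg (ord v) hdb'
  rw [ord_mul v hxs0 (pow_ne_zero 2 hd0), ord_pow v hd0, (ord_eq_iff v hd0 hx₁0).2 hvd,
    ord_pow v hn0, hnord, ord_pow v hx₁0] at h1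
  exact h1

/-- The valuation of the `x`-coordinate of a `p`-torsion point outside `E₀` is commensurable
with the valuation of `a₄`. -/
theorem torsion_val2 : ∃ k : ℤ, p • ord v (xc P) = (2 * k) • ord v W.a₄ := by
  have hp3 : 3 ≤ p := by
    have := hp.two_le
    omega
  have h1 : ¬ (p : ℤ) ∣ 1 := by
    have := not_dvd_natCast (p := p) (m := 1) le_rfl (by omega)
    simpa using this
  have key := sawtooth (ord v W.a₄) (fun m : ℕ => ord v (xc ((m : ℤ) • P))) p hp3 ?_ ?_ ?_ ?_ ?_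
  · simpa using key
  · -- j 0 = 0
    change ord v (xc (((0 : ℕ) : ℤ) • P)) = 0
    rw [Nat.cast_zero, zero_smul]
    exact ord_zero v
  · -- bounds
    intro m hm1 hm2
    exact ord_bounds2 v hW ha hD hb hb0 hT hp hp2 hpP hP0 (not_dvd_natCast hm1 (by omega))
  · -- recursion
    intro m hm1 hm2
    change ord v (xc (((m + 1 : ℕ) : ℤ) • P)) + ord v (xc (((m - 1 : ℕ) : ℤ) • P))
        + 2 • min (ord v (xc ((m : ℤ) • P))) (ord v (xc (((1 : ℕ) : ℤ) • P)))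
      = 2 • min (ord v (xc ((m : ℤ) • P)) + ord v (xc (((1 : ℕ) : ℤ) • P))) (ord v W.a₄)
    rcases Nat.eq_or_lt_of_le hm1 with rfl | hm
    · have hd := rec_double2 v hW ha hD hb hb0 hT hp hp2 hpP hP0 h1
      have e0 : (((1 - 1 : ℕ) : ℤ)) • P = 0 := by simp
      have e2 : (((1 + 1 : ℕ) : ℤ)) • P = (2 * 1 : ℤ) • P := by norm_num
      rw [e0, e2, Nat.cast_one, min_self]
      change _ + ord v (0 : K) + _ = _
      rw [ord_zero, add_zero, ← two_nsmul]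
      exact hd
    · have hm' : ¬ (p : ℤ) ∣ (m : ℤ) := not_dvd_natCast hm1 (by omega)
      have hs : ¬ (p : ℤ) ∣ (m : ℤ) + 1 := by
        have := not_dvd_natCast (p := p) (m := m + 1) (by omega) (by omega)
        simpa using this
      have hd : ¬ (p : ℤ) ∣ (m : ℤ) - 1 := by
        have := not_dvd_natCast (p := p) (m := m - 1) (by omega) (by omega)
        rwa [Nat.cast_sub hm1, Nat.cast_one] at this
      have hr := rec_formula2 v hW ha hD hb hb0 hT hp hp2 hpP hP0 hm' h1 hs hd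
      rw [Nat.cast_add, Nat.cast_sub hm1, Nat.cast_one]
      exact hr
  · -- non-degeneracy
    intro m hm1 hm2
    change ord v (xc ((m : ℤ) • P)) + ord v (xc (((1 : ℕ) : ℤ) • P)) ≠ ord v W.a₄
    rw [Nat.cast_one]
    exact ord_add_ne2 v hW ha hD hb hb0 hT hp hp2 hpP hP0 (not_dvd_natCast hm1 (by omega)) h1
  · -- symmetry
    change ord v (xc (((p - 1 : ℕ) : ℤ) • P)) = ord v (xc (((1 : ℕ) : ℤ) • P))
    have : ((p - 1 : ℕ) : ℤ) • P = -P := by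
      rw [Nat.cast_sub (by omega), sub_smul, natCast_zsmul, hpP, Nat.cast_one, one_smul, zero_sub]
    rw [this, xc_neg, Nat.cast_one, one_smul]

end Chain

end Fermat.Agent.S13
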