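import Fermat.Agent.S13.TwoCore6

set_option autoImplicit false
set_option linter.unusedSectionVars false

/-!
# Project S13, 2-adic core: inertia at a place of multiplicative reduction in residue
characteristic two acts unipotently on the `p`-torsion (`p` odd).
Model `Y² + XY = X³ + a₂X² + a₄X`.
-/

namespace Fermat.Agent.S13

open WeierstrassCurve WeierstrassCurve.Affine
open Fermat.Agent.S05 (xc InE1 InE0 int_mul sm_mul_int unit_add_sm)

variable {K : Type*} [Field K] [DecidableEq K] {Γ₀ : Type*} [LinearOrderedCommGroupWithZero Γ₀]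
  (v : Valuation K Γ₀) {W : WeierstrassCurve.Affine K}

omit [DecidableEq K] in
/-- In residue characteristic two, `1 + 4a₂` is a unit. -/
theorem unit_one_add_four_mul (h2 : v (2 : K) < 1) {a : K} (ha : v a ≤ 1) :
    v (1 + 4 * a) = 1 := by
  have h4 : v (4 : K) < 1 := by
    have : (4 : K) = 2 * 2 := by norm_num
    rw [this]
    exact sm_mul_int v h2 (le_of_lt h2)
  exact unit_add_sm v (by simp) (sm_mul_int v h4 ha)

section Sigma

variable (σ : K →+* K) (τ : W.Point →+ W.Point)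

/-- `τ` preserves `E₀` when `σ` preserves the valuation. -/
theorem tau_inE0 (hσv : ∀ x, v (σ x) = v x)
    (hτ : ∀ (x y : K) (h : W.Nonsingular x y),
      ∃ h' : W.Nonsingular (σ x) (σ y), τ (Point.some x y h) = Point.some (σ x) (σ y) h')
    {P : W.Point} (hP : InE0 v P) : InE0 v (τ P) := by
  cases P with
  | zero =>
    have : τ (Point.zero : W.Point) = 0 := by rw [← Point.zero_def]; exact map_zero τ
    rw [this]; trivial
  | some x y h =>
    obtain ⟨h', hτP⟩ := hτ x y h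
    rw [hτP]
    change 1 ≤ v (σ x)
    rw [hσv]
    exact hP

/-- For a `p`-torsion point `P` and an inertia-like, valuation-preserving automorphism,
`τ P - P ∈ E₀` (same valuation of `x` and same branch at the node). -/
theorem tau_sub_inE0_2 (hW : Special2 W) (ha : v W.a₂ ≤ 1) (hD : v (1 + 4 * W.a₂) = 1)
    (hb : v W.a₄ < 1) (hT : W.Nonsingular 0 0)
    (hσ2 : ∀ x, v x ≤ 1 → v (σ x - x) < 1) (hσv : ∀ x, v (σ x) = v x)
    (hτ : ∀ (x y : K) (h : W.Nonsingular x y),
      ∃ h' : W.Nonsingular (σ x) (σ y), τ (Point.some x y h) = Point.some (σ x) (σ y) h')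
    {p : ℕ} (hp : p.Prime) (hp2 : p ≠ 2) {P : W.Point} (hpP : p • P = 0) :
    InE0 v (τ P - P) := by
  by_cases hP0 : InE0 v P
  · exact inE0_sub2 v hW ha hb (tau_inE0 v σ τ hσv hτ hP0) hP0
  · have h1 : ¬ (p : ℤ) ∣ 1 := by
      intro h
      have h' : p ∣ 1 := by exact_mod_cast h
      exact hp.one_lt.ne' (Nat.dvd_one.1 h')
    obtain ⟨x, y, h, e, hx0, hx, hbx⟩ := near_node2 v hW ha hb hT hp hp2 hpP hP0 h1
    rw [one_smul] at e
    subst e
    obtain ⟨h', hτP⟩ := hτ x y h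
    rw [hτP]
    have hσx0 : σ x ≠ 0 := by
      intro h0
      have := hσv x
      rw [h0, map_zero] at this
      exact hx0 ((Valuation.zero_iff v).1 this.symm)
    have ht := branch_int v hW ha h hx0 hx hbx
    refine same_branch_sub_inE0 v hW hD h' h hσx0 hx0 (hσv x) (by rw [hσv]; exact hx)
      (by rw [hσv]; exact hbx) ?_
    rw [← map_div₀]
    exact hσ2 _ ht

/-- Inertia acts unipotently on the `p`-torsion: `(τ - 1)² = 0`. -/
theorem tau_sub_fixed_2 (hW : Special2 W) (ha : v W.a₂ ≤ 1) (hb : v W.a₄ < 1)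
    (hT : W.Nonsingular 0 0) (h2 : v (2 : K) < 1)
    (hσ1' : ∀ x, 1 < v x → 1 < v (σ x)) (hσ1 : ∀ x, v x ≤ 1 → v (σ x) ≤ 1)
    (hσ2 : ∀ x, v x ≤ 1 → v (σ x - x) < 1) (hσv : ∀ x, v (σ x) = v x)
    (hτ : ∀ (x y : K) (h : W.Nonsingular x y),
      ∃ h' : W.Nonsingular (σ x) (σ y), τ (Point.some x y h) = Point.some (σ x) (σ y) h')
    {p : ℕ} (hp : p.Prime) (hp2 : p ≠ 2) (hpv : v (p : K) = 1) {P : W.Point} (hpP : p • P = 0) :
    τ (τ P - P) = τ P - P := by
  have hD := unit_one_add_four_mul v h2 ha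
  have hR := tau_sub_inE0_2 v σ τ hW ha hD hb hT hσ2 hσv hτ hp hp2 hpP
  refine fixed_of_inE0_2 v σ τ hW ha (le_of_lt hb) h2 hσ1' hσ1 hσ2 hτ hR p hpv ?_
  have : p • (τ P - P) = 0 := by
    rw [nsmul_sub, ← map_nsmul, hpP, map_zero, sub_zero]
  rw [this, map_zero]

end Sigma

end Fermat.Agent.S13
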