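import Fermat.Agent.S13.TwoToric

set_option autoImplicit false
set_option linter.unusedSectionVars false

/-!
# Project S13, 2-adic core: the `p`-torsion of `E₀` is cyclic (counting step)
-/

namespace Fermat.Agent.S13

open WeierstrassCurve WeierstrassCurve.Affine
open Fermat.Agent.S05 (xc InE1 InE0)

section Group

variable {G : Type*} [AddCommGroup G]

theorem eq_zsmul_of_not_dvd {p : ℕ} (hp : p.Prime) {A B : G} (hA : p • A = 0) {m : ℤ}
    (hm : ¬ (p : ℤ) ∣ m) (h : m • A = B) : ∃ t : ℤ, A = t • B := by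
  have hcop : IsCoprime (p : ℤ) m :=
    ((Nat.prime_iff_prime_int.1 hp).irreducible.coprime_iff_not_dvd).2 hm
  obtain ⟨s, t, hst⟩ := hcop
  refine ⟨t, ?_⟩
  calc A = (1 : ℤ) • A := (one_smul ℤ A).symm
    _ = (s * p + t * m) • A := by rw [hst]
    _ = t • B := by
      rw [add_smul, mul_smul, mul_smul, natCast_zsmul, hA, smul_zero, zero_add, h]

/-- The grid map `(i, j) ↦ iP + jQ` is injective on `[0,p)²` when `P ≠ 0` and `Q ∉ ℤP`. -/
theorem grid_injOn {p : ℕ} (hp : p.Prime) {P Q : G} (hpP : p • P = 0) (hpQ : p • Q = 0)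
    (hP0 : P ≠ 0) (hQ : ∀ j : ℤ, Q ≠ j • P) {i j i' j' : ℕ} (hi : i < p) (hj : j < p)
    (hi' : i' < p) (hj' : j' < p) (h : i • P + j • Q = i' • P + j' • Q) : i = i' ∧ j = j' := by
  have h1 : ((j : ℤ) - j') • Q = ((i' : ℤ) - i) • P := by
    rw [sub_smul, sub_smul, natCast_zsmul, natCast_zsmul, natCast_zsmul, natCast_zsmul,
      sub_eq_sub_iff_add_eq_add]
    rw [add_comm (j • Q)]
    exact h
  have hjj : j = j' := by
    by_contra hne
    have hnd : ¬ (p : ℤ) ∣ (j : ℤ) - j' := by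
      intro hd
      have := Int.eq_zero_of_abs_lt_dvd hd (by rw [abs_lt]; constructor <;> omega)
      omega
    obtain ⟨t, ht⟩ := eq_zsmul_of_not_dvd hp hpQ hnd h1
    exact hQ (t * (i' - i)) (by rw [ht, mul_smul])
  subst hjj
  refine ⟨?_, rfl⟩
  by_contra hne
  have hnd : ¬ (p : ℤ) ∣ (i' : ℤ) - i := by
    intro hd
    have := Int.eq_zero_of_abs_lt_dvd hd (by rw [abs_lt]; constructor <;> omega)
    omega
  have h2 : ((i' : ℤ) - i) • P = 0 := by rw [← h1, sub_self, zero_smul]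
  obtain ⟨t, ht⟩ := eq_zsmul_of_not_dvd hp hpP hnd h2
  rw [smul_zero] at ht
  exact hP0 ht

/-- Reduce an integer multiple of a `p`-torsion element to a multiple in `[0, p)`. -/
theorem exists_nat_lt_zsmul {p : ℕ} (hp : 0 < p) {P : G} (hpP : p • P = 0) (n : ℤ) :
    ∃ j : ℕ, j < p ∧ n • P = j • P := by
  have hp' : (0 : ℤ) < p := by exact_mod_cast hp
  refine ⟨(n % p).toNat, ?_, ?_⟩
  · have := Int.emod_lt_of_pos n hp'
    have h0 := Int.emod_nonneg n (ne_of_gt hp')
    omega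
  · have h0 := Int.emod_nonneg n (ne_of_gt hp')
    have e : n = (p : ℤ) * (n / p) + ((n % p).toNat : ℤ) := by
      rw [Int.toNat_of_nonneg h0]
      exact (Int.mul_ediv_add_emod n p).symm
    conv_lhs => rw [e]
    rw [add_smul, mul_comm, mul_smul, natCast_zsmul, hpP, smul_zero, zero_add, natCast_zsmul]

end Group

variable {K : Type*} [Field K] [DecidableEq K] {Γ₀ : Type*} [LinearOrderedCommGroupWithZero Γ₀]
  (v : Valuation K Γ₀) {W : WeierstrassCurve.Affine K}

/-- **The `p`-torsion of `E₀` is cyclic** (multiplicative reduction in residue characteristic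
two, `p` odd). -/
theorem inE0_torsion_cyclic (hW : Special2 W) (ha : v W.a₂ ≤ 1) (hb : v W.a₄ < 1)
    (h2 : v (2 : K) < 1) {p : ℕ} (hp : p.Prime) (hp2 : p ≠ 2) (hpv : v (p : K) = 1)
    {P Q : W.Point} (hP : InE0 v P) (hQ : InE0 v Q) (hpP : p • P = 0) (hpQ : p • Q = 0)
    (hP0 : P ≠ 0) : ∃ j : ℤ, Q = j • P := by
  classical
  by_contra hcon0
  have hcon : ∀ j : ℤ, Q ≠ j • P := not_exists.1 hcon0
  set φ : ℕ × ℕ → W.Point := fun ij => ij.1 • P + ij.2 • Q with hφ
  set s : Finset (ℕ × ℕ) := Finset.range p ×ˢ Finset.range p with hs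
  set f : ℕ × ℕ → ResK v := fun ij => lam v (φ ij) with hf
  have hφE : ∀ ij, InE0 v (φ ij) := fun ij =>
    inE0_add2 v hW ha hb (inE0_nsmul2 v hW ha hb hP _) (inE0_nsmul2 v hW ha hb hQ _)
  have hφp : ∀ ij, p • φ ij = 0 := fun ij => by
    simp only [hφ]
    rw [smul_add, smul_comm p ij.1 P, smul_comm p ij.2 Q, hpP, hpQ, smul_zero, smul_zero,
      add_zero]
  have hφinj : ∀ a ∈ s, ∀ b ∈ s, φ a = φ b → a = b := by
    rintro ⟨i, j⟩ ha' ⟨i', j'⟩ hb' h
    rw [hs, Finset.mem_product, Finset.mem_range, Finset.mem_range] at ha' hb'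
    obtain ⟨h1, h2'⟩ := grid_injOn hp hpP hpQ hP0 hcon ha'.1 ha'.2 hb'.1 hb'.2 h
    exact Prod.ext h1 h2'
  have hp1 : 1 ≤ p := hp.one_le
  set T : Polynomial (ResK v) := Polynomial.Chebyshev.C (ResK v) (p : ℤ) - 2 with hT
  have hT0 : T ≠ 0 := cheb_sub_two_ne_zero _ hp1
  have hroot : ∀ ij, f ij ∈ T.roots.toFinset := by
    intro ij
    rw [Multiset.mem_toFinset, Polynomial.mem_roots hT0, Polynomial.IsRoot.def, hT,
      Polynomial.eval_sub, ← lam_nsmul v hW ha hb (hφE ij) p, hφp ij, lam_zero]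
    simp
  have himg : s.image f ⊆ T.roots.toFinset := by
    intro a ha'
    obtain ⟨ij, -, rfl⟩ := Finset.mem_image.1 ha'
    exact hroot ij
  have hcard_img : (s.image f).card ≤ p := by
    calc (s.image f).card ≤ T.roots.toFinset.card := Finset.card_le_card himg
      _ ≤ Multiset.card T.roots := Multiset.toFinset_card_le _
      _ ≤ T.natDegree := Polynomial.card_roots' T
      _ = p := cheb_sub_two_natDegree _ hp1
  have hfib : ∀ a ∈ s.image f, (s.filter fun x => f x = a).card ≤ 2 := by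
    intro a _
    by_contra hgt
    rw [not_le, Finset.two_lt_card] at hgt
    obtain ⟨x, hx, y, hy, z, hz, hxy, hxz, hyz⟩ := hgt
    rw [Finset.mem_filter] at hx hy hz
    have hyx : φ y = φ x ∨ φ y = -φ x :=
      eq_or_eq_neg_of_lam_eq v hW ha hb h2 hpv (hφE x) (hφE y) (hφp x) (hφp y)
        (show f x = f y by rw [hx.2, hy.2])
    have hzx : φ z = φ x ∨ φ z = -φ x :=
      eq_or_eq_neg_of_lam_eq v hW ha hb h2 hpv (hφE x) (hφE z) (hφp x) (hφp z)
        (show f x = f z by rw [hx.2, hz.2])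
    rcases hyx with h1 | h1
    · exact hxy (hφinj x hx.1 y hy.1 h1.symm)
    rcases hzx with h3 | h3
    · exact hxz (hφinj x hx.1 z hz.1 h3.symm)
    · exact hyz (hφinj y hy.1 z hz.1 (by rw [h1, h3]))
  have hcard := Finset.card_le_mul_card_image s 2 hfib
  have hs_card : s.card = p * p := by rw [hs, Finset.card_product, Finset.card_range]
  rw [hs_card] at hcard
  have hle : p * p ≤ 2 * p := hcard.trans (Nat.mul_le_mul_left 2 hcard_img)
  have hp3 : 3 ≤ p := by
    have := hp.two_le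
    omega
  nlinarith

end Fermat.Agent.S13
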