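import Mathlib
import Fermat.Agent.S05.Formulas

set_option autoImplicit false
set_option linter.unusedSectionVars false

/-!
# Project S13, 2-adic core: addition formulas on `Y² + XY = X³ + a₂X² + a₄X`
-/

namespace Fermat.Agent.S13

open WeierstrassCurve WeierstrassCurve.Affine

variable {K : Type*} [Field K] (W : WeierstrassCurve.Affine K)

/-- The curve has the shape `Y² + XY = X³ + a₂X² + a₄X`. -/
def Special2 : Prop := W.a₁ = 1 ∧ W.a₃ = 0 ∧ W.a₆ = 0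

variable {W}

theorem eqn_iff2 (hW : Special2 W) (x y : K) :
    W.Equation x y ↔ y ^ 2 + x * y = x ^ 3 + W.a₂ * x ^ 2 + W.a₄ * x := by
  obtain ⟨h1, h3, h6⟩ := hW
  rw [Affine.equation_iff, h1, h3, h6]
  constructor <;> intro h <;> linear_combination h

theorem eqn_of_nonsingular2 (hW : Special2 W) {x y : K} (h : W.Nonsingular x y) :
    y ^ 2 + x * y = x ^ 3 + W.a₂ * x ^ 2 + W.a₄ * x :=
  (eqn_iff2 hW x y).1 h.1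

theorem negY_eq2 (hW : Special2 W) (x y : K) : W.negY x y = -y - x := by
  obtain ⟨h1, h3, h6⟩ := hW
  simp [Affine.negY, h1, h3]

variable [DecidableEq K]

theorem neg_some_eq2 (hW : Special2 W) {x y : K} (h : W.Nonsingular x y) :
    ∃ h' : W.Nonsingular x (-y - x), -(Point.some x y h) = Point.some x (-y - x) h' := by
  rw [Point.neg_some]
  exact S05.some_congr rfl (negY_eq2 hW x y) _

/-- The addition formulas on `Y² + XY = X³ + a₂X² + a₄X` in the form we need. -/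
theorem add_formula2 (hW : Special2 W) {x₁ y₁ x₂ y₂ : K} (h₁ : W.Nonsingular x₁ y₁)
    (h₂ : W.Nonsingular x₂ y₂) (hne : ¬(x₁ = x₂ ∧ y₁ = -y₂ - x₂)) :
    ∃ (x₃ y₃ : K) (h₃ : W.Nonsingular x₃ y₃),
      Point.some x₁ y₁ h₁ + Point.some x₂ y₂ h₂ = Point.some x₃ y₃ h₃ ∧
      x₃ * (x₂ * y₁ + x₁ * y₂ + x₁ * x₂) ^ 2 = x₁ * x₂ * (x₁ * x₂ - W.a₄) ^ 2 ∧
      x₃ * (x₁ * x₂ * (x₁ - x₂) ^ 2) = (x₂ * y₁ - x₁ * y₂) ^ 2 ∧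
      (x₁ ≠ x₂ → x₃ = ((y₁ - y₂) / (x₁ - x₂)) ^ 2 + (y₁ - y₂) / (x₁ - x₂) - W.a₂ - x₁ - x₂) ∧
      (x₁ = x₂ → x₃ * (2 * y₁ + x₁) ^ 2 = (x₁ ^ 2 - W.a₄) ^ 2) := by
  have e₁ := eqn_of_nonsingular2 hW h₁
  have e₂ := eqn_of_nonsingular2 hW h₂
  have hxy : ¬(x₁ = x₂ ∧ y₁ = W.negY x₂ y₂) := by rwa [negY_eq2 hW]
  refine ⟨_, _, _, Point.add_some hxy, ?_⟩
  obtain ⟨h1, h3, h6⟩ := hW
  by_cases hx : x₁ = x₂
  · subst hx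
    have hy : y₁ ≠ W.negY x₁ y₂ := fun h => hxy ⟨rfl, h⟩
    have hy' : y₁ ≠ -y₂ - x₁ := fun h => hne ⟨rfl, h⟩
    have hyy : y₁ = y₂ := by
      have : (y₁ - y₂) * (y₁ + y₂ + x₁) = 0 := by linear_combination e₁ - e₂
      rcases mul_eq_zero.1 this with h | h
      · exact sub_eq_zero.1 h
      · exact absurd (by linear_combination h) hy'
    subst hyy
    have hy2 : y₁ - W.negY x₁ y₁ ≠ 0 := sub_ne_zero.2 hy
    have hsl : W.slope x₁ x₁ y₁ y₁ =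
        (3 * x₁ ^ 2 + 2 * W.a₂ * x₁ + W.a₄ - W.a₁ * y₁) / (y₁ - W.negY x₁ y₁) :=
      Affine.slope_of_Y_ne rfl hy
    have hneg : W.negY x₁ y₁ = -y₁ - x₁ := by simp [Affine.negY, h1, h3]
    rw [hneg] at hy2 hsl
    have hd : 2 * y₁ + x₁ ≠ 0 := by
      intro h0; apply hy2; linear_combination h0
    rw [h1] at hsl
    have hX : W.addX x₁ x₁ (W.slope x₁ x₁ y₁ y₁) * (2 * y₁ + x₁) ^ 2 = (x₁ ^ 2 - W.a₄) ^ 2 := by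
      have this : y₁ - (-y₁ - x₁) = 2 * y₁ + x₁ := by ring
      rw [this] at hsl
      have hl : W.slope x₁ x₁ y₁ y₁ * (2 * y₁ + x₁) = 3 * x₁ ^ 2 + 2 * W.a₂ * x₁ + W.a₄ - y₁ := by
        rw [hsl]; field_simp
      have key : (3 * x₁ ^ 2 + 2 * W.a₂ * x₁ + W.a₄ - y₁) ^ 2
          + (3 * x₁ ^ 2 + 2 * W.a₂ * x₁ + W.a₄ - y₁) * (2 * y₁ + x₁)
          - (W.a₂ + 2 * x₁) * (2 * y₁ + x₁) ^ 2
          = (x₁ ^ 2 - W.a₄) ^ 2 := by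
        linear_combination (-(4 * W.a₂) - 8 * x₁ - 1) * e₁
      rw [Affine.addX, h1, ← key, ← hl]
      ring
    refine ⟨?_, ?_, fun h => absurd rfl h, fun _ => hX⟩
    · have : W.addX x₁ x₁ (W.slope x₁ x₁ y₁ y₁) * (x₁ * y₁ + x₁ * y₁ + x₁ * x₁) ^ 2
          = x₁ ^ 2 * (W.addX x₁ x₁ (W.slope x₁ x₁ y₁ y₁) * (2 * y₁ + x₁) ^ 2) := by ring
      rw [this, hX]; ring
    · ring
  · have hsl : W.slope x₁ x₂ y₁ y₂ = (y₁ - y₂) / (x₁ - x₂) := Affine.slope_of_X_ne hx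
    have hd : x₁ - x₂ ≠ 0 := sub_ne_zero.2 hx
    have hX : W.addX x₁ x₂ (W.slope x₁ x₂ y₁ y₂) =
        ((y₁ - y₂) / (x₁ - x₂)) ^ 2 + (y₁ - y₂) / (x₁ - x₂) - W.a₂ - x₁ - x₂ := by
      rw [Affine.addX, hsl, h1]; ring
    refine ⟨?_, ?_, fun _ => hX, fun h => absurd h hx⟩
    · rw [hX]
      have key : ((y₁ - y₂) ^ 2 + (y₁ - y₂) * (x₁ - x₂) - (W.a₂ + x₁ + x₂) * (x₁ - x₂) ^ 2)
            * (x₂ * y₁ + x₁ * y₂ + x₁ * x₂) ^ 2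
          = x₁ * x₂ * (x₁ * x₂ - W.a₄) ^ 2 * (x₁ - x₂) ^ 2 := by
        grind
      field_simp
      linear_combination key
    · rw [hX]
      have key : ((y₁ - y₂) ^ 2 + (y₁ - y₂) * (x₁ - x₂) - (W.a₂ + x₁ + x₂) * (x₁ - x₂) ^ 2)
            * (x₁ * x₂)
          = (x₂ * y₁ - x₁ * y₂) ^ 2 := by
        grind
      field_simp
      linear_combination key

/-- The subtraction formulas. -/
theorem sub_formula2 (hW : Special2 W) {x₁ y₁ x₂ y₂ : K} (h₁ : W.Nonsingular x₁ y₁)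
    (h₂ : W.Nonsingular x₂ y₂) (hne : ¬(x₁ = x₂ ∧ y₁ = y₂)) :
    ∃ (x₃ y₃ : K) (h₃ : W.Nonsingular x₃ y₃),
      Point.some x₁ y₁ h₁ - Point.some x₂ y₂ h₂ = Point.some x₃ y₃ h₃ ∧
      x₃ * (x₂ * y₁ - x₁ * y₂) ^ 2 = x₁ * x₂ * (x₁ * x₂ - W.a₄) ^ 2 ∧
      x₃ * (x₁ * x₂ * (x₁ - x₂) ^ 2) = (x₂ * y₁ + x₁ * y₂ + x₁ * x₂) ^ 2 ∧
      (x₁ ≠ x₂ → x₃ = ((y₁ + y₂ + x₂) / (x₁ - x₂)) ^ 2 + (y₁ + y₂ + x₂) / (x₁ - x₂)
        - W.a₂ - x₁ - x₂) ∧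
      (x₁ = x₂ → x₃ * (2 * y₁ + x₁) ^ 2 = (x₁ ^ 2 - W.a₄) ^ 2) := by
  obtain ⟨h₂', hneg⟩ := neg_some_eq2 hW h₂
  have hne' : ¬(x₁ = x₂ ∧ y₁ = -(-y₂ - x₂) - x₂) := by
    have : -(-y₂ - x₂) - x₂ = y₂ := by ring
    rwa [this]
  obtain ⟨x₃, y₃, h₃, hadd, hN, hM, hch, hdb⟩ := add_formula2 hW h₁ h₂' hne'
  refine ⟨x₃, y₃, h₃, ?_, ?_, ?_, ?_, hdb⟩
  · rw [sub_eq_add_neg, hneg, hadd]
  · rw [← hN]; ring
  · rw [hM]; ring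
  · intro hx
    rw [hch hx]; ring

end Fermat.Agent.S13
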