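import Fermat.Agent.S13.TwoCore6

set_option autoImplicit false
set_option linter.unusedSectionVars false

/-!
# Project S13, 2-adic core: the quotient of the `p`-torsion by its part in `E₀` is cyclic.
Model `Y² + XY = X³ + a₂X² + a₄X`.
-/

namespace Fermat.Agent.S13

open WeierstrassCurve WeierstrassCurve.Affine
open Fermat.Agent.S05 (xc InE1 InE0 ord ord_of_ne ord_mul ord_pow ord_pos_iff ord_lt_iff ord_eq_iff
  ord_eq_zero_iff ord_sub_of_ne ord_zero not_dvd_natCast not_dvd_two_mul sawtooth xc_neg)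

variable {K : Type*} [Field K] [DecidableEq K] {Γ₀ : Type*} [LinearOrderedCommGroupWithZero Γ₀]
  (v : Valuation K Γ₀) {W : WeierstrassCurve.Affine K}

section Quot

variable (hW : Special2 W) (ha : v W.a₂ ≤ 1) (hD : v (1 + 4 * W.a₂) = 1) (hb : v W.a₄ < 1)
  (hb0 : W.a₄ ≠ 0) (hT : W.Nonsingular 0 0)
  {p : ℕ} (hp : p.Prime) (hp2 : p ≠ 2) {P : W.Point} (hpP : p • P = 0) (hP0 : ¬ InE0 v P)

include hW ha hD hb hb0 hT hp hp2 hpP hP0

/-- The commensurability index of a `p`-torsion point outside `E₀` lies in `[1, (p-1)/2]`. -/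
theorem torsion_val2_nat :
    ∃ k : ℕ, 1 ≤ k ∧ 2 * k < p ∧ p • ord v (xc P) = (2 * k) • ord v W.a₄ := by
  have hn0 : 0 < ord v W.a₄ := (ord_pos_iff v hb0).2 hb
  obtain ⟨k, hk⟩ := torsion_val2 v hW ha hD hb hb0 hT hp hp2 hpP hP0
  have h1 : ¬ (p : ℤ) ∣ 1 := by
    have := not_dvd_natCast (p := p) (m := 1) le_rfl hp.one_lt
    simpa using this
  have hbd := ord_bounds2 v hW ha hD hb hb0 hT hp hp2 hpP hP0 h1
  rw [one_smul] at hbd
  have hpos : 0 < p • ord v (xc P) := nsmul_pos hbd.1 hp.ne_zero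
  have hlt : p • ord v (xc P) < p • ord v W.a₄ := nsmul_lt_nsmul_right hp.ne_zero hbd.2
  rw [hk] at hpos hlt
  have hk0 : 0 < 2 * k := by
    rw [← zero_zsmul (ord v W.a₄)] at hpos
    exact (zsmul_lt_zsmul_iff_left hn0).1 hpos
  have hkp : 2 * k < (p : ℤ) := by
    rw [← natCast_zsmul] at hlt
    exact (zsmul_lt_zsmul_iff_left hn0).1 hlt
  refine ⟨k.toNat, by omega, by omega, ?_⟩
  rw [hk, ← natCast_zsmul]
  congr 1
  push_cast
  omega

/-- The quotient of the `p`-torsion by its part in `E₀` is cyclic, generated by any point outside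
`E₀`. -/
theorem quot_cyclic {Q : W.Point} (hpQ : p • Q = 0) : ∃ m : ℤ, InE0 v (Q - m • P) := by
  by_cases hQ0 : InE0 v Q
  · exact ⟨0, by simpa using hQ0⟩
  have hn0 : 0 < ord v W.a₄ := (ord_pos_iff v hb0).2 hb
  have hp3 : 3 ≤ p := by
    have := hp.two_le
    omega
  have key : ∀ R : W.Point, ∃ k : ℕ, p • R = 0 → ¬ InE0 v R →
      (1 ≤ k ∧ 2 * k < p ∧ p • ord v (xc R) = (2 * k) • ord v W.a₄) := by
    intro R
    by_cases hR : p • R = 0 ∧ ¬ InE0 v R
    · obtain ⟨k, hk⟩ := torsion_val2_nat v hW ha hD hb hb0 hT hp hp2 hR.1 hR.2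
      exact ⟨k, fun _ _ => hk⟩
    · exact ⟨0, fun h1 h2 => absurd ⟨h1, h2⟩ hR⟩
  choose kf hkf using key
  -- the points
  set f : ℕ → W.Point := fun i => if i = 0 then Q else (i : ℤ) • P with hf
  have hfp : ∀ i, p • f i = 0 := by
    intro i
    by_cases hi : i = 0
    · simp [hf, hi, hpQ]
    · simp only [hf, if_neg hi]
      rw [natCast_zsmul, smul_comm, hpP, smul_zero]
  have hf0 : ∀ i, i < p → ¬ InE0 v (f i) := by
    intro i hi
    by_cases hi0 : i = 0
    · simpa [hf, hi0] using hQ0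
    · simp only [hf, if_neg hi0]
      exact not_inE0_zsmul2 v hW ha hb hp hpP hP0 (not_dvd_natCast (by omega) hi)
  have hmaps : ∀ i ∈ Finset.range ((p - 1) / 2 + 1),
      kf (f i) ∈ Finset.Icc 1 ((p - 1) / 2) := by
    intro i hi
    rw [Finset.mem_range] at hi
    obtain ⟨h1, h2, -⟩ := hkf (f i) (hfp i) (hf0 i (by omega))
    rw [Finset.mem_Icc]
    omega
  have hcard : (Finset.Icc 1 ((p - 1) / 2)).card < (Finset.range ((p - 1) / 2 + 1)).card := by
    simp
  obtain ⟨i, hi, j, hj, hij, hkij⟩ := Finset.exists_ne_map_eq_of_card_lt_of_maps_to hcard hmaps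
  rw [Finset.mem_range] at hi hj
  -- the two points have the same valuation
  have hord : ord v (xc (f i)) = ord v (xc (f j)) := by
    obtain ⟨-, -, e1⟩ := hkf (f i) (hfp i) (hf0 i (by omega))
    obtain ⟨-, -, e2⟩ := hkf (f j) (hfp j) (hf0 j (by omega))
    have : p • ord v (xc (f i)) = p • ord v (xc (f j)) := by rw [e1, e2, hkij]
    exact nsmul_right_injective hp.ne_zero this
  -- reduce to `i < j`
  have main : ∀ i j : ℕ, i < j → j < (p - 1) / 2 + 1 → ord v (xc (f i)) = ord v (xc (f j)) →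
      ∃ m : ℤ, InE0 v (Q - m • P) := by
    intro i j hij hj hord
    have hj0 : j ≠ 0 := by omega
    have hjp : ¬ (p : ℤ) ∣ (j : ℤ) := not_dvd_natCast (by omega) (by omega)
    have h1 : ¬ (p : ℤ) ∣ 1 := by
      have := not_dvd_natCast (p := p) (m := 1) le_rfl hp.one_lt
      simpa using this
    by_cases hi0 : i = 0
    · subst hi0
      simp only [hf, if_true, if_neg hj0] at hord
      obtain ⟨x₁, y₁, h₁, e₁, hx₁0, hx₁, hbx₁⟩ := near_node2 v hW ha hb hT hp hp2 hpQ hQ0 h1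
      obtain ⟨x₂, y₂, h₂, e₂, hx₂0, hx₂, hbx₂⟩ := near_node2 v hW ha hb hT hp hp2 hpP hP0 hjp
      rw [one_smul] at e₁
      rw [e₁, e₂] at hord
      have hval : v x₁ = v x₂ := (ord_eq_iff v hx₁0 hx₂0).1 hord
      rcases same_val_inE0_2 v hW ha hD h₁ h₂ hx₁0 hx₂0 hval hx₁ hbx₁ with h | h
      · exact ⟨j, by rw [e₁, e₂]; exact h⟩
      · refine ⟨-(j : ℤ), ?_⟩
        rw [neg_smul, sub_neg_eq_add, e₁, e₂]
        exact h
    · exfalso
      simp only [hf, if_neg hi0, if_neg hj0] at hord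
      have hip : ¬ (p : ℤ) ∣ (i : ℤ) := not_dvd_natCast (by omega) (by omega)
      obtain ⟨x₁, y₁, h₁, e₁, hx₁0, hx₁, hbx₁⟩ := near_node2 v hW ha hb hT hp hp2 hpP hP0 hip
      obtain ⟨x₂, y₂, h₂, e₂, hx₂0, hx₂, hbx₂⟩ := near_node2 v hW ha hb hT hp hp2 hpP hP0 hjp
      have hval : v (xc ((i : ℤ) • P)) = v (xc ((j : ℤ) • P)) := by
        rw [e₁, e₂] at hord ⊢
        exact (ord_eq_iff v hx₁0 hx₂0).1 hord
      rcases dvd_of_same_val2 v hW ha hD hb hT hp hp2 hpP hP0 hip hjp hval with h | h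
      · have h' : (p : ℤ) ∣ (j : ℤ) - i := by
          have := dvd_neg.2 h
          rwa [neg_sub] at this
        have := Int.le_of_dvd (by omega) h'
        omega
      · have := Int.le_of_dvd (by omega) h
        omega
  rcases lt_or_gt_of_ne hij with h | h
  · exact main i j h hj hord
  · exact main j i h hi hord.symm

end Quot

end Fermat.Agent.S13
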