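import Fermat.Agent.S13.TwoCyclic
import Fermat.Agent.S13.TwoQuot

set_option autoImplicit false
set_option linter.unusedSectionVars false

/-!
# Project S13, 2-adic core: the `p`-torsion is generated by two elements
-/

namespace Fermat.Agent.S13

open WeierstrassCurve WeierstrassCurve.Affine
open Fermat.Agent.S05 (xc InE1 InE0)

variable {K : Type*} [Field K] [DecidableEq K] {Γ₀ : Type*} [LinearOrderedCommGroupWithZero Γ₀]
  (v : Valuation K Γ₀) {W : WeierstrassCurve.Affine K}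

/-- **Two generators.** With multiplicative reduction in residue characteristic two, the
`p`-torsion (`p` odd, a unit) is generated by two elements. -/
theorem torsion_two_gen (hW : Special2 W) (ha : v W.a₂ ≤ 1) (hb : v W.a₄ < 1) (hb0 : W.a₄ ≠ 0)
    (h2 : v (2 : K) < 1) {p : ℕ} (hp : p.Prime) (hp2 : p ≠ 2) (hpv : v (p : K) = 1) :
    ∃ P₁ P₂ : W.Point, p • P₁ = 0 ∧ p • P₂ = 0 ∧
      ∀ Q : W.Point, p • Q = 0 → ∃ i j : ℕ, Q = i • P₁ + j • P₂ := by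
  have hT := nonsingular_T2 hW hb0
  have hD := unit_one_add_four_mul v h2 ha
  -- the part in `E₀` is generated by one element
  obtain ⟨Q₀, hpQ₀, hgen₀⟩ : ∃ Q₀ : W.Point, p • Q₀ = 0 ∧
      ∀ R : W.Point, p • R = 0 → InE0 v R → ∃ j : ℕ, R = j • Q₀ := by
    by_cases h : ∃ Q₀ : W.Point, p • Q₀ = 0 ∧ InE0 v Q₀ ∧ Q₀ ≠ 0
    · obtain ⟨Q₀, hpQ₀, hQ₀E, hQ₀0⟩ := h
      refine ⟨Q₀, hpQ₀, fun R hpR hRE => ?_⟩
      obtain ⟨j, hj⟩ := inE0_torsion_cyclic v hW ha hb h2 hp hp2 hpv hQ₀E hRE hpQ₀ hpR hQ₀0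
      obtain ⟨j', -, hj'⟩ := exists_nat_lt_zsmul hp.pos hpQ₀ j
      exact ⟨j', by rw [hj, hj']⟩
    · refine ⟨0, smul_zero p, fun R hpR hRE => ⟨0, ?_⟩⟩
      by_contra hR0
      apply h
      refine ⟨R, hpR, hRE, ?_⟩
      intro h0
      apply hR0
      rw [h0, smul_zero]
  by_cases h1 : ∃ P : W.Point, p • P = 0 ∧ ¬ InE0 v P
  · obtain ⟨P, hpP, hP0⟩ := h1
    refine ⟨P, Q₀, hpP, hpQ₀, fun Q hpQ => ?_⟩
    obtain ⟨m, hm⟩ := quot_cyclic v hW ha hD hb hb0 hT hp hp2 hpP hP0 hpQ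
    have hpR : p • (Q - m • P) = 0 := by
      rw [smul_sub, hpQ, smul_comm, hpP, smul_zero, sub_zero]
    obtain ⟨j, hj⟩ := hgen₀ _ hpR hm
    obtain ⟨i, -, hi⟩ := exists_nat_lt_zsmul hp.pos hpP m
    refine ⟨i, j, ?_⟩
    rw [← hi, ← hj]
    abel
  · refine ⟨0, Q₀, smul_zero p, hpQ₀, fun Q hpQ => ?_⟩
    have hQE : InE0 v Q := by
      by_contra hcon
      exact h1 ⟨Q, hpQ, hcon⟩
    obtain ⟨j, hj⟩ := hgen₀ Q hpQ hQE
    exact ⟨0, j, by rw [smul_zero, zero_add]; exact hj⟩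

end Fermat.Agent.S13
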