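import Fermat.Agent.S13.TwoQuot
import Fermat.Agent.S13.TwoCore7

set_option autoImplicit false
set_option linter.unusedSectionVars false

/-!
# Project S13, 2-adic core: a curve `Y² + XY = X³ + a₂X² + a₄X` with `v a₄ < 1` at a place above
`2` has no "rational" `p`-torsion point, when `ord a₄ ≡ -4 ord 2 (mod p)`.
-/

namespace Fermat.Agent.S13

open WeierstrassCurve WeierstrassCurve.Affine
open Fermat.Agent.S05 (xc InE1 InE0 ord ord_of_ne ord_mul ord_pow ord_pos_iff ord_lt_iff ord_eq_iff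
  ord_eq_zero_iff ord_zero not_dvd_natCast sm_add sm_sub sm_mul_int)

variable {K : Type*} [Field K] [DecidableEq K] {Γ₀ : Type*} [LinearOrderedCommGroupWithZero Γ₀]
  (v : Valuation K Γ₀) {W : WeierstrassCurve.Affine K}

/-- Abstract form of "no rational `p`-torsion at `2`".  `R` is the rationality predicate: rational
integral elements reduce to `0` or `1` (residue field `𝔽₂`), and the valuation of a nonzero rational
element is an integral power of the valuation of `2`. -/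
theorem no_rat_torsion2 (hW : Special2 W) (ha : v W.a₂ ≤ 1) (h2 : v (2 : K) < 1)
    (h20 : (2 : K) ≠ 0) (hb : v W.a₄ < 1) (hb0 : W.a₄ ≠ 0)
    {p : ℕ} (hp : p.Prime) (hp5 : 5 ≤ p) (hpv : v (p : K) = 1)
    (R : K → Prop)
    (hR1 : ∀ z, R z → v z ≤ 1 → v z < 1 ∨ v (z - 1) < 1)
    (hR2 : ∀ z, R z → z ≠ 0 → ∃ e : ℤ, ord v z = e • ord v (2 : K))
    (β : ℤ) (hβ : ord v W.a₄ = ((p : ℤ) * β - 4) • ord v (2 : K))
    {P : W.Point} (hpP : p • P = 0)
    (hrat : ∀ (m : ℕ) (x y : K) (h : W.Nonsingular x y), m • P = Point.some x y h → R x ∧ R y) :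
    P = 0 := by
  by_contra hP
  have hD : v (1 + 4 * W.a₂) = 1 := unit_one_add_four_mul v h2 ha
  have hT := nonsingular_T2 hW hb0
  have hp2 : p ≠ 2 := by omega
  have ord_dvd : ∀ n : ℕ, n.Coprime p → n • P = 0 → P = 0 := by
    intro n hn hnP
    have h1 : addOrderOf P ∣ n := addOrderOf_dvd_of_nsmul_eq_zero hnP
    have h2 : addOrderOf P ∣ p := addOrderOf_dvd_of_nsmul_eq_zero hpP
    have h3 : addOrderOf P ∣ 1 := by
      have := Nat.dvd_gcd h1 h2
      rwa [Nat.Coprime.gcd_eq_one hn] at this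
    exact AddMonoid.addOrderOf_eq_one_iff.1 (Nat.dvd_one.1 h3)
  have hc2 : Nat.Coprime 2 p := (Nat.coprime_primes Nat.prime_two hp).2 (by omega)
  have hc3 : Nat.Coprime 3 p := (Nat.coprime_primes Nat.prime_three hp).2 (by omega)
  by_cases hP0 : InE0 v P
  · -- `P ∈ E₀`: reduction to the two points `(1, 0)`, `(1, 1)`
    have hE1 : ∀ Q : W.Point, p • Q = 0 → InE1 v Q → Q = 0 := fun Q hQ hE =>
      no_torsion_E1_2 v hW ha hb.le hE p hpv hQ
    have h2P : 2 • P ≠ 0 := fun h => hP (ord_dvd 2 hc2 h)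
    have hp2P : p • (2 • P) = 0 := by rw [smul_comm, hpP, smul_zero]
    have hE2P : InE0 v (2 • P) := inE0_nsmul2 v hW ha hb hP0 2
    have hnE1 : ¬ InE1 v P := fun h => hP (hE1 P hpP h)
    have hnE2 : ¬ InE1 v (2 • P) := fun h => h2P (hE1 _ hp2P h)
    obtain ⟨x₁, y₁, h₁, e₁⟩ : ∃ x y h, P = Point.some x y h := by
      cases hPs : P with
      | zero => exact absurd (by rw [hPs]; rfl) hP
      | some x y h => exact ⟨x, y, h, rfl⟩
    obtain ⟨x₂, y₂, h₂, e₂⟩ : ∃ x y h, 2 • P = Point.some x y h := by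
      cases hPs : 2 • P with
      | zero => exact absurd (by rw [hPs]; rfl) h2P
      | some x y h => exact ⟨x, y, h, rfl⟩
    have hx₁ : v x₁ = 1 := by
      rw [e₁] at hP0 hnE1
      exact le_antisymm (not_lt.1 hnE1) hP0
    have hx₂ : v x₂ = 1 := by
      rw [e₂] at hE2P hnE2
      exact le_antisymm (not_lt.1 hnE2) hE2P
    obtain ⟨rx₁, ry₁⟩ := hrat 1 x₁ y₁ h₁ (by rw [one_nsmul, e₁])
    obtain ⟨rx₂, ry₂⟩ := hrat 2 x₂ y₂ h₂ e₂
    have hy₁ : v y₁ ≤ 1 := val_y_le_one2 v hW ha hb.le h₁ hx₁.le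
    have hy₂ : v y₂ ≤ 1 := val_y_le_one2 v hW ha hb.le h₂ hx₂.le
    have sx₁ : v (x₁ - 1) < 1 := by
      rcases hR1 x₁ rx₁ hx₁.le with h | h
      · rw [hx₁] at h; exact absurd h (lt_irrefl _)
      · exact h
    have sx₂ : v (x₂ - 1) < 1 := by
      rcases hR1 x₂ rx₂ hx₂.le with h | h
      · rw [hx₂] at h; exact absurd h (lt_irrefl _)
      · exact h
    have hx : v (x₂ - x₁) < 1 := by
      have : x₂ - x₁ = (x₂ - 1) - (x₁ - 1) := by ring
      rw [this]; exact sm_sub v sx₂ sx₁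
    have hns : v (2 * y₂ + x₂) = 1 := unit_two_y_add_x v hW ha hb.le h2 h₂ hx₂
    -- the two cases
    have caseA : ¬ v (y₂ - y₁) < 1 := by
      intro hy
      have h := congr_sub_inE1_2 v hW ha h₂ h₁ hx₂.le hx₁.le hx hy hns
      rw [← e₂, ← e₁, two_nsmul, add_sub_cancel_right] at h
      exact hnE1 h
    have caseB : ¬ v (y₂ + y₁ - 1) < 1 := by
      intro hy
      obtain ⟨h', e'⟩ := neg_some_eq2 hW h₁
      have hy' : v (y₂ - (-y₁ - x₁)) < 1 := by
        have : y₂ - (-y₁ - x₁) = (y₂ + y₁ - 1) + (x₁ - 1) + 2 := by ring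
        rw [this]; exact sm_add v (sm_add v hy sx₁) h2
      have h := congr_sub_inE1_2 v hW ha h₂ h' hx₂.le hx₁.le hx hy' hns
      rw [← e', ← e₂, ← e₁, sub_neg_eq_add] at h
      have h3 : (3 : ℕ) • P = 2 • P + P := by rw [succ_nsmul]
      rw [← h3] at h
      have hp3P : p • (3 • P) = 0 := by rw [smul_comm, hpP, smul_zero]
      exact hP (ord_dvd 3 hc3 (hE1 _ hp3P h))
    rcases hR1 y₁ ry₁ hy₁ with s₁ | s₁ <;> rcases hR1 y₂ ry₂ hy₂ with s₂ | s₂
    · exact caseA (sm_sub v s₂ s₁)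
    · apply caseB
      have : y₂ + y₁ - 1 = (y₂ - 1) + y₁ := by ring
      rw [this]; exact sm_add v s₂ s₁
    · apply caseB
      have : y₂ + y₁ - 1 = y₂ + (y₁ - 1) := by ring
      rw [this]; exact sm_add v s₂ s₁
    · apply caseA
      have : y₂ - y₁ = (y₂ - 1) - (y₁ - 1) := by ring
      rw [this]; exact sm_sub v s₂ s₁
  · -- `P ∉ E₀`: the valuation of `x(P)` is not a rational multiple of `ord 2` of the right shape
    obtain ⟨k, hk1, hk2, hk⟩ := torsion_val2_nat v hW ha hD hb hb0 hT hp hp2 hpP hP0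
    have h1 : ¬ (p : ℤ) ∣ 1 := by
      have := not_dvd_natCast (p := p) (m := 1) le_rfl hp.one_lt
      simpa using this
    obtain ⟨x, y, h, e, hx0, -, -⟩ := near_node2 v hW ha hb hT hp hp2 hpP hP0 h1
    rw [one_smul] at e
    obtain ⟨rx, -⟩ := hrat 1 x y h (by rw [one_nsmul, e])
    obtain ⟨e', he'⟩ := hR2 x rx hx0
    have ho2 : 0 < ord v (2 : K) := (ord_pos_iff v h20).2 h2
    rw [e] at hk
    change p • ord v x = (2 * k) • ord v W.a₄ at hk
    rw [he', hβ, ← natCast_zsmul, ← natCast_zsmul (n := 2 * k), smul_smul, smul_smul,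
      zsmul_left_inj ho2] at hk
    have hdvd : (p : ℤ) ∣ ((8 * k : ℕ) : ℤ) := by
      refine ⟨2 * k * β - e', ?_⟩
      push_cast at hk ⊢
      linear_combination hk
    have hdvd' : p ∣ 8 * k := Int.natCast_dvd_natCast.1 hdvd
    rcases (Nat.Prime.dvd_mul hp).1 hdvd' with h8 | hk'
    · have h8' : p ∣ 2 ^ 3 := by simpa using h8
      have := Nat.le_of_dvd (by norm_num) (hp.dvd_of_dvd_pow h8')
      omega
    · have := Nat.le_of_dvd (by omega) hk'
      omega

end Fermat.Agent.S13
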