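import Fermat.Agent.S13.TwoCheb

set_option autoImplicit false
set_option linter.unusedSectionVars false

/-!
# Project S13, 2-adic core: the `p`-torsion of `E₀` is cyclic

The trace `λ̄(P) = D x(P)⁻¹ + 2` of the toric parameter, reduced to the residue field, satisfies
`λ̄(nP) = C_n(λ̄(P))` (Vieta–Lucas polynomial), so the `λ̄`-values of `p`-torsion points of `E₀` are
roots of the degree `p` polynomial `C_p - 2`; as `λ̄` is at most two-to-one on these points, there
are at most `2p < p²` of them. Model `Y² + XY = X³ + a₂X² + a₄X`, residue characteristic two.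
-/

namespace Fermat.Agent.S13

open WeierstrassCurve WeierstrassCurve.Affine
open Fermat.Agent.S05 (xc InE1 InE0 int_add int_sub int_neg int_mul int_pow sm_add sm_sub sm_neg
  sm_mul_int int_mul_sm sm_pow unit_add_sm unit_sub_sm unit_mul unit_pow int_natCast sm_of_sq_sm
  ne_zero_of_unit ne_zero_of_pole sm_inv_of_pole sm_of_mul_unit xc_neg sm_of_mul_sm)

section Red

variable {K : Type*} [Field K] {Γ₀ : Type*} [LinearOrderedCommGroupWithZero Γ₀]
  (v : Valuation K Γ₀)

/-- The residue field of `v`. -/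
abbrev ResK : Type _ := IsLocalRing.ResidueField v.valuationSubring

open Classical in
/-- Reduction modulo the maximal ideal (junk value `0` outside the valuation ring). -/
noncomputable def red (x : K) : ResK v :=
  if h : v x ≤ 1 then IsLocalRing.residue v.valuationSubring ⟨x, h⟩ else 0

theorem red_of_int {x : K} (h : v x ≤ 1) :
    red v x = IsLocalRing.residue v.valuationSubring ⟨x, h⟩ := by
  unfold red; rw [dif_pos h]

theorem red_add {x y : K} (hx : v x ≤ 1) (hy : v y ≤ 1) : red v (x + y) = red v x + red v y := by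
  rw [red_of_int v hx, red_of_int v hy, red_of_int v (int_add v hx hy), ← map_add]
  rfl

theorem red_mul {x y : K} (hx : v x ≤ 1) (hy : v y ≤ 1) : red v (x * y) = red v x * red v y := by
  rw [red_of_int v hx, red_of_int v hy, red_of_int v (int_mul v hx hy), ← map_mul]
  rfl

theorem red_one : red v (1 : K) = 1 := by
  rw [red_of_int v (by simp), ← map_one (IsLocalRing.residue v.valuationSubring)]
  rfl

theorem red_two : red v (2 : K) = 2 := by
  have h1 : v (1 : K) ≤ 1 := by simp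
  have : (2 : K) = 1 + 1 := by norm_num
  rw [this, red_add v h1 h1, red_one]
  norm_num

theorem red_eq_zero_iff {x : K} (hx : v x ≤ 1) : red v x = 0 ↔ v x < 1 := by
  rw [red_of_int v hx, IsLocalRing.residue_eq_zero_iff, IsLocalRing.mem_maximalIdeal,
    mem_nonunits_iff, (Valuation.valuationSubring.integers v).isUnit_iff_valuation_eq_one]
  change ¬ v x = 1 ↔ v x < 1
  constructor
  · intro h; exact lt_of_le_of_ne hx h
  · intro h; exact ne_of_lt h

theorem red_eq_red_iff {x y : K} (hx : v x ≤ 1) (hy : v y ≤ 1) :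
    red v x = red v y ↔ v (x - y) < 1 := by
  rw [← red_eq_zero_iff v (int_sub v hx hy)]
  have : red v (x - y) = red v x - red v y := by
    rw [red_of_int v hx, red_of_int v hy, red_of_int v (int_sub v hx hy), ← map_sub]
    rfl
  rw [this, sub_eq_zero]

end Red

section Cheb

open Polynomial

variable (k : Type*) [Field k]

theorem cheb_monic_aux (n : ℕ) :
    (Chebyshev.C k ((n : ℤ) + 1)).Monic ∧ (Chebyshev.C k ((n : ℤ) + 1)).natDegree = n + 1 ∧
      (Chebyshev.C k (n : ℤ)).natDegree ≤ n := by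
  induction n with
  | zero =>
    refine ⟨?_, ?_, ?_⟩
    · simp only [Nat.cast_zero, zero_add, Chebyshev.C_one]; exact monic_X
    · simp only [Nat.cast_zero, zero_add, Chebyshev.C_one]; exact natDegree_X
    · simp only [Nat.cast_zero, Chebyshev.C_zero]
      exact le_of_eq (natDegree_ofNat 2)
  | succ n ih =>
    obtain ⟨hm, hd, hle⟩ := ih
    have e : Chebyshev.C k (((n + 1 : ℕ) : ℤ) + 1)
        = X * Chebyshev.C k ((n : ℤ) + 1) - Chebyshev.C k (n : ℤ) := by
      have := Chebyshev.C_add_two k (n : ℤ)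
      rw [← this]
      congr 1
    have hXm : (X * Chebyshev.C k ((n : ℤ) + 1)).Monic := monic_X.mul hm
    have hXd : (X * Chebyshev.C k ((n : ℤ) + 1)).natDegree = n + 2 := by
      rw [natDegree_X_mul hm.ne_zero, hd]
    have hlt : (Chebyshev.C k (n : ℤ)).natDegree < (X * Chebyshev.C k ((n : ℤ) + 1)).natDegree := by
      rw [hXd]; omega
    refine ⟨?_, ?_, ?_⟩
    · rw [e]
      exact hXm.sub_of_left (degree_lt_degree hlt)
    · rw [e, natDegree_sub_eq_left_of_natDegree_lt hlt, hXd]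
    · have e' : ((n + 1 : ℕ) : ℤ) = (n : ℤ) + 1 := by push_cast; ring
      rw [e']
      exact le_of_eq hd

theorem cheb_sub_two_ne_zero {p : ℕ} (hp : 1 ≤ p) : Chebyshev.C k (p : ℤ) - 2 ≠ 0 := by
  obtain ⟨n, rfl⟩ : ∃ n, p = n + 1 := ⟨p - 1, by omega⟩
  obtain ⟨hm, hd, -⟩ := cheb_monic_aux k n
  intro h
  have h2 : Chebyshev.C k (((n + 1 : ℕ) : ℤ)) = 2 := sub_eq_zero.1 h
  push_cast at h2
  rw [h2] at hd
  have : (2 : k[X]).natDegree = 0 := natDegree_ofNat 2
  omega

theorem cheb_sub_two_natDegree {p : ℕ} (hp : 1 ≤ p) :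
    (Chebyshev.C k (p : ℤ) - 2).natDegree = p := by
  obtain ⟨n, rfl⟩ : ∃ n, p = n + 1 := ⟨p - 1, by omega⟩
  obtain ⟨hm, hd, -⟩ := cheb_monic_aux k n
  push_cast
  have h2 : (2 : k[X]).natDegree = 0 := natDegree_ofNat 2
  rw [natDegree_sub_eq_left_of_natDegree_lt (by rw [h2, hd]; omega), hd]

end Cheb

variable {K : Type*} [Field K] [DecidableEq K] {Γ₀ : Type*} [LinearOrderedCommGroupWithZero Γ₀]
  (v : Valuation K Γ₀) {W : WeierstrassCurve.Affine K}

/-- The reduced trace of the toric parameter. -/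
noncomputable def lam (P : W.Point) : ResK v := red v ((1 + 4 * W.a₂) * (xc P)⁻¹ + 2)

theorem lam_zero : lam v (0 : W.Point) = 2 := by
  change red v ((1 + 4 * W.a₂) * (0 : K)⁻¹ + 2) = 2
  rw [inv_zero, mul_zero, zero_add, red_two]

theorem lam_neg (P : W.Point) : lam v (-P) = lam v P := by
  unfold lam; rw [xc_neg]

theorem int_lam_arg (ha : v W.a₂ ≤ 1) {P : W.Point} (hP : InE0 v P) :
    v ((1 + 4 * W.a₂) * (xc P)⁻¹ + 2) ≤ 1 :=
  int_add v (int_mul v (int_add v (by simp) (int_mul v (int_four' v) ha)) (int_nu v hP))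
    (int_two' v)

theorem lam_cheb (hW : Special2 W) (ha : v W.a₂ ≤ 1) (hb : v W.a₄ < 1) {P Q : W.Point}
    (hP : InE0 v P) (hQ : InE0 v Q) : lam v (P + Q) + lam v (P - Q) = lam v P * lam v Q := by
  have hPQ := inE0_add2 v hW ha hb hP hQ
  have hPQ' := inE0_sub2 v hW ha hb hP hQ
  have hD : v (1 + 4 * W.a₂) ≤ 1 := int_add v (by simp) (int_mul v (int_four' v) ha)
  unfold lam
  rw [← red_add v (int_lam_arg v ha hPQ) (int_lam_arg v ha hPQ'),
    ← red_mul v (int_lam_arg v ha hP) (int_lam_arg v ha hQ),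
    red_eq_red_iff v (int_add v (int_lam_arg v ha hPQ) (int_lam_arg v ha hPQ'))
      (int_mul v (int_lam_arg v ha hP) (int_lam_arg v ha hQ))]
  have key := nu_cheb v hW ha hb hP hQ
  have : (1 + 4 * W.a₂) * (xc (P + Q))⁻¹ + 2 + ((1 + 4 * W.a₂) * (xc (P - Q))⁻¹ + 2)
      - ((1 + 4 * W.a₂) * (xc P)⁻¹ + 2) * ((1 + 4 * W.a₂) * (xc Q)⁻¹ + 2)
      = (1 + 4 * W.a₂) * ((xc (P + Q))⁻¹ + (xc (P - Q))⁻¹
        - ((1 + 4 * W.a₂) * (xc P)⁻¹ * (xc Q)⁻¹ + 2 * (xc P)⁻¹ + 2 * (xc Q)⁻¹)) := by ring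
  rw [this]
  exact int_mul_sm v hD key

theorem lam_nsmul (hW : Special2 W) (ha : v W.a₂ ≤ 1) (hb : v W.a₄ < 1) {P : W.Point}
    (hP : InE0 v P) (n : ℕ) :
    lam v (n • P) = (Polynomial.Chebyshev.C (ResK v) (n : ℤ)).eval (lam v P) := by
  induction n using Nat.twoStepInduction with
  | zero =>
    rw [zero_nsmul, lam_zero, Nat.cast_zero, Polynomial.Chebyshev.C_zero]
    simp
  | one =>
    rw [one_nsmul, Nat.cast_one, Polynomial.Chebyshev.C_one, Polynomial.eval_X]
  | more n ih0 ih1 =>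
    have h := lam_cheb v hW ha hb (inE0_nsmul2 v hW ha hb hP (n + 1)) hP
    have e1 : (n + 1) • P + P = (n + 2) • P := by
      rw [← succ_nsmul]
    have e2 : (n + 1) • P - P = n • P := by
      rw [succ_nsmul]; abel
    rw [e1, e2] at h
    have e3 : ((n + 2 : ℕ) : ℤ) = (n : ℤ) + 2 := by push_cast; ring
    have e4 : ((n + 1 : ℕ) : ℤ) = (n : ℤ) + 1 := by push_cast; ring
    rw [e3, Polynomial.Chebyshev.C_add_two, Polynomial.eval_sub, Polynomial.eval_mul,
      Polynomial.eval_X, ← e4, ← ih0, ← ih1]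
    linear_combination h

/-- `λ̄` separates the `p`-torsion points of `E₀` up to sign. -/
theorem eq_or_eq_neg_of_lam_eq (hW : Special2 W) (ha : v W.a₂ ≤ 1) (hb : v W.a₄ < 1)
    (h2 : v (2 : K) < 1) {p : ℕ} (hpv : v (p : K) = 1) {R R' : W.Point}
    (hR : InE0 v R) (hR' : InE0 v R') (hpR : p • R = 0) (hpR' : p • R' = 0)
    (h : lam v R = lam v R') : R' = R ∨ R' = -R := by
  have hD := unit_one_add_four_mul v h2 ha
  have hb' := le_of_lt hb
  unfold lam at h
  rw [red_eq_red_iff v (int_lam_arg v ha hR) (int_lam_arg v ha hR')] at h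
  have hnu : v ((xc R)⁻¹ - (xc R')⁻¹) < 1 := by
    have : (1 + 4 * W.a₂) * (xc R)⁻¹ + 2 - ((1 + 4 * W.a₂) * (xc R')⁻¹ + 2)
        = ((xc R)⁻¹ - (xc R')⁻¹) * (1 + 4 * W.a₂) := by ring
    rw [this] at h
    exact sm_of_mul_unit v hD h
  -- a `p`-torsion point of `E₁` vanishes
  have hE1 : ∀ S : W.Point, InE1 v S → p • S = 0 → S = 0 := fun S hS hpS =>
    no_torsion_E1_2 v hW ha hb' hS p hpv hpS
  cases R with
  | zero =>
    left
    have h0 : v ((0 : K)⁻¹ - (xc R')⁻¹) < 1 := hnu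
    rw [inv_zero, zero_sub, Valuation.map_neg] at h0
    exact hE1 R' ((sm_nu_iff v hR').1 h0) hpR'
  | some x₁ y₁ h₁ =>
    cases R' with
    | zero =>
      exfalso
      have h0 : v (x₁⁻¹ - (0 : K)⁻¹) < 1 := hnu
      rw [inv_zero, sub_zero] at h0
      have := hE1 _ ((sm_nu_iff v hR).1 h0) hpR
      exact Point.some_ne_zero h₁ this
    | some x₂ y₂ h₂ =>
      have hx₁ : v x₁ = 1 := by
        have h1 : 1 ≤ v x₁ := hR
        rcases lt_or_eq_of_le h1 with h' | h'
        · exact absurd (hE1 _ (show InE1 v (Point.some x₁ y₁ h₁) from h') hpR)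
            (Point.some_ne_zero h₁)
        · exact h'.symm
      have hx₂ : v x₂ = 1 := by
        have h1 : 1 ≤ v x₂ := hR'
        rcases lt_or_eq_of_le h1 with h' | h'
        · exact absurd (hE1 _ (show InE1 v (Point.some x₂ y₂ h₂) from h') hpR')
            (Point.some_ne_zero h₂)
        · exact h'.symm
      have hx₁0 : x₁ ≠ 0 := ne_zero_of_unit v hx₁
      have hx₂0 : x₂ ≠ 0 := ne_zero_of_unit v hx₂
      have hxs : v (x₁ - x₂) < 1 := by
        have h0 : v (x₁⁻¹ - x₂⁻¹) < 1 := hnu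
        have : x₁ - x₂ = -((x₁⁻¹ - x₂⁻¹) * (x₁ * x₂)) := by
          field_simp
          ring
        rw [this, Valuation.map_neg]
        exact sm_mul_int v h0 (le_of_eq (unit_mul v hx₁ hx₂))
      have hy₁ : v y₁ ≤ 1 := val_y_le_one2 v hW ha hb' h₁ (le_of_eq hx₁)
      have hy₂ : v y₂ ≤ 1 := val_y_le_one2 v hW ha hb' h₂ (le_of_eq hx₂)
      have e₁ := eqn_of_nonsingular2 hW h₁
      have e₂ := eqn_of_nonsingular2 hW h₂
      have hprod : v ((y₁ - y₂) * (y₁ + y₂ + x₁)) < 1 := by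
        have : (y₁ - y₂) * (y₁ + y₂ + x₁)
            = (x₁ - x₂) * (x₁ ^ 2 + x₁ * x₂ + x₂ ^ 2 + W.a₂ * (x₁ + x₂) + W.a₄ - y₂) := by
          linear_combination e₁ - e₂
        rw [this]
        refine sm_mul_int v hxs (int_sub v (int_add v (int_add v (int_add v (int_add v
          (int_pow v (le_of_eq hx₁) 2) (int_mul v (le_of_eq hx₁) (le_of_eq hx₂)))
          (int_pow v (le_of_eq hx₂) 2)) (int_mul v ha (int_add v (le_of_eq hx₁) (le_of_eq hx₂))))
          hb') hy₂)
      have hns := unit_two_y_add_x v hW ha hb' h2 h₁ hx₁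
      have hpsub : ∀ S : W.Point, p • S = 0 → p • (Point.some x₁ y₁ h₁ - S) = 0 := by
        intro S hS
        rw [nsmul_sub, hpR, hS, sub_zero]
      rcases sm_of_mul_sm v hprod with hy | hy
      · left
        have hE := congr_sub_inE1_2 v hW ha h₁ h₂ (le_of_eq hx₁) (le_of_eq hx₂) hxs hy hns
        have := hE1 _ hE (hpsub _ hpR')
        exact (sub_eq_zero.1 this).symm
      · right
        obtain ⟨h₂', hneg⟩ := neg_some_eq2 hW h₂
        have hy' : v (y₁ - (-y₂ - x₂)) < 1 := by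
          have : y₁ - (-y₂ - x₂) = (y₁ + y₂ + x₁) - (x₁ - x₂) := by ring
          rw [this]
          exact sm_sub v hy hxs
        have hE := congr_sub_inE1_2 v hW ha h₁ h₂' (le_of_eq hx₁) (le_of_eq hx₂) hxs hy' hns
        rw [← hneg] at hE
        have := hE1 _ hE (hpsub _ (by rw [smul_neg, hpR', neg_zero]))
        rw [sub_neg_eq_add] at this
        exact eq_neg_of_add_eq_zero_right this

end Fermat.Agent.S13
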